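/-
S23, piece P1 (c): the dilate `z ↦ f (N z)` of a level one modular form is a modular form on
`Γ₀(N)`, and its `q`-expansion is obtained by spreading out the `q`-expansion of `f`.
-/
import Mathlib
import Fermat.Prelude.Def_ModularForm_HeckeOperator
import Fermat.Prelude.Sol.S_ModularForm_heckeT_slash_eq_self_of_mem_Gamma0
import Fermat.Prelude.Thm_CongruenceSubgroup_one_mem_strictPeriods_Gamma0

set_option autoImplicit false

noncomputable section

open UpperHalfPlane ModularForm ModularFormClass Matrix.SpecialLinearGroup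
open scoped MatrixGroups ModularForm Manifold Pointwise

namespace Fermat.Agent.S23.Dilate

/-- Restriction of a modular form to a smaller group. -/
def restrict {Γ Γ' : Subgroup (GL (Fin 2) ℝ)} {k : ℤ} (h : Γ' ≤ Γ) (f : ModularForm Γ k) :
    ModularForm Γ' k where
  toFun := f
  slash_action_eq' γ hγ := f.slash_action_eq' γ (h hγ)
  holo' := f.holo'
  bdd_at_cusps' hc := f.bdd_at_cusps' (hc.mono h)

@[simp] theorem coe_restrict {Γ Γ' : Subgroup (GL (Fin 2) ℝ)} {k : ℤ} (h : Γ' ≤ Γ)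
    (f : ModularForm Γ k) : (⇑(restrict h f) : ℍ → ℂ) = ⇑f := rfl

open P2MW.S_ModularForm_heckeT_slash_eq_self_of_mem_Gamma0.ModularForm.HeckeSlashInvariance in
theorem gamma0_le_conj (N : ℕ) [NeZero N] :
    (Subgroup.map (mapGL ℝ) (CongruenceSubgroup.Gamma0 N)) ≤
      ConjAct.toConjAct (heckeDiagMatrix N)⁻¹ • 𝒮ℒ := by
  rintro x ⟨γ, hγ, rfl⟩
  rw [Subgroup.mem_pointwise_smul_iff_inv_smul_mem]
  have hdvd : (N : ℤ) ∣ γ 1 0 :=
    (ZMod.intCast_zmod_eq_zero_iff_dvd _ _).mp (CongruenceSubgroup.Gamma0_mem.mp hγ)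
  obtain ⟨e, he⟩ := hdvd
  obtain ⟨γ', -, hmul⟩ := heckeDiagMatrix_mul_of_eq' (NeZero.ne N) γ e he
  refine ⟨γ', ?_⟩
  rw [← map_inv, inv_inv, ConjAct.toConjAct_smul, hmul, mul_inv_cancel_right]

/-- The dilate `z ↦ f (N z)` of a level one modular form, as a modular form on `Γ₀(N)`. -/
def dilate (N : ℕ) [NeZero N] {k : ℤ} (f : ModularForm 𝒮ℒ k) :
    ModularForm (Subgroup.map (mapGL ℝ) (CongruenceSubgroup.Gamma0 N)) k :=
  restrict (gamma0_le_conj N)
    (((N : ℂ) ^ (1 - k)) • ModularForm.translate f (heckeDiagMatrix N))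

theorem dilate_apply (N : ℕ) [NeZero N] {k : ℤ} (f : ModularForm 𝒮ℒ k) (z : ℍ) :
    dilate N f z = f (heckeDiagMatrix N • z) := by
  have hN : (N : ℂ) ≠ 0 := Nat.cast_ne_zero.mpr (NeZero.ne N)
  show ((N : ℂ) ^ (1 - k)) • (⇑f ∣[k] heckeDiagMatrix N) z = f (heckeDiagMatrix N • z)
  rw [slash_heckeDiagMatrix_apply k (NeZero.ne N), smul_eq_mul, ← mul_assoc, ← zpow_add₀ hN]
  simp

theorem qParam_heckeDiagMatrix_smul (N : ℕ) [NeZero N] (z : ℍ) :
    Function.Periodic.qParam 1 ((heckeDiagMatrix N • z : ℍ) : ℂ) =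
      Function.Periodic.qParam 1 (z : ℂ) ^ N := by
  rw [coe_heckeDiagMatrix_smul (NeZero.ne N), Function.Periodic.qParam, Function.Periodic.qParam,
    ← Complex.exp_nat_mul]
  congr 1
  push_cast
  ring

/-- The `q`-expansion of the dilate `z ↦ f (N z)`. -/
theorem coeff_qExpansion_dilate (N : ℕ) [NeZero N] {k : ℤ} (f : ModularForm 𝒮ℒ k) (n : ℕ) :
    (qExpansion 1 (dilate N f)).coeff n =
      if N ∣ n then (qExpansion 1 f).coeff (n / N) else 0 := by
  have hN : 0 < N := Nat.pos_of_ne_zero (NeZero.ne N)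
  set c : ℕ → ℂ := fun n => if N ∣ n then (qExpansion 1 f).coeff (n / N) else 0 with hc
  have hinj : Function.Injective (fun m : ℕ => m * N) := fun a b hab =>
    Nat.eq_of_mul_eq_mul_right hN hab
  have key : ∀ τ : ℍ, HasSum (fun m : ℕ => c m • Function.Periodic.qParam 1 (τ : ℂ) ^ m)
      (dilate N f τ) := by
    intro τ
    have h1 := ModularForm.hasSum_qExpansion f one_pos one_mem_strictPeriods_SL
      (heckeDiagMatrix N • τ)
    rw [dilate_apply]
    rw [← hinj.hasSum_iff]
    · refine h1.congr_fun ?_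
      intro m
      simp only [Function.comp_apply, hc, smul_eq_mul]
      rw [if_pos (Dvd.intro_left m rfl), Nat.mul_div_cancel m hN, qParam_heckeDiagMatrix_smul,
        ← pow_mul, mul_comm N m]
    · intro m hm
      have hnd : ¬ N ∣ m := by
        rintro ⟨j, rfl⟩
        exact hm ⟨j, by simp [mul_comm]⟩
      simp [hc, hnd]
  exact (ModularFormClass.qExpansion_coeff_unique one_pos
    (CongruenceSubgroup.one_mem_strictPeriods_Gamma0 N) key n).symm

/-- Conjugating the `q`-expansion of a dilate is the dilate of the conjugate. -/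
theorem map_qExpansion_dilate (s : ℂ →+* ℂ) (N : ℕ) [NeZero N] {k : ℤ} (f f' : ModularForm 𝒮ℒ k)
    (h : qExpansion 1 f' = PowerSeries.map s (qExpansion 1 f)) :
    qExpansion 1 (dilate N f') = PowerSeries.map s (qExpansion 1 (dilate N f)) := by
  ext n
  rw [PowerSeries.coeff_map, coeff_qExpansion_dilate, coeff_qExpansion_dilate, h]
  split_ifs
  · rw [PowerSeries.coeff_map]
  · rw [map_zero]

end Fermat.Agent.S23.Dilate

end
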