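import Mathlib

/-!
# S23: a weight-free `q`-expansion calculus

`HasQ f P` says that the function `f : ℍ → ℂ` is the sum of the power series `P` in
`q = exp (2 π i z)` at every point of the upper half plane. This relation is stable under sums,
products and powers, every modular form (with `1` as a strict period) satisfies it with its
`q`-expansion, and `HasQ f 0` forces `f = 0`. So polynomial identities between `q`-expansions
transfer to identities between functions without any bookkeeping of weights.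
-/

set_option autoImplicit false

namespace Fermat.Agent.S23.QCalc

open UpperHalfPlane Function

/-- `f` is the sum of the power series `P` in `q = exp (2 π i z)` on the upper half plane. -/
def HasQ (f : ℍ → ℂ) (P : PowerSeries ℂ) : Prop :=
  ∀ z : ℍ, HasSum (fun n : ℕ => PowerSeries.coeff n P * Periodic.qParam 1 (z : ℂ) ^ n) (f z)

theorem HasQ.unique {f g : ℍ → ℂ} {P : PowerSeries ℂ} (hf : HasQ f P) (hg : HasQ g P) : f = g :=
  funext fun z => (hf z).unique (hg z)

theorem hasQ_zero : HasQ 0 0 := fun z => by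
  simp [hasSum_zero]

theorem HasQ.eq_zero {f : ℍ → ℂ} (hf : HasQ f 0) : f = 0 := hf.unique hasQ_zero

theorem HasQ.congr {f g : ℍ → ℂ} {P : PowerSeries ℂ} (hf : HasQ f P) (h : ∀ z, f z = g z) :
    HasQ g P := fun z => h z ▸ hf z

theorem HasQ.add {f g : ℍ → ℂ} {P Q : PowerSeries ℂ} (hf : HasQ f P) (hg : HasQ g Q) :
    HasQ (f + g) (P + Q) := fun z => by
  simpa [add_mul] using (hf z).add (hg z)

theorem HasQ.neg {f : ℍ → ℂ} {P : PowerSeries ℂ} (hf : HasQ f P) : HasQ (-f) (-P) := fun z => by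
  simpa using (hf z).neg

theorem HasQ.sub {f g : ℍ → ℂ} {P Q : PowerSeries ℂ} (hf : HasQ f P) (hg : HasQ g Q) :
    HasQ (f - g) (P - Q) := fun z => by
  simpa [sub_mul] using (hf z).sub (hg z)

theorem HasQ.const_mul {f : ℍ → ℂ} {P : PowerSeries ℂ} (a : ℂ) (hf : HasQ f P) :
    HasQ (fun z => a * f z) (PowerSeries.C a * P) := fun z => by
  simpa [mul_assoc] using (hf z).mul_left a

theorem hasQ_const (a : ℂ) : HasQ (fun _ => a) (PowerSeries.C a) := fun z => by
  have h := hasSum_ite_eq (0 : ℕ) a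
  refine h.congr_fun fun n => ?_
  rcases Nat.eq_zero_or_pos n with rfl | hn
  · simp
  · simp [PowerSeries.coeff_C, hn.ne']

theorem hasQ_one : HasQ 1 1 := by
  have h := hasQ_const 1
  rw [map_one] at h
  exact h

theorem HasQ.sum {ι : Type*} (s : Finset ι) {f : ι → ℍ → ℂ} {P : ι → PowerSeries ℂ}
    (h : ∀ i ∈ s, HasQ (f i) (P i)) : HasQ (∑ i ∈ s, f i) (∑ i ∈ s, P i) := fun z => by
  have := hasSum_sum (fun i hi => h i hi z)
  simpa [Finset.sum_mul, Finset.sum_apply] using this

/-- The series of a `HasQ` function converges absolutely. -/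
theorem HasQ.summable_norm {f : ℍ → ℂ} {P : PowerSeries ℂ} (hf : HasQ f P) (z : ℍ) :
    Summable fun n : ℕ => ‖PowerSeries.coeff n P * Periodic.qParam 1 (z : ℂ) ^ n‖ := by
  -- compare with the point `z / 2`, where `q` is larger in absolute value
  let z' : ℍ := ⟨(z : ℂ) / 2, by
    have : ((z : ℂ) / 2).im = z.im / 2 := by simp
    rw [this]; exact half_pos z.im_pos⟩
  have hq : Periodic.qParam 1 (z : ℂ) = Periodic.qParam 1 ((z' : ℍ) : ℂ) ^ 2 := by
    show Periodic.qParam 1 (z : ℂ) = Periodic.qParam 1 ((z : ℂ) / 2) ^ 2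
    simp only [Periodic.qParam, ← Complex.exp_nat_mul]
    congr 1
    push_cast
    ring
  set w : ℂ := Periodic.qParam 1 ((z' : ℍ) : ℂ) with hw
  have hw1 : ‖w‖ < 1 := Periodic.norm_qParam_lt_one one_pos z'.im_pos
  have hbdd : ∃ C : ℝ, ∀ n : ℕ, ‖PowerSeries.coeff n P * w ^ n‖ ≤ C := by
    have h0 := (hf z').summable.tendsto_atTop_zero
    obtain ⟨C, hC⟩ := (h0.norm).bddAbove_range
    exact ⟨C, fun n => hC ⟨n, rfl⟩⟩
  obtain ⟨C, hC⟩ := hbdd
  have hgeo : Summable fun n : ℕ => C * ‖w‖ ^ n :=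
    (summable_geometric_of_lt_one (norm_nonneg _) hw1).mul_left C
  refine Summable.of_nonneg_of_le (fun n => norm_nonneg _) (fun n => ?_) hgeo
  have : PowerSeries.coeff n P * Periodic.qParam 1 (z : ℂ) ^ n =
      (PowerSeries.coeff n P * w ^ n) * w ^ n := by
    rw [hq]; ring
  rw [this, norm_mul, norm_pow]
  exact mul_le_mul_of_nonneg_right (hC n) (pow_nonneg (norm_nonneg _) _)

theorem HasQ.mul {f g : ℍ → ℂ} {P Q : PowerSeries ℂ} (hf : HasQ f P) (hg : HasQ g Q) :
    HasQ (f * g) (P * Q) := fun z => by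
  have h1 := hf.summable_norm z
  have h2 := hg.summable_norm z
  have hs := summable_norm_sum_mul_antidiagonal_of_summable_norm h1 h2
  have ht := tsum_mul_tsum_eq_tsum_sum_antidiagonal_of_summable_norm h1 h2
  rw [(hf z).tsum_eq, (hg z).tsum_eq] at ht
  have hterm : ∀ n : ℕ, PowerSeries.coeff n (P * Q) * Periodic.qParam 1 (z : ℂ) ^ n =
      ∑ kl ∈ Finset.HasAntidiagonal.antidiagonal n,
        (PowerSeries.coeff kl.1 P * Periodic.qParam 1 (z : ℂ) ^ kl.1) *
          (PowerSeries.coeff kl.2 Q * Periodic.qParam 1 (z : ℂ) ^ kl.2) := by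
    intro n
    rw [PowerSeries.coeff_mul, Finset.sum_mul]
    refine Finset.sum_congr rfl fun kl hkl => ?_
    rw [← Finset.HasAntidiagonal.mem_antidiagonal.mp hkl, pow_add]
    ring
  have hsum : Summable fun n : ℕ => PowerSeries.coeff n (P * Q) * Periodic.qParam 1 (z : ℂ) ^ n := by
    refine Summable.of_norm ?_
    simpa only [hterm] using hs
  have := hsum.hasSum
  rw [show (f * g) z = f z * g z from rfl, ht]
  simpa only [hterm] using this

theorem HasQ.pow {f : ℍ → ℂ} {P : PowerSeries ℂ} (hf : HasQ f P) (n : ℕ) :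
    HasQ (f ^ n) (P ^ n) := by
  induction n with
  | zero => simpa using hasQ_one
  | succ n ih => simpa [pow_succ] using ih.mul hf

/-- A modular form (for a group having `1` as a strict period) is the sum of its `q`-expansion. -/
theorem hasQ_modularForm {F : Type*} [FunLike F ℍ ℂ] {Γ : Subgroup (GL (Fin 2) ℝ)} {k : ℤ}
    [ModularFormClass F Γ k] [Fact (IsCusp OnePoint.infty Γ)] (hΓ : (1 : ℝ) ∈ Γ.strictPeriods)
    (f : F) : HasQ (f : ℍ → ℂ) (qExpansion 1 (f : ℍ → ℂ)) := fun z =>
  ModularForm.hasSum_qExpansion f one_pos hΓ z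

/-- If a modular form is the sum of the power series `P`, then `P` is its `q`-expansion. -/
theorem HasQ.eq_qExpansion {F : Type*} [FunLike F ℍ ℂ] {Γ : Subgroup (GL (Fin 2) ℝ)} {k : ℤ}
    [ModularFormClass F Γ k] (hΓ : (1 : ℝ) ∈ Γ.strictPeriods) (f : F) {P : PowerSeries ℂ}
    (h : HasQ (f : ℍ → ℂ) P) : P = qExpansion 1 (f : ℍ → ℂ) := by
  ext m
  exact ModularFormClass.qExpansion_coeff_unique one_pos hΓ (c := fun n => PowerSeries.coeff n P)
    (fun τ => by simpa [smul_eq_mul] using h τ) m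

open scoped MatrixGroups in
/-- The zero function is only the sum of the zero series. -/
theorem HasQ.series_eq_zero {P : PowerSeries ℂ} (h : HasQ 0 P) : P = 0 := by
  have h1 := HasQ.eq_qExpansion (Γ := 𝒮ℒ) (k := 0) _root_.one_mem_strictPeriods_SL
    (0 : ModularForm 𝒮ℒ 0) (P := P) (by simpa using h)
  rw [h1]
  simpa using qExpansion_zero 1

/-- The series of a `HasQ` function is unique. -/
theorem HasQ.series_unique {f : ℍ → ℂ} {P Q : PowerSeries ℂ} (hf : HasQ f P) (hf' : HasQ f Q) :
    P = Q :=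
  sub_eq_zero.mp (HasQ.series_eq_zero ((hf.sub hf').congr fun z => by simp))

/-- A `HasQ` function with nonzero series is not identically zero. -/
theorem HasQ.exists_ne_zero {f : ℍ → ℂ} {P : PowerSeries ℂ} (hf : HasQ f P) (hP : P ≠ 0) :
    ∃ z, f z ≠ 0 := by
  by_contra h
  push Not at h
  exact hP (HasQ.series_eq_zero (hf.congr h))

end Fermat.Agent.S23.QCalc
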