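/-
S23, piece P1: structure of level one modular forms.
Every level one modular form is a complex linear combination of monomials `E₄ ^ a * E₆ ^ b`.
-/
import Mathlib

set_option autoImplicit false

noncomputable section

open UpperHalfPlane ModularForm ModularFormClass EisensteinSeries
open scoped MatrixGroups ModularForm Manifold

namespace Fermat.Agent.S23.LevelOne

local notation "Δ" => ModularForm.discriminant

/-- The monomial `E₄ ^ a * E₆ ^ b` as a function on the upper half plane. -/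
def monoFun (a b : ℕ) : ℍ → ℂ := fun z => E₄ z ^ a * E₆ z ^ b

/-- The set of monomial functions `E₄ ^ a * E₆ ^ b` of weight `4 a + 6 b = k`. -/
def monoSet (k : ℤ) : Set (ℍ → ℂ) :=
  {φ | ∃ a b : ℕ, (4 * (a : ℤ) + 6 * (b : ℤ)) = k ∧ φ = monoFun a b}

/-- The monomial `E₄ ^ a * E₆ ^ b` as a modular form of weight `k = 4 a + 6 b`. -/
def monoForm {k : ℤ} (a b : ℕ) (h : (4 * (a : ℤ) + 6 * (b : ℤ)) = k) : ModularForm 𝒮ℒ k :=
  ModularForm.mcast (by rw [← h]; ring) ((E₄.pow a).mul (E₆.pow b))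

theorem coe_monoForm {k : ℤ} (a b : ℕ) (h : (4 * (a : ℤ) + 6 * (b : ℤ)) = k) :
    (⇑(monoForm a b h) : ℍ → ℂ) = monoFun a b := by
  ext z
  simp [monoForm, monoFun, ModularForm.coe_mul, ModularForm.coe_pow]

theorem qExpansion_monoFun (a b : ℕ) :
    qExpansion 1 (monoFun a b) = qExpansion 1 E₄ ^ a * qExpansion 1 E₆ ^ b := by
  have h : monoFun a b = (⇑(E₄.pow a) * ⇑(E₆.pow b) : ℍ → ℂ) := by
    ext z
    simp [monoFun, ModularForm.coe_pow]
  rw [h, ModularForm.qExpansion_mul_coe one_pos one_mem_strictPeriods_SL (E₄.pow a) (E₆.pow b),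
    ModularForm.qExpansion_pow one_pos one_mem_strictPeriods_SL,
    ModularForm.qExpansion_pow one_pos one_mem_strictPeriods_SL]

theorem coeff_zero_monoFun (a b : ℕ) : (qExpansion 1 (monoFun a b)).coeff 0 = 1 := by
  rw [qExpansion_monoFun]
  simp [-PowerSeries.coeff_zero_eq_constantCoeff, PowerSeries.coeff_zero_eq_constantCoeff_apply,
    ← PowerSeries.coeff_zero_eq_constantCoeff_apply (qExpansion 1 E₄),
    ← PowerSeries.coeff_zero_eq_constantCoeff_apply (qExpansion 1 E₆),
    E_qExpansion_coeff_zero _ ⟨2, rfl⟩, E_qExpansion_coeff_zero _ ⟨3, rfl⟩]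

theorem discriminant_mul_monoFun (a b : ℕ) :
    (fun z => Δ z * monoFun a b z) =
      (1 / 1728 : ℂ) • (monoFun (a + 3) b - monoFun a (b + 2)) := by
  ext z
  simp only [monoFun, Pi.smul_apply, Pi.sub_apply, smul_eq_mul]
  rw [discriminant_eq_E₄_cube_sub_E₆_sq]
  ring

theorem discriminant_mul_mem_span {k : ℤ} {φ : ℍ → ℂ}
    (hφ : φ ∈ Submodule.span ℂ (monoSet (k - 12))) :
    (fun z => Δ z * φ z) ∈ Submodule.span ℂ (monoSet k) := by
  induction hφ using Submodule.span_induction with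
  | mem x hx =>
    obtain ⟨a, b, hab, rfl⟩ := hx
    rw [discriminant_mul_monoFun]
    refine Submodule.smul_mem _ _ (Submodule.sub_mem _
      (Submodule.subset_span ⟨a + 3, b, ?_, rfl⟩) (Submodule.subset_span ⟨a, b + 2, ?_, rfl⟩))
    · push_cast; linarith
    · push_cast; linarith
  | zero =>
    have h0 : (fun z => Δ z * (0 : ℍ → ℂ) z) = 0 := by ext z; simp
    rw [h0]; exact Submodule.zero_mem _
  | add x y _ _ hx hy =>
    have h0 : (fun z => Δ z * (x + y) z) = (fun z => Δ z * x z) + (fun z => Δ z * y z) := by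
      ext z; simp [mul_add]
    rw [h0]; exact Submodule.add_mem _ hx hy
  | smul c x _ hx =>
    have h0 : (fun z => Δ z * (c • x) z) = c • (fun z => Δ z * x z) := by
      ext z; simp; ring
    rw [h0]; exact Submodule.smul_mem _ _ hx

theorem exists_weight_decomp {k : ℤ} (hev : Even k) (hk4 : 4 ≤ k) :
    ∃ a b : ℕ, (4 * (a : ℤ) + 6 * (b : ℤ)) = k := by
  obtain ⟨m, hm⟩ := hev
  rcases Int.even_or_odd m with ⟨j, hj⟩ | ⟨j, hj⟩
  · refine ⟨j.toNat, 0, ?_⟩
    have hj0 : 0 ≤ j := by omega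
    rw [Int.toNat_of_nonneg hj0]
    push_cast; omega
  · refine ⟨(j - 1).toNat, 1, ?_⟩
    have hj0 : 0 ≤ j - 1 := by omega
    rw [Int.toNat_of_nonneg hj0]
    push_cast; omega

/-- Every level one modular form is a linear combination of monomials `E₄ ^ a * E₆ ^ b`. -/
theorem coe_mem_span_monoSet_aux : ∀ (n : ℕ) (k : ℤ), k ≤ n → ∀ G : ModularForm 𝒮ℒ k,
    (⇑G : ℍ → ℂ) ∈ Submodule.span ℂ (monoSet k) := by
  intro n
  induction n using Nat.strong_induction_on with
  | _ n ih =>
    intro k hk G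
    rcases lt_trichotomy k 0 with hneg | rfl | hpos
    · have h0 : (⇑G : ℍ → ℂ) = 0 := ModularFormClass.levelOne_neg_weight_eq_zero hneg G
      rw [h0]; exact Submodule.zero_mem _
    · obtain ⟨c, hc⟩ := ModularFormClass.levelOne_weight_zero_const G
      have h0 : (⇑G : ℍ → ℂ) = c • monoFun 0 0 := by
        rw [hc]; ext z; simp [monoFun]
      rw [h0]
      exact Submodule.smul_mem _ _ (Submodule.subset_span ⟨0, 0, by simp, rfl⟩)
    · rcases Int.even_or_odd k with hev | hodd
      swap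
      · have h0 : G = 0 := ModularForm.levelOne_odd_weight_eq_zero hodd G
        rw [h0]; exact Submodule.zero_mem _
      by_cases hk2 : k = 2
      · subst hk2
        have : Subsingleton (ModularForm 𝒮ℒ 2) :=
          rank_zero_iff.mp ModularForm.levelOne_weight_two_rank_zero
        have h0 : G = 0 := Subsingleton.elim _ _
        rw [h0]; exact Submodule.zero_mem _
      · have hk4 : 4 ≤ k := by obtain ⟨m, hm⟩ := hev; omega
        obtain ⟨a, b, hab⟩ := exists_weight_decomp hev hk4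
        have hM0 : (qExpansion 1 (monoForm a b hab)).coeff 0 = 1 := by
          rw [coe_monoForm]; exact coeff_zero_monoFun a b
        obtain ⟨g, hg⟩ := ModularForm.sub_smul_isCuspForm G (monoForm a b hab) hM0
        have hH : (⇑(CuspForm.discriminantEquiv g) : ℍ → ℂ) ∈
            Submodule.span ℂ (monoSet (k - 12)) :=
          ih (n - 1) (by omega) (k - 12) (by omega) (CuspForm.discriminantEquiv g)
        have hG : (⇑G : ℍ → ℂ) = (qExpansion 1 G).coeff 0 • monoFun a b +
            fun z => Δ z * (CuspForm.discriminantEquiv g) z := by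
          ext z
          have h1 : (CuspForm.toModularFormₗ g) z =
              (G - (qExpansion 1 G).coeff 0 • monoForm a b hab) z := by rw [hg]
          rw [CuspForm.toModularFormₗ_apply] at h1
          have h2 : (monoForm a b hab) z = monoFun a b z := by rw [coe_monoForm]
          simp only [Pi.add_apply, Pi.smul_apply, smul_eq_mul,
            ModularForm.discriminant_mul_discriminantEquiv_apply, h1, ← h2]
          simp
        rw [hG]
        exact Submodule.add_mem _
          (Submodule.smul_mem _ _ (Submodule.subset_span ⟨a, b, hab, rfl⟩))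
          (discriminant_mul_mem_span hH)

/-- Every level one modular form is a linear combination of monomials `E₄ ^ a * E₆ ^ b`. -/
theorem coe_mem_span_monoSet {k : ℤ} (G : ModularForm 𝒮ℒ k) :
    (⇑G : ℍ → ℂ) ∈ Submodule.span ℂ (monoSet k) :=
  coe_mem_span_monoSet_aux k.toNat k (Int.self_le_toNat k) G

/-! ### Rationality of `q`-expansions and conjugation by ring endomorphisms of `ℂ` -/

theorem map_qExpansion_E (s : ℂ →+* ℂ) {k : ℕ} (hk : 3 ≤ k) (hk2 : Even k) :
    PowerSeries.map s (qExpansion 1 (E hk)) = qExpansion 1 (E hk) := by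
  ext m
  rw [PowerSeries.coeff_map, E_qExpansion_coeff hk hk2 m]
  split_ifs with h
  · simp
  · simp [map_div₀, map_mul, map_neg, map_natCast, map_ratCast, map_ofNat]

theorem map_qExpansion_monoFun (s : ℂ →+* ℂ) (a b : ℕ) :
    PowerSeries.map s (qExpansion 1 (monoFun a b)) = qExpansion 1 (monoFun a b) := by
  rw [qExpansion_monoFun, map_mul, map_pow, map_pow,
    show (E₄ : ModularForm 𝒮ℒ 4) = E (by norm_num : 3 ≤ 4) from rfl,
    show (E₆ : ModularForm 𝒮ℒ 6) = E (by norm_num : 3 ≤ 6) from rfl,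
    map_qExpansion_E s _ ⟨2, rfl⟩, map_qExpansion_E s _ ⟨3, rfl⟩]

/-- Level one modular forms are stable under applying a ring endomorphism of `ℂ` to the
`q`-expansion coefficients. -/
theorem exists_map_qExpansion (s : ℂ →+* ℂ) {k : ℤ} (G : ModularForm 𝒮ℒ k) :
    ∃ G' : ModularForm 𝒮ℒ k, qExpansion 1 G' = PowerSeries.map s (qExpansion 1 G) := by
  have key : ∀ φ ∈ Submodule.span ℂ (monoSet k), ∃ F G' : ModularForm 𝒮ℒ k,
      (⇑F : ℍ → ℂ) = φ ∧ qExpansion 1 G' = PowerSeries.map s (qExpansion 1 F) := by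
    intro φ hφ
    induction hφ using Submodule.span_induction with
    | mem x hx =>
      obtain ⟨a, b, hab, rfl⟩ := hx
      refine ⟨monoForm a b hab, monoForm a b hab, coe_monoForm a b hab, ?_⟩
      rw [coe_monoForm, map_qExpansion_monoFun]
    | zero =>
      refine ⟨0, 0, rfl, ?_⟩
      simp [qExpansion_zero]
    | add x y _ _ hx hy =>
      obtain ⟨F₁, G₁, rfl, h₁⟩ := hx
      obtain ⟨F₂, G₂, rfl, h₂⟩ := hy
      refine ⟨F₁ + F₂, G₁ + G₂, rfl, ?_⟩
      rw [FunLike.coe_add, FunLike.coe_add,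
        ModularForm.qExpansion_add one_pos one_mem_strictPeriods_SL,
        ModularForm.qExpansion_add one_pos one_mem_strictPeriods_SL, map_add, h₁, h₂]
    | smul c x _ hx =>
      obtain ⟨F₁, G₁, rfl, h₁⟩ := hx
      refine ⟨c • F₁, s c • G₁, rfl, ?_⟩
      have e1 : (⇑(s c • G₁) : ℍ → ℂ) = s c • ⇑G₁ := rfl
      have e2 : (⇑(c • F₁) : ℍ → ℂ) = c • ⇑F₁ := rfl
      rw [e1, e2, ModularForm.qExpansion_smul one_pos one_mem_strictPeriods_SL,
        ModularForm.qExpansion_smul one_pos one_mem_strictPeriods_SL, h₁]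
      ext n
      simp [PowerSeries.coeff_map]
  obtain ⟨F, G', hF, hG'⟩ := key _ (coe_mem_span_monoSet G)
  have hFG : F = G := DFunLike.coe_injective hF
  exact ⟨G', hFG ▸ hG'⟩

/-- Level one cusp forms are stable under applying a ring endomorphism of `ℂ` to the
`q`-expansion coefficients. -/
theorem exists_map_qExpansion_cuspForm (s : ℂ →+* ℂ) {k : ℤ} (g : CuspForm 𝒮ℒ k) :
    ∃ g' : CuspForm 𝒮ℒ k, qExpansion 1 g' = PowerSeries.map s (qExpansion 1 g) := by
  obtain ⟨G', hG'⟩ := exists_map_qExpansion s (CuspForm.toModularFormₗ g)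
  have hcoe : (⇑(CuspForm.toModularFormₗ g) : ℍ → ℂ) = ⇑g := rfl
  rw [hcoe] at hG'
  have h0 : (qExpansion 1 G').coeff 0 = 0 := by
    rw [hG', PowerSeries.coeff_map,
      CuspFormClass.qExpansion_coeff_zero g one_pos one_mem_strictPeriods_SL, map_zero]
  exact ⟨ModularForm.toCuspForm G' h0, hG'⟩

/-! ### Weight `12 m`: polynomials in `j = E₄ ^ 3 / Δ` -/

theorem E₆_sq_eq (z : ℍ) : E₆ z ^ 2 = E₄ z ^ 3 - 1728 * Δ z := by
  rw [discriminant_eq_E₄_cube_sub_E₆_sq]
  ring

theorem monoFun_eq_discriminant_pow_mul (a' b' : ℕ) (z : ℍ) :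
    monoFun (3 * a') (2 * b') z =
      Δ z ^ (a' + b') * ((E₄ z ^ 3 / Δ z) ^ a' * (E₄ z ^ 3 / Δ z - 1728) ^ b') := by
  have hΔ : Δ z ≠ 0 := discriminant_ne_zero z
  have h1 : E₄ z ^ 3 / Δ z - 1728 = E₆ z ^ 2 / Δ z := by
    rw [E₆_sq_eq]
    field_simp
  rw [h1, monoFun, div_pow, div_pow, pow_add, pow_mul, pow_mul]
  field_simp

/-- Every level one modular form of weight `12 m` is `Δ ^ m` times a polynomial of degree at
most `m` in `j = E₄ ^ 3 / Δ`. -/
theorem exists_poly_discriminant_pow (m : ℕ) (G : ModularForm 𝒮ℒ (12 * (m : ℤ))) :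
    ∃ p : Polynomial ℂ, p.natDegree ≤ m ∧
      ∀ z : ℍ, G z = Δ z ^ m * p.eval (E₄ z ^ 3 / Δ z) := by
  have key : ∀ φ ∈ Submodule.span ℂ (monoSet (12 * (m : ℤ))), ∃ p : Polynomial ℂ,
      p.natDegree ≤ m ∧ ∀ z : ℍ, φ z = Δ z ^ m * p.eval (E₄ z ^ 3 / Δ z) := by
    intro φ hφ
    induction hφ using Submodule.span_induction with
    | mem x hx =>
      obtain ⟨a, b, hab, rfl⟩ := hx
      obtain ⟨a', rfl⟩ : 3 ∣ a := by omega
      obtain ⟨b', rfl⟩ : 2 ∣ b := by omega
      have hm : a' + b' = m := by omega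
      refine ⟨Polynomial.X ^ a' * (Polynomial.X - Polynomial.C 1728) ^ b', ?_, fun z => ?_⟩
      · refine (Polynomial.natDegree_mul_le).trans ?_
        have h1 : (Polynomial.X ^ a' : Polynomial ℂ).natDegree ≤ a' := by
          simp
        have h2 : ((Polynomial.X - Polynomial.C (1728 : ℂ)) ^ b').natDegree ≤ b' := by
          refine (Polynomial.natDegree_pow_le).trans ?_
          rw [Polynomial.natDegree_X_sub_C, mul_one]
        omega
      · rw [monoFun_eq_discriminant_pow_mul, hm]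
        simp
    | zero => exact ⟨0, by simp, fun z => by simp⟩
    | add x y _ _ hx hy =>
      obtain ⟨p₁, hp₁, h₁⟩ := hx
      obtain ⟨p₂, hp₂, h₂⟩ := hy
      refine ⟨p₁ + p₂, (Polynomial.natDegree_add_le _ _).trans (max_le hp₁ hp₂), fun z => ?_⟩
      rw [Pi.add_apply, h₁, h₂, Polynomial.eval_add]
      ring
    | smul c x _ hx =>
      obtain ⟨p₁, hp₁, h₁⟩ := hx
      refine ⟨Polynomial.C c * p₁, (Polynomial.natDegree_C_mul_le _ _).trans hp₁, fun z => ?_⟩
      rw [Pi.smul_apply, h₁, Polynomial.eval_mul, Polynomial.eval_C, smul_eq_mul]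
      ring
  exact key _ (coe_mem_span_monoSet G)

/-- The discriminant has rational `q`-expansion coefficients. -/
theorem map_qExpansion_discriminant (s : ℂ →+* ℂ) :
    PowerSeries.map s (qExpansion 1 Δ) = qExpansion 1 Δ := by
  have h : (Δ : ℍ → ℂ) = (1 / 1728 : ℂ) • (monoFun 3 0 - monoFun 0 2) := by
    ext z
    simp only [monoFun, Pi.smul_apply, Pi.sub_apply, smul_eq_mul]
    rw [discriminant_eq_E₄_cube_sub_E₆_sq]
    ring
  have h30 : monoFun 3 0 = ⇑(monoForm (k := 12) 3 0 (by norm_num)) := (coe_monoForm _ _ _).symm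
  have h02 : monoFun 0 2 = ⇑(monoForm (k := 12) 0 2 (by norm_num)) := (coe_monoForm _ _ _).symm
  have hq : qExpansion 1 Δ =
      (1 / 1728 : ℂ) • (qExpansion 1 (monoFun 3 0) - qExpansion 1 (monoFun 0 2)) := by
    rw [h, h30, h02, ← FunLike.coe_sub,
      ModularForm.qExpansion_smul one_pos one_mem_strictPeriods_SL, FunLike.coe_sub,
      ModularForm.qExpansion_sub one_pos one_mem_strictPeriods_SL]
  rw [hq]
  ext n
  simp only [PowerSeries.coeff_map, PowerSeries.coeff_smul, map_sub, smul_eq_mul, map_mul]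
  rw [← PowerSeries.coeff_map, ← PowerSeries.coeff_map, map_qExpansion_monoFun,
    map_qExpansion_monoFun]
  simp [map_ofNat]

end Fermat.Agent.S23.LevelOne

end
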