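/-
S23, piece P3: the function `j_N(z) = j(N z)` has degree `[SL(2, ℤ) : Γ₀(N)]` over `ℂ(j)`.
-/
import Mathlib

set_option autoImplicit false

noncomputable section

open UpperHalfPlane Polynomial Filter Topology Function
open scoped MatrixGroups ModularForm Manifold Real

namespace Fermat.Agent.S23.JN

/-- Klein's `j`-function up to the factor 1728: `j = E₄ ^ 3 / Δ`. -/
def jFun (z : ℍ) : ℂ := (ModularForm.E₄ z) ^ 3 / ModularForm.discriminant z

/-- The affine map `z ↦ a z + b` of the upper half plane (for `a > 0`). -/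
def aff (a b : ℝ) (z : ℍ) : ℍ := ofComplex ((a : ℂ) * z + b)

theorem aff_im_pos {a : ℝ} (ha : 0 < a) (b : ℝ) (z : ℍ) : 0 < ((a : ℂ) * z + b).im := by
  simpa using mul_pos ha z.im_pos

theorem coe_aff {a : ℝ} (ha : 0 < a) (b : ℝ) (z : ℍ) : (aff a b z : ℂ) = (a : ℂ) * z + b := by
  simp [aff, ofComplex_apply_of_im_pos (aff_im_pos ha b z)]

theorem im_aff {a : ℝ} (ha : 0 < a) (b : ℝ) (z : ℍ) : (aff a b z).im = a * z.im := by
  have : (aff a b z).im = ((aff a b z : ℍ) : ℂ).im := rfl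
  rw [this, coe_aff ha]
  simp

/-- `z ↦ N z` on the upper half plane. -/
def dil (N : ℕ) (z : ℍ) : ℍ := aff N 0 z

theorem coe_dil (N : ℕ) [NeZero N] (z : ℍ) : (dil N z : ℂ) = (N : ℂ) * z := by
  have hN : (0 : ℝ) < (N : ℝ) := by exact_mod_cast Nat.pos_of_ne_zero (NeZero.ne N)
  simp [dil, coe_aff hN]

/-- `j_N(z) = j(N z)`. -/
def jN (N : ℕ) (z : ℍ) : ℂ := jFun (dil N z)

/-- Bridge to other descriptions of `z ↦ N z`: any `w : ℍ` with `(w : ℂ) = N * z` works. -/
theorem jN_eq_of_coe (N : ℕ) [NeZero N] {z w : ℍ} (h : (w : ℂ) = (N : ℂ) * z) :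
    jN N z = jFun w := by
  have : dil N z = w := UpperHalfPlane.ext (by rw [coe_dil, h])
  rw [jN, this]

theorem jFun_smul (g : SL(2, ℤ)) (z : ℍ) : jFun (g • z) = jFun z := by
  have h4 : ModularForm.E₄ (g • z) = denom g z ^ (4 : ℤ) * ModularForm.E₄ z :=
    SlashInvariantForm.slash_action_eqn'' (Γ := 𝒮ℒ) ModularForm.E₄
      (γ := Matrix.SpecialLinearGroup.mapGL ℝ g) ⟨g, rfl⟩ z
  have h12 : CuspForm.discriminant (g • z) = denom g z ^ (12 : ℤ) * CuspForm.discriminant z :=
    SlashInvariantForm.slash_action_eqn'' (Γ := 𝒮ℒ) CuspForm.discriminant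
      (γ := Matrix.SpecialLinearGroup.mapGL ℝ g) ⟨g, rfl⟩ z
  have hd : denom g z ≠ 0 := denom_ne_zero _ z
  have hΔ : ModularForm.discriminant z ≠ 0 := ModularForm.discriminant_ne_zero z
  simp only [CuspForm.coe_discriminant] at h12
  unfold jFun
  rw [h4, h12]
  field_simp

/-- Holomorphy of a function on the upper half plane, phrased on `ℂ`. -/
def Holo (f : ℍ → ℂ) : Prop := DifferentiableOn ℂ (f ∘ ofComplex) {z : ℂ | 0 < z.im}

theorem holo_iff_mdiff {f : ℍ → ℂ} : Holo f ↔ MDiff f :=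
  UpperHalfPlane.mdifferentiable_iff.symm

theorem holo_jFun : Holo jFun := by
  have h4 : Holo ModularForm.E₄ := holo_iff_mdiff.mpr (ModularFormClass.holo ModularForm.E₄)
  have hΔ : Holo CuspForm.discriminant :=
    holo_iff_mdiff.mpr (ModularFormClass.holo CuspForm.discriminant)
  refine ((h4.pow 3).div hΔ ?_).congr ?_
  · intro z _
    exact ModularForm.discriminant_ne_zero _
  · intro z _
    simp [jFun]

theorem mdiff_jFun : MDiff jFun := holo_iff_mdiff.mp holo_jFun

theorem holo_comp_aff {f : ℍ → ℂ} (hf : Holo f) {a : ℝ} (ha : 0 < a) (b : ℝ) :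
    Holo (fun z => f (aff a b z)) := by
  have hmaps : Set.MapsTo (fun w : ℂ => (a : ℂ) * w + b) {z : ℂ | 0 < z.im} {z : ℂ | 0 < z.im} := by
    intro w hw
    simpa using mul_pos ha hw
  have hd : DifferentiableOn ℂ (fun w : ℂ => (a : ℂ) * w + b) {z : ℂ | 0 < z.im} := by
    fun_prop
  refine (hf.comp hd hmaps).congr ?_
  intro w hw
  have hw' : 0 < w.im := hw
  simp [aff, ofComplex_apply_of_im_pos hw']

theorem holo_jN (N : ℕ) [NeZero N] : Holo (jN N) := by
  have hN : (0 : ℝ) < (N : ℝ) := by exact_mod_cast Nat.pos_of_ne_zero (NeZero.ne N)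
  exact holo_comp_aff holo_jFun hN 0

theorem mdiff_jN (N : ℕ) [NeZero N] : MDiff (jN N) := holo_iff_mdiff.mp (holo_jN N)

/-! ### Asymptotics at the cusp -/

theorem tendsto_E4 : Tendsto (fun z : ℍ => ModularForm.E₄ z) atImInfty (𝓝 1) := by
  have hper : Periodic (⇑ModularForm.E₄ ∘ ofComplex) 1 :=
    SlashInvariantFormClass.periodic_comp_ofComplex ModularForm.E₄ one_mem_strictPeriods_SL
  have han : AnalyticAt ℂ (cuspFunction 1 ModularForm.E₄) 0 :=
    ModularFormClass.analyticAt_cuspFunction_zero ModularForm.E₄ one_pos one_mem_strictPeriods_SL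
  have h0 : cuspFunction 1 ModularForm.E₄ 0 = 1 := by
    have := EisensteinSeries.E_qExpansion_coeff_zero (k := 4) (by norm_num) (by decide)
    simpa [qExpansion_coeff] using this
  have := han.continuousAt.tendsto.comp (qParam_tendsto_atImInfty one_pos)
  rw [h0] at this
  refine this.congr ?_
  intro τ
  simpa using eq_cuspFunction τ one_ne_zero hper

theorem tendsto_jFun_mul_q :
    Tendsto (fun z : ℍ => jFun z * Periodic.qParam 1 z) atImInfty (𝓝 1) := by
  have h1 := (tendsto_E4.pow 3).div ModularForm.tendsto_atImInfty_tprod_one_sub_eta_q_pow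
    one_ne_zero
  simp only [one_pow, div_one] at h1
  refine h1.congr ?_
  intro z
  have hq : Periodic.qParam 1 (z : ℂ) ≠ 0 := Complex.exp_ne_zero _
  have hΔ : ModularForm.discriminant z ≠ 0 := ModularForm.discriminant_ne_zero z
  have hprod : ∏' n, (1 - ModularForm.eta_q n z) ^ 24 ≠ 0 := by
    intro h0
    apply hΔ
    rw [ModularForm.discriminant_eq_q_prod, h0, mul_zero]
  unfold jFun
  rw [ModularForm.discriminant_eq_q_prod]
  simp only [Pi.div_apply]
  field_simp

theorem norm_qParam (z : ℍ) : ‖Periodic.qParam 1 (z : ℂ)‖ = Real.exp (-2 * π * z.im) := by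
  simp [Periodic.qParam, Complex.norm_exp]

theorem tendsto_norm_jFun :
    Tendsto (fun z : ℍ => ‖jFun z‖ * Real.exp (-2 * π * z.im)) atImInfty (𝓝 1) := by
  have := tendsto_jFun_mul_q.norm
  simp only [norm_mul, norm_one, norm_qParam] at this
  exact this


theorem tendsto_aff_atImInfty {a : ℝ} (ha : 0 < a) (b : ℝ) :
    Tendsto (aff a b) atImInfty atImInfty := by
  rw [atImInfty, tendsto_comap_iff]
  have : (UpperHalfPlane.im ∘ aff a b) = fun z : ℍ => a * z.im := by
    funext z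
    simp [im_aff ha]
  rw [this]
  exact Tendsto.const_mul_atTop ha tendsto_comap

theorem tendsto_norm_jFun_aff {a : ℝ} (ha : 0 < a) (b : ℝ) :
    Tendsto (fun z : ℍ => ‖jFun (aff a b z)‖ * Real.exp (-2 * π * a * z.im)) atImInfty
      (𝓝 1) := by
  have := tendsto_norm_jFun.comp (tendsto_aff_atImInfty ha b)
  refine this.congr ?_
  intro z
  simp [im_aff ha, mul_assoc]

/-- The growth rate at the cusp determines the slope of an affine substitution. -/
theorem eq_of_jFun_aff_eq {a a' b b' : ℝ} (ha : 0 < a) (ha' : 0 < a')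
    (h : ∀ z : ℍ, jFun (aff a b z) = jFun (aff a' b' z)) : a = a' := by
  have h1 := tendsto_norm_jFun_aff ha b
  have h2 := tendsto_norm_jFun_aff ha' b'
  have h3 := h1.div h2 one_ne_zero
  simp only [div_one] at h3
  set c : ℝ := -2 * π * (a - a') with hc
  have h4 : Tendsto (fun z : ℍ => Real.exp (c * z.im)) atImInfty (𝓝 1) := by
    refine h3.congr' ?_
    have hne : ∀ᶠ z : ℍ in atImInfty,
        ‖jFun (aff a' b' z)‖ * Real.exp (-2 * π * a' * z.im) ≠ 0 :=
      h2.eventually_ne one_ne_zero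
    filter_upwards [hne] with z hz
    have hz' : ‖jFun (aff a' b' z)‖ ≠ 0 := left_ne_zero_of_mul hz
    simp only [Pi.div_apply]
    rw [h z, mul_div_mul_left _ _ hz', ← Real.exp_sub]
    congr 1
    rw [hc]
    ring
  have hrange : Set.range UpperHalfPlane.im ∈ (atTop : Filter ℝ) :=
    Filter.mem_of_superset (Ioi_mem_atTop 0) (fun y hy => ⟨⟨⟨0, y⟩, hy⟩, rfl⟩)
  have h5 : Tendsto (fun y : ℝ => Real.exp (c * y)) atTop (𝓝 1) := by
    rw [← map_comap_of_mem hrange]
    exact tendsto_map'_iff.mpr h4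
  have h6 : Tendsto (fun y : ℝ => c * y) atTop (𝓝 0) := by
    have := (Real.continuousAt_log one_ne_zero).tendsto.comp h5
    simpa [Function.comp_def, Real.log_exp] using this
  have h7 := h6.mul tendsto_inv_atTop_zero
  have h8 : Tendsto (fun _ : ℝ => c) atTop (𝓝 (0 * 0)) := by
    refine h7.congr' ?_
    filter_upwards [eventually_ne_atTop 0] with y hy
    field_simp
  have hc0 : c = 0 := by
    have := tendsto_nhds_unique tendsto_const_nhds h8
    simpa using this
  have hpi : (-2 * π) ≠ 0 := by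
    have := Real.pi_pos
    linarith
  have : a - a' = 0 := by
    rcases mul_eq_zero.mp (hc ▸ hc0) with h0 | h0
    · exact absurd h0 hpi
    · exact h0
  linarith

/-- `j` takes infinitely many values, i.e. it is transcendental over `ℂ`. -/
theorem eq_zero_of_eval_jFun (p : ℂ[X]) (h : ∀ z : ℍ, p.eval (jFun z) = 0) : p = 0 := by
  by_contra hp
  have hfin : (Set.range jFun).Finite := by
    refine (p.roots.toFinset.finite_toSet).subset ?_
    rintro _ ⟨z, rfl⟩
    simp [Polynomial.mem_roots hp, h z]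
  obtain ⟨M, hM⟩ := hfin.isBounded.exists_norm_le
  have h0 : Tendsto (fun z : ℍ => Real.exp (-2 * π * z.im)) atImInfty (𝓝 0) := by
    have := (qParam_tendsto_atImInfty one_pos).norm
    simpa [norm_qParam] using this
  have h1 : Tendsto (fun z : ℍ => M * Real.exp (-2 * π * z.im)) atImInfty (𝓝 (M * 0)) :=
    h0.const_mul M
  have h2 : (1 : ℝ) ≤ M * 0 :=
    le_of_tendsto_of_tendsto' tendsto_norm_jFun h1
      (fun z => mul_le_mul_of_nonneg_right (hM _ ⟨z, rfl⟩) (Real.exp_pos _).le)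
  simp at h2
  linarith

/-! ### The Hermite normal form of `diag(N, 1) * g` -/

theorem exists_aff_of_smul (N : ℕ) [NeZero N] (g : SL(2, ℤ)) :
    ∃ (A D : ℕ) (B : ℤ), A = Int.gcd (N : ℤ) (g 1 0) ∧ 0 < A ∧ 0 < D ∧ A * D = N ∧
      ((A : ℤ) ∣ g 1 0) ∧
      ∀ z : ℍ, jN N (g • z) = jFun (aff ((A : ℝ) / D) ((B : ℝ) / D) z) := by
  have hNpos : 0 < N := Nat.pos_of_ne_zero (NeZero.ne N)
  have hdet : g 0 0 * g 1 1 - g 0 1 * g 1 0 = 1 := by
    have := g.det_coe
    rw [Matrix.det_fin_two] at this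
    exact this
  set a : ℤ := g 0 0 with ha
  set b : ℤ := g 0 1 with hb
  set c : ℤ := g 1 0 with hc
  set d : ℤ := g 1 1 with hd
  set A : ℕ := Int.gcd (N : ℤ) c with hA
  have hApos : 0 < A := Int.gcd_pos_of_ne_zero_left _ (by exact_mod_cast hNpos.ne')
  have hAN : A ∣ N := Int.natCast_dvd_natCast.mp (Int.gcd_dvd_left _ _)
  obtain ⟨D, hD⟩ := hAN
  have hDpos : 0 < D := by
    rcases Nat.eq_zero_or_pos D with h0 | h0
    · rw [h0, mul_zero] at hD
      omega
    · exact h0
  obtain ⟨c', hc'⟩ : (A : ℤ) ∣ c := Int.gcd_dvd_right _ _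
  have hcop : IsCoprime (D : ℤ) c' := by
    rw [Int.isCoprime_iff_gcd_eq_one]
    have h1 : Int.gcd ((A : ℤ) * D) ((A : ℤ) * c') = A := by
      rw [← hc']
      have : ((A : ℤ) * D) = (N : ℤ) := by
        rw [hD]
        push_cast
        ring
      rw [this]
    rw [Int.gcd_mul_left] at h1
    simp only [Int.natAbs_natCast] at h1
    exact Nat.eq_of_mul_eq_mul_left hApos (by rw [h1, mul_one])
  have hac : IsCoprime a c := ⟨d, -b, by linarith⟩
  have hac' : IsCoprime a c' := by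
    rw [hc'] at hac
    exact hac.of_mul_right_right
  have hcol : IsCoprime ((D : ℤ) * a) c' := hcop.mul_left hac'
  obtain ⟨δ, hδ0, hδ1⟩ := hcol.exists_SL2_col 0
  have hδdet : δ 0 0 * δ 1 1 - δ 0 1 * δ 1 0 = 1 := by
    have := δ.det_coe
    rw [Matrix.det_fin_two] at this
    exact this
  set s : ℤ := δ 0 1 with hs
  set t : ℤ := δ 1 1 with ht
  refine ⟨A, D, t * N * b - s * d, rfl, hApos, hDpos, hD.symm, ⟨c', hc'⟩, ?_⟩
  intro z
  have hDR : (0 : ℝ) < (D : ℝ) := by exact_mod_cast hDpos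
  have hAR : (0 : ℝ) < (A : ℝ) := by exact_mod_cast hApos
  have hpos : (0 : ℝ) < (A : ℝ) / D := div_pos hAR hDR
  have key : dil N (g • z) = δ • aff ((A : ℝ) / D) (((t * N * b - s * d : ℤ) : ℝ) / D) z := by
    apply UpperHalfPlane.ext
    rw [coe_dil, coe_specialLinearGroup_apply, coe_specialLinearGroup_apply, coe_aff hpos]
    have hden1 : ((algebraMap ℤ ℝ (g 1 0) : ℝ) : ℂ) * z + ((algebraMap ℤ ℝ (g 1 1) : ℝ) : ℂ) ≠ 0 :=
      denom_ne_zero (Matrix.SpecialLinearGroup.mapGL ℝ g) z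
    have hden2 : ((algebraMap ℤ ℝ (δ 1 0) : ℝ) : ℂ) *
        ((((A : ℝ) / D : ℝ) : ℂ) * z + ((((t * N * b - s * d : ℤ) : ℝ) / D : ℝ) : ℂ)) +
        ((algebraMap ℤ ℝ (δ 1 1) : ℝ) : ℂ) ≠ 0 := by
      have := denom_ne_zero (Matrix.SpecialLinearGroup.mapGL ℝ δ)
        (aff ((A : ℝ) / D) (((t * N * b - s * d : ℤ) : ℝ) / D) z)
      rw [coe_aff hpos] at this
      exact this
    have hDC : (D : ℂ) ≠ 0 := by exact_mod_cast hDpos.ne'
    rw [hδ0, hδ1] at hδdet
    have i2 : (N : ℤ) * b = δ 0 0 * (t * N * b - s * d) + s * D := by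
      rw [hδ0, hD]
      push_cast
      linear_combination (-(D : ℤ) * A * b) * hδdet + ((D : ℤ) * s) * hdet + ((D : ℤ) * s * b) * hc'
    have i4 : d = δ 1 0 * (t * N * b - s * d) + t * D := by
      rw [hδ1, hD]
      push_cast
      linear_combination (-d) * hδdet + (t * D) * hdet + (t * D * b) * hc'
    have e1 : (N : ℂ) * (a : ℂ) = ((δ 0 0 : ℤ) : ℂ) * (A : ℂ) := by
      rw [hδ0, hD]
      push_cast
      ring
    have e3 : (c : ℂ) = ((δ 1 0 : ℤ) : ℂ) * (A : ℂ) := by
      rw [hδ1, hc']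
      push_cast
      ring
    have e2 : (N : ℂ) * (b : ℂ) =
        ((δ 0 0 : ℤ) : ℂ) * ((t * N * b - s * d : ℤ) : ℂ) + (s : ℂ) * D := by
      exact_mod_cast i2
    have e4 : (d : ℂ) = ((δ 1 0 : ℤ) : ℂ) * ((t * N * b - s * d : ℤ) : ℂ) + (t : ℂ) * D := by
      exact_mod_cast i4
    simp only [algebraMap_int_eq, eq_intCast, Complex.ofReal_intCast, Complex.ofReal_div,
      Complex.ofReal_natCast] at hden1 hden2 ⊢
    rw [mul_div_assoc', div_eq_div_iff hden1 hden2]
    field_simp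
    simp only [← ha, ← hb, ← hc, ← hd, ← hs, ← ht] at e1 e2 e3 e4 ⊢
    linear_combination (-(N : ℂ) * ((a : ℂ) * z + b) * z) * e3 + (-(N : ℂ) * ((a : ℂ) * z + b)) * e4
      + ((z : ℂ) * (z * c + d)) * e1 + ((z : ℂ) * c + d) * e2
  unfold jN
  rw [key, jFun_smul]


theorem jFun_aff_intCast {a : ℝ} (ha : 0 < a) (B : ℤ) (z : ℍ) :
    jFun (aff a (B : ℝ) z) = jFun (aff a 0 z) := by
  have : aff a (B : ℝ) z = ModularGroup.T ^ B • aff a 0 z := by
    rw [modular_T_zpow_smul]
    apply UpperHalfPlane.ext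
    rw [coe_vadd, coe_aff ha, coe_aff ha]
    push_cast
    ring
  rw [this, jFun_smul]

/-- `j_N` is invariant under `Γ₀(N)`. -/
theorem jN_smul_of_mem_Gamma0 (N : ℕ) [NeZero N] {g : SL(2, ℤ)}
    (hg : g ∈ CongruenceSubgroup.Gamma0 N) (z : ℍ) : jN N (g • z) = jN N z := by
  have hNpos : 0 < N := Nat.pos_of_ne_zero (NeZero.ne N)
  obtain ⟨A, D, B, hA, hApos, hDpos, hAD, -, hz⟩ := exists_aff_of_smul N g
  have hdvd : (N : ℤ) ∣ g 1 0 := by
    rw [CongruenceSubgroup.Gamma0_mem] at hg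
    exact (ZMod.intCast_zmod_eq_zero_iff_dvd _ _).mp hg
  have hAN : A = N := by
    rw [hA, Int.gcd_eq_natAbs_left hdvd]
    simp
  have hD1 : D = 1 := by
    rw [hAN] at hAD
    exact Nat.eq_of_mul_eq_mul_left hNpos (by rw [hAD, mul_one])
  rw [hz z, hAN, hD1]
  have hN : (0 : ℝ) < (N : ℝ) := by exact_mod_cast hNpos
  simp only [Nat.cast_one, div_one]
  rw [jFun_aff_intCast hN]
  rfl

/-- If `j_N` is invariant under `g ∈ SL(2, ℤ)`, then `g ∈ Γ₀(N)`. -/
theorem mem_Gamma0_of_jN_smul (N : ℕ) [NeZero N] (g : SL(2, ℤ))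
    (h : ∀ z : ℍ, jN N (g • z) = jN N z) : g ∈ CongruenceSubgroup.Gamma0 N := by
  have hNpos : 0 < N := Nat.pos_of_ne_zero (NeZero.ne N)
  obtain ⟨A, D, B, -, hApos, hDpos, hAD, hAc, hz⟩ := exists_aff_of_smul N g
  have hDR : (0 : ℝ) < (D : ℝ) := by exact_mod_cast hDpos
  have hAR : (0 : ℝ) < (A : ℝ) := by exact_mod_cast hApos
  have hN : (0 : ℝ) < (N : ℝ) := by exact_mod_cast hNpos
  have hslope : (A : ℝ) / D = N := by
    refine eq_of_jFun_aff_eq (b := (B : ℝ) / D) (b' := 0) (div_pos hAR hDR) hN ?_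
    intro z
    rw [← hz z, h z]
    rfl
  have hAND : A = N * D := by
    have : (A : ℝ) = (N : ℝ) * D := by
      rw [← hslope]
      field_simp
    exact_mod_cast this
  have hD1 : D = 1 := by
    have h1 : A * (D * D) = A * 1 := by
      calc A * (D * D) = (A * D) * D := by ring
        _ = N * D := by rw [hAD]
        _ = A * 1 := by rw [← hAND, mul_one]
    have := Nat.eq_of_mul_eq_mul_left hApos h1
    exact Nat.eq_one_of_mul_eq_one_left this
  have hAN : A = N := by rw [hAND, hD1, mul_one]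
  rw [CongruenceSubgroup.Gamma0_mem]
  rw [hAN] at hAc
  exact (ZMod.intCast_zmod_eq_zero_iff_dvd _ _).mpr hAc

/-! ### Finitely many non-zero holomorphic functions have a common non-zero -/

theorem exists_common_ne_zero {ι : Type*} [Finite ι] (f : ι → ℍ → ℂ) (hf : ∀ i, Holo (f i))
    (hne : ∀ i, ∃ z, f i z ≠ 0) : ∃ z : ℍ, ∀ i, f i z ≠ 0 := by
  set U : Set ℂ := {z : ℂ | 0 < z.im} with hU
  have hUo : IsOpen U := isOpen_lt continuous_const Complex.continuous_im
  have hUc : IsPreconnected U := (convex_halfSpace_im_gt 0).isPreconnected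
  have hI : Complex.I ∈ U := by simp [hU]
  have hev : ∀ i, ∀ᶠ w in 𝓝[≠] Complex.I, (f i ∘ ofComplex) w ≠ 0 := by
    intro i
    have han : AnalyticOnNhd ℂ (f i ∘ ofComplex) U := (hf i).analyticOnNhd hUo
    rcases (han Complex.I hI).eventually_eq_zero_or_eventually_ne_zero with h0 | h0
    · exfalso
      obtain ⟨z, hz⟩ := hne i
      have := han.eqOn_zero_of_preconnected_of_eventuallyEq_zero hUc hI h0
      apply hz
      have hz' := this (show (z : ℂ) ∈ U from z.im_pos)
      simpa using hz'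
    · exact h0
  have hall : ∀ᶠ w in 𝓝[≠] Complex.I, ∀ i, (f i ∘ ofComplex) w ≠ 0 := eventually_all.mpr hev
  have hU' : ∀ᶠ w in 𝓝[≠] Complex.I, w ∈ U :=
    eventually_nhdsWithin_of_eventually_nhds (hUo.eventually_mem hI)
  obtain ⟨w, hw, hwU⟩ := (hall.and hU').exists
  refine ⟨⟨w, hwU⟩, fun i => ?_⟩
  have := hw i
  simpa [ofComplex_apply_of_im_pos hwU] using this

/-! ### The degree of `j_N` over `ℂ(j)` -/

/-- `j_N` satisfies no polynomial equation of degree less than `[SL(2, ℤ) : Γ₀(N)]` over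
`ℂ[j]`. -/
theorem jN_degree (N : ℕ) [NeZero N] (p : ℕ → ℂ[X])
    (h : ∀ z : ℍ, ∑ i ∈ Finset.range (CongruenceSubgroup.Gamma0 N).index,
      (p i).eval (jFun z) * jN N z ^ i = 0) :
    ∀ i < (CongruenceSubgroup.Gamma0 N).index, p i = 0 := by
  classical
  by_contra hcon
  push Not at hcon
  obtain ⟨i0, hi0, hp0⟩ := hcon
  have : (CongruenceSubgroup.Gamma0 N).FiniteIndex := inferInstance
  have : Finite (SL(2, ℤ) ⧸ CongruenceSubgroup.Gamma0 N) :=
    Subgroup.finite_quotient_of_finiteIndex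
  let _ : Fintype (SL(2, ℤ) ⧸ CongruenceSubgroup.Gamma0 N) := Fintype.ofFinite _
  have hcard : Fintype.card (SL(2, ℤ) ⧸ CongruenceSubgroup.Gamma0 N) =
      (CongruenceSubgroup.Gamma0 N).index := by
    rw [← Nat.card_eq_fintype_card]
    rfl
  let r : SL(2, ℤ) ⧸ CongruenceSubgroup.Gamma0 N → SL(2, ℤ) := fun q => (Quotient.out q)⁻¹
  let F : SL(2, ℤ) ⧸ CongruenceSubgroup.Gamma0 N → ℍ → ℂ := fun q z => jN N (r q • z)
  have hF : ∀ q, Holo (F q) := by
    intro q
    obtain ⟨A, D, B, -, hA, hD, -, -, hz⟩ := exists_aff_of_smul N (r q)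
    have hDR : (0 : ℝ) < (D : ℝ) := by exact_mod_cast hD
    have hAR : (0 : ℝ) < (A : ℝ) := by exact_mod_cast hA
    have : F q = fun z => jFun (aff ((A : ℝ) / D) ((B : ℝ) / D) z) := funext hz
    rw [this]
    exact holo_comp_aff holo_jFun (div_pos hAR hDR) _
  have hdist : ∀ q q', q ≠ q' → ∃ z, F q z - F q' z ≠ 0 := by
    intro q q' hqq'
    by_contra hall
    push Not at hall
    apply hqq'
    have hmem : (Quotient.out q)⁻¹ * Quotient.out q' ∈ CongruenceSubgroup.Gamma0 N := by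
      apply mem_Gamma0_of_jN_smul
      intro w
      have := hall (Quotient.out q' • w)
      simp only [F, r] at this
      rw [sub_eq_zero, smul_smul, smul_smul, inv_mul_cancel, one_smul] at this
      exact this
    have := (QuotientGroup.eq (s := CongruenceSubgroup.Gamma0 N)).mpr hmem
    simpa using this
  let fam : Option ((SL(2, ℤ) ⧸ CongruenceSubgroup.Gamma0 N) ×
      (SL(2, ℤ) ⧸ CongruenceSubgroup.Gamma0 N)) → ℍ → ℂ := fun o =>
    match o with
    | none => fun z => (p i0).eval (jFun z)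
    | some (q, q') => if q = q' then fun _ => 1 else fun z => F q z - F q' z
  have hfam_holo : ∀ o, Holo (fam o) := by
    intro o
    rcases o with _ | ⟨q, q'⟩
    · show Holo (fun z => (p i0).eval (jFun z))
      have : DifferentiableOn ℂ (fun w => (p i0).eval ((jFun ∘ ofComplex) w)) {z : ℂ | 0 < z.im} :=
        (p i0).differentiable.comp_differentiableOn holo_jFun
      exact this
    · show Holo (if q = q' then fun _ => 1 else fun z => F q z - F q' z)
      split_ifs with hq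
      · exact differentiableOn_const (c := (1 : ℂ))
      · exact (hF q).sub (hF q')
  have hfam_ne : ∀ o, ∃ z, fam o z ≠ 0 := by
    intro o
    rcases o with _ | ⟨q, q'⟩
    · show ∃ z, (p i0).eval (jFun z) ≠ 0
      by_contra hall
      push Not at hall
      exact hp0 (eq_zero_of_eval_jFun _ hall)
    · show ∃ z, (if q = q' then fun _ => 1 else fun z => F q z - F q' z) z ≠ 0
      split_ifs with hq
      · exact ⟨UpperHalfPlane.I, one_ne_zero⟩
      · exact hdist q q' hq
  obtain ⟨z₀, hz₀⟩ := exists_common_ne_zero fam hfam_holo hfam_ne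
  have hG : (p i0).eval (jFun z₀) ≠ 0 := hz₀ none
  have hinj : Function.Injective (fun q => F q z₀) := by
    intro q q' hqq'
    by_contra hne
    have h1 := hz₀ (some (q, q'))
    have h2 : fam (some (q, q')) z₀ = F q z₀ - F q' z₀ := by
      show (if q = q' then fun _ => 1 else fun z => F q z - F q' z) z₀ = _
      rw [if_neg hne]
    rw [h2] at h1
    exact h1 (sub_eq_zero.mpr hqq')
  let P : ℂ[X] := ∑ i ∈ Finset.range (CongruenceSubgroup.Gamma0 N).index,
    C ((p i).eval (jFun z₀)) * X ^ i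
  have hPeval : ∀ q, P.eval (F q z₀) = 0 := by
    intro q
    have h1 := h (r q • z₀)
    simp only [jFun_smul] at h1
    have h2 : P.eval (F q z₀) = ∑ i ∈ Finset.range (CongruenceSubgroup.Gamma0 N).index,
        (p i).eval (jFun z₀) * F q z₀ ^ i := by
      simp [P, eval_finsetSum]
    rw [h2]
    exact h1
  have hdeg : P.natDegree < Fintype.card (SL(2, ℤ) ⧸ CongruenceSubgroup.Gamma0 N) := by
    rw [hcard]
    have hle : P.natDegree ≤ (CongruenceSubgroup.Gamma0 N).index - 1 := by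
      apply Polynomial.natDegree_sum_le_of_forall_le
      intro i hi
      have hi' : i < (CongruenceSubgroup.Gamma0 N).index := Finset.mem_range.mp hi
      exact (natDegree_C_mul_X_pow_le _ _).trans (by omega)
    omega
  have hP0 : P = 0 := eq_zero_of_natDegree_lt_card_of_eval_eq_zero P hinj hPeval hdeg
  have hcoeff : P.coeff i0 = (p i0).eval (jFun z₀) := by
    simp only [P, finsetSum_coeff, coeff_C_mul, coeff_X_pow]
    rw [Finset.sum_eq_single i0]
    · simp
    · intro j _ hj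
      simp [hj.symm]
    · intro hi
      exact absurd (Finset.mem_range.mpr hi0) hi
  rw [hP0] at hcoeff
  exact hG (by simpa using hcoeff.symm)

end Fermat.Agent.S23.JN

end
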