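/-
S23: calculus of "nice" functions on the upper half plane (1-periodic, holomorphic, bounded at
`i∞`): they form a subalgebra on which the `q`-expansion is an injective ring homomorphism.
-/
import Mathlib
import Fermat.Prelude.Thm_CongruenceSubgroup_one_mem_strictPeriods_Gamma0

set_option autoImplicit false

noncomputable section

open UpperHalfPlane ModularForm ModularFormClass CongruenceSubgroup
open scoped MatrixGroups ModularForm Manifold

namespace Fermat.Agent.S23.QNice

/-- A function on `ℍ` is *nice* if it is 1-periodic, holomorphic and bounded at `i∞`. -/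
structure Nice (F : ℍ → ℂ) : Prop where
  per : Function.Periodic (F ∘ ofComplex) 1
  hol : MDifferentiable 𝓘(ℂ) 𝓘(ℂ) F
  bdd : IsBoundedAtImInfty F

theorem Nice.analytic {F : ℍ → ℂ} (h : Nice F) : AnalyticAt ℂ (cuspFunction 1 F) 0 :=
  analyticAt_cuspFunction_zero one_pos h.per h.hol h.bdd

theorem Nice.const (c : ℂ) : Nice (fun _ : ℍ => c) where
  per := fun _ => rfl
  hol := mdifferentiable_const
  bdd := by
    rw [isBoundedAtImInfty_iff]
    exact ⟨‖c‖, 0, fun _ _ => le_rfl⟩

theorem Nice.add {F G : ℍ → ℂ} (hF : Nice F) (hG : Nice G) : Nice (F + G) where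
  per := fun z => by
    have h1 := hF.per z
    have h2 := hG.per z
    simp only [Function.comp_apply, Pi.add_apply] at h1 h2 ⊢
    rw [h1, h2]
  hol := hF.hol.add hG.hol
  bdd := hF.bdd.add hG.bdd

theorem Nice.mul {F G : ℍ → ℂ} (hF : Nice F) (hG : Nice G) : Nice (F * G) where
  per := fun z => by
    have h1 := hF.per z
    have h2 := hG.per z
    simp only [Function.comp_apply, Pi.mul_apply] at h1 h2 ⊢
    rw [h1, h2]
  hol := hF.hol.mul hG.hol
  bdd := hF.bdd.mul hG.bdd

/-- The subalgebra of nice functions. -/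
def niceSub : Subalgebra ℂ (ℍ → ℂ) where
  carrier := {F | Nice F}
  mul_mem' := fun hF hG => hF.mul hG
  add_mem' := fun hF hG => hF.add hG
  algebraMap_mem' := fun c => Nice.const c

theorem mem_niceSub {F : ℍ → ℂ} : F ∈ niceSub ↔ Nice F := Iff.rfl

/-- The `q`-expansion as a ring homomorphism on nice functions. -/
def qHom : niceSub →+* PowerSeries ℂ where
  toFun F := qExpansion 1 (F : ℍ → ℂ)
  map_one' := qExpansion_one 1
  map_mul' F G := qExpansion_mul (Nice.analytic F.2) (Nice.analytic G.2)
  map_zero' := qExpansion_zero 1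
  map_add' F G := qExpansion_add (Nice.analytic F.2) (Nice.analytic G.2)

theorem qHom_apply (F : niceSub) : qHom F = qExpansion 1 (F : ℍ → ℂ) := rfl

theorem qHom_injective : Function.Injective qHom := by
  rw [injective_iff_map_eq_zero]
  intro F hF
  have hN : Nice (F : ℍ → ℂ) := F.2
  have := (qExpansion_eq_zero_iff one_pos hN.per hN.hol hN.bdd).mp hF
  exact Subtype.ext this

/-- Level one modular forms are nice. -/
theorem nice_levelOne {k : ℤ} (G : ModularForm 𝒮ℒ k) : Nice (⇑G) where
  per := SlashInvariantFormClass.periodic_comp_ofComplex G one_mem_strictPeriods_SL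
  hol := ModularFormClass.holo G
  bdd := ModularFormClass.bdd_at_infty G

/-- Level one cusp forms are nice. -/
theorem nice_levelOne_cusp {k : ℤ} (G : CuspForm 𝒮ℒ k) : Nice (⇑G) where
  per := SlashInvariantFormClass.periodic_comp_ofComplex G one_mem_strictPeriods_SL
  hol := CuspFormClass.holo G
  bdd := (CuspFormClass.zero_at_infty G).isBoundedAtImInfty

/-- Modular forms on `Γ₀(N)` are nice. -/
theorem nice_gamma0 {N : ℕ} [NeZero N] {k : ℤ} (G : ModularForm (Gamma0 N) k) : Nice (⇑G) where
  per := SlashInvariantFormClass.periodic_comp_ofComplex G (one_mem_strictPeriods_Gamma0 N)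
  hol := ModularFormClass.holo G
  bdd := ModularFormClass.bdd_at_infty G

/-- Cusp forms on `Γ₀(N)` are nice. -/
theorem nice_gamma0_cusp {N : ℕ} [NeZero N] {k : ℤ} (G : CuspForm (Gamma0 N) k) : Nice (⇑G) where
  per := SlashInvariantFormClass.periodic_comp_ofComplex G (one_mem_strictPeriods_Gamma0 N)
  hol := CuspFormClass.holo G
  bdd := (CuspFormClass.zero_at_infty G).isBoundedAtImInfty

end Fermat.Agent.S23.QNice

end
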