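/-
S23: the two weight-12 forms `u = E₄(N·)³`, `v = Δ(N·)` on `Γ₀(N)` used as interpolation
nodes, and the "nice function" calculus for `q`-expansions (periodic, holomorphic, bounded at `i∞`).
-/
import Mathlib
import Fermat.Agent.S23.LevelOne
import Fermat.Agent.S23.Dilate

set_option autoImplicit false

noncomputable section

open UpperHalfPlane ModularForm ModularFormClass Matrix.SpecialLinearGroup CongruenceSubgroup
open scoped MatrixGroups ModularForm Manifold

namespace Fermat.Agent.S23.UV

/-- `E₄³` as a level one modular form of weight 12. -/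
def E4cube : ModularForm 𝒮ℒ 12 := LevelOne.monoForm (k := 12) 3 0 (by norm_num)

/-- `Δ` as a level one modular form of weight 12. -/
def DeltaMF : ModularForm 𝒮ℒ 12 := CuspForm.toModularFormₗ CuspForm.discriminant

theorem E4cube_apply (z : ℍ) : E4cube z = E₄ z ^ 3 := by
  have h := congrFun (LevelOne.coe_monoForm (k := 12) 3 0 (by norm_num)) z
  simpa [E4cube, LevelOne.monoFun] using h

theorem DeltaMF_apply (z : ℍ) : DeltaMF z = ModularForm.discriminant z := rfl

/-- `u(z) = E₄(N z)³`, a modular form of weight 12 on `Γ₀(N)`. -/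
def uForm (N : ℕ) [NeZero N] : ModularForm (Gamma0 N) 12 := Dilate.dilate N E4cube

/-- `v(z) = Δ(N z)`, a modular form of weight 12 on `Γ₀(N)`. -/
def vForm (N : ℕ) [NeZero N] : ModularForm (Gamma0 N) 12 := Dilate.dilate N DeltaMF

theorem uForm_apply (N : ℕ) [NeZero N] (z : ℍ) :
    uForm N z = E₄ (ModularForm.heckeDiagMatrix N • z) ^ 3 := by
  rw [uForm, Dilate.dilate_apply, E4cube_apply]

theorem vForm_apply (N : ℕ) [NeZero N] (z : ℍ) :
    vForm N z = ModularForm.discriminant (ModularForm.heckeDiagMatrix N • z) := by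
  rw [vForm, Dilate.dilate_apply, DeltaMF_apply]

theorem vForm_ne_zero (N : ℕ) [NeZero N] (z : ℍ) : vForm N z ≠ 0 := by
  rw [vForm_apply]
  exact ModularForm.discriminant_ne_zero _

theorem map_qExpansion_E4cube (s : ℂ →+* ℂ) :
    PowerSeries.map s (qExpansion 1 E4cube) = qExpansion 1 E4cube := by
  have h : (⇑E4cube : ℍ → ℂ) = LevelOne.monoFun 3 0 := LevelOne.coe_monoForm (k := 12) 3 0 (by norm_num)
  rw [h, LevelOne.map_qExpansion_monoFun]

theorem map_qExpansion_DeltaMF (s : ℂ →+* ℂ) :
    PowerSeries.map s (qExpansion 1 DeltaMF) = qExpansion 1 DeltaMF :=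
  LevelOne.map_qExpansion_discriminant s

/-- `u` has a rational `q`-expansion. -/
theorem map_qExpansion_uForm (s : ℂ →+* ℂ) (N : ℕ) [NeZero N] :
    PowerSeries.map s (qExpansion 1 (uForm N)) = qExpansion 1 (uForm N) :=
  (Dilate.map_qExpansion_dilate s N E4cube E4cube (map_qExpansion_E4cube s).symm).symm

/-- `v` has a rational `q`-expansion. -/
theorem map_qExpansion_vForm (s : ℂ →+* ℂ) (N : ℕ) [NeZero N] :
    PowerSeries.map s (qExpansion 1 (vForm N)) = qExpansion 1 (vForm N) :=
  (Dilate.map_qExpansion_dilate s N DeltaMF DeltaMF (map_qExpansion_DeltaMF s).symm).symm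

end Fermat.Agent.S23.UV

end
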