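/-
S23, piece DIST: the translates of `j_N = u / v` (`u = E₄(N z) ^ 3`, `v = Δ(N z)`) under
`SL(2, ℤ)` are distinct outside `Γ₀(N)`.
-/
import Fermat.Agent.S23.JN
import Fermat.Agent.S23.Dilate
import Fermat.Agent.S23.LevelOne
import Fermat.Agent.S23.UV

set_option autoImplicit false

noncomputable section

open UpperHalfPlane ModularForm ModularFormClass EisensteinSeries CongruenceSubgroup
open scoped MatrixGroups ModularForm Manifold

namespace Fermat.Agent.S23.Dist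

open Fermat.Agent.S23.JN Fermat.Agent.S23.Dilate Fermat.Agent.S23.LevelOne

/-- Bridge between `dilate` and `jN`: `j_N = u / v`. -/
theorem jN_eq_div (N : ℕ) [NeZero N] {k : ℤ} (U V : ModularForm 𝒮ℒ k)
    (hU : ∀ z, U z = E₄ z ^ 3) (hV : ∀ z, V z = ModularForm.discriminant z) (z : ℍ) :
    jN N z = dilate N U z / dilate N V z := by
  rw [dilate_apply, dilate_apply, hU, hV,
    jN_eq_of_coe N (w := heckeDiagMatrix N • z) (coe_heckeDiagMatrix_smul (NeZero.ne N) z)]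
  rfl

theorem dilate_ne_zero (N : ℕ) [NeZero N] {k : ℤ} (V : ModularForm 𝒮ℒ k)
    (hV : ∀ z, V z = ModularForm.discriminant z) (z : ℍ) : dilate N V z ≠ 0 := by
  rw [dilate_apply, hV]
  exact ModularForm.discriminant_ne_zero _

/-- General form of DIST: if `g ∉ Γ₀(N)` then `u · (v ∣ g) ≠ v · (u ∣ g)`. -/
theorem exists_ne_of_notMem_Gamma0 (N : ℕ) [NeZero N] {k : ℤ} (U V : ModularForm 𝒮ℒ k)
    (hU : ∀ z, U z = E₄ z ^ 3) (hV : ∀ z, V z = ModularForm.discriminant z)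
    (g : SL(2, ℤ)) (hg : g ∉ CongruenceSubgroup.Gamma0 N) :
    ∃ τ : ℍ, dilate N U τ * ((⇑(dilate N V) : ℍ → ℂ) ∣[k] g) τ ≠
      dilate N V τ * ((⇑(dilate N U) : ℍ → ℂ) ∣[k] g) τ := by
  by_contra hcon
  push Not at hcon
  apply hg
  apply mem_Gamma0_of_jN_smul
  intro z
  have h := hcon z
  rw [ModularForm.SL_slash_apply, ModularForm.SL_slash_apply] at h
  have hd : denom g z ^ (-k) ≠ 0 := zpow_ne_zero _ (denom_ne_zero _ z)
  have hv1 : dilate N V z ≠ 0 := dilate_ne_zero N V hV z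
  have hv2 : dilate N V (g • z) ≠ 0 := dilate_ne_zero N V hV (g • z)
  rw [jN_eq_div N U V hU hV, jN_eq_div N U V hU hV, div_eq_div_iff hv2 hv1]
  have h' : dilate N U z * dilate N V (g • z) = dilate N V z * dilate N U (g • z) := by
    apply mul_right_cancel₀ hd
    linear_combination h
  linear_combination -h'

/-- `j_N = u / v` for the forms `u = UV.uForm N`, `v = UV.vForm N`. -/
theorem jN_eq_uForm_div_vForm (N : ℕ) [NeZero N] (z : ℍ) :
    jN N z = UV.uForm N z / UV.vForm N z :=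
  jN_eq_div N UV.E4cube UV.DeltaMF UV.E4cube_apply UV.DeltaMF_apply z

/-- DIST: for `g ∉ Γ₀(N)` the function `u · (v ∣ g) - v · (u ∣ g)` is not identically zero. -/
theorem uv_dist (N : ℕ) [NeZero N] (g : SL(2, ℤ)) (hg : g ∉ Gamma0 N) :
    ∃ τ : ℍ, UV.uForm N τ * ((⇑(UV.vForm N) : ℍ → ℂ) ∣[(12 : ℤ)] g) τ ≠
      UV.vForm N τ * ((⇑(UV.uForm N) : ℍ → ℂ) ∣[(12 : ℤ)] g) τ :=
  exists_ne_of_notMem_Gamma0 N UV.E4cube UV.DeltaMF UV.E4cube_apply UV.DeltaMF_apply g hg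

end Fermat.Agent.S23.Dist

end
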