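import Mathlib

set_option autoImplicit false

open UpperHalfPlane

open scoped ModularForm Topology Filter Manifold MatrixGroups

noncomputable section

namespace Fermat.Agent.S23.NormPoly

variable {𝒢 ℋ : Subgroup (GL (Fin 2) ℝ)} {F : Type*} [FunLike F ℍ ℂ] {k : ℤ}

local notation "𝒬" => ℋ ⧸ (𝒢.subgroupOf ℋ)

open SlashInvariantForm

/-- Reindexing a sum over the `m`-element subsets of a fintype by a permutation. -/
theorem sum_powersetCard_univ_map {α : Type*} [Fintype α] [DecidableEq α] {M : Type*}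
    [AddCommMonoid M] (e : α ≃ α) (m : ℕ) (g : Finset α → M) :
    ∑ t ∈ (Finset.univ : Finset α).powersetCard m, g (t.map e.toEmbedding) =
      ∑ t ∈ (Finset.univ : Finset α).powersetCard m, g t := by
  refine Finset.sum_nbij' (fun t => t.map e.toEmbedding) (fun t => t.map e.symm.toEmbedding)
    ?_ ?_ ?_ ?_ ?_
  · intro t ht
    simp only [Finset.mem_powersetCard_univ] at ht ⊢
    rw [Finset.card_map, ht]
  · intro t ht
    simp only [Finset.mem_powersetCard_univ] at ht ⊢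
    rw [Finset.card_map, ht]
  · intro t _
    ext x
    simp
  · intro t _
    ext x
    simp
  · intro t _
    rfl

section esymm

variable (ℋ) [𝒢.IsFiniteRelIndex ℋ]

/-- The `m`-th elementary symmetric function of the `ℋ`-translates of `f`. -/
def esymmFun [SlashInvariantFormClass F 𝒢 k] (f : F) (m : ℕ) : ℍ → ℂ :=
  letI := Fintype.ofFinite 𝒬
  ∑ t ∈ (Finset.univ : Finset 𝒬).powersetCard m, ∏ q ∈ t, quotientFunc f q

theorem esymmFun_eq [SlashInvariantFormClass F 𝒢 k] [Fintype 𝒬] (f : F) (m : ℕ) :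
    esymmFun ℋ f m =
      ∑ t ∈ (Finset.univ : Finset 𝒬).powersetCard m, ∏ q ∈ t, quotientFunc f q := by
  unfold esymmFun
  congr!

theorem esymmFun_slash [ℋ.HasDetPlusMinusOne] [SlashInvariantFormClass F 𝒢 k] (f : F) (m : ℕ)
    {h : GL (Fin 2) ℝ} (hh : h ∈ ℋ) :
    esymmFun ℋ f m ∣[k * m] h = esymmFun ℋ f m := by
  classical
  let := Fintype.ofFinite 𝒬
  rw [esymmFun_eq, SlashAction.sum_slash]
  have key : ∀ t ∈ (Finset.univ : Finset 𝒬).powersetCard m,
      (∏ q ∈ t, quotientFunc f q) ∣[k * m] h =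
        ∏ q ∈ t.map (MulAction.toPerm (⟨h, hh⟩ : ℋ)⁻¹).toEmbedding, quotientFunc f q := by
    intro t ht
    have hc : t.card = m := (Finset.mem_powersetCard_univ.1 ht)
    rw [← hc, ModularForm.prod_slash, Subgroup.HasDetPlusMinusOne.abs_det hh, one_zpow, one_smul,
      Finset.prod_map]
    refine Finset.prod_congr rfl fun q _ => ?_
    rw [quotientFunc_smul f hh]
    rfl
  rw [Finset.sum_congr rfl key]
  exact sum_powersetCard_univ_map (MulAction.toPerm (⟨h, hh⟩ : ℋ)⁻¹) m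
    (fun t => ∏ q ∈ t, quotientFunc f q)

omit [𝒢.IsFiniteRelIndex ℋ] in
theorem mdiff_quotientFunc [ModularFormClass F 𝒢 k] (f : F) (q : 𝒬) :
    MDiff (quotientFunc f q) := by
  induction q using Quotient.inductionOn with
  | h r => exact (ModularForm.translate f r.val⁻¹).holo'

omit [𝒢.IsFiniteRelIndex ℋ] in
theorem isBoundedAtImInfty_quotientFunc_slash [𝒢.IsFiniteRelIndex ℋ] [ModularFormClass F 𝒢 k]
    (f : F) (q : 𝒬) {γ : GL (Fin 2) ℝ} (hγ : IsCusp (γ • OnePoint.infty) ℋ) :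
    IsBoundedAtImInfty (quotientFunc f q ∣[k] γ) := by
  induction q using Quotient.inductionOn with
  | h r =>
    obtain ⟨r, hr⟩ := r
    refine (ModularForm.translate f r⁻¹).bdd_at_cusps' ?_ γ rfl
    simpa using hγ.of_isFiniteRelIndex_conj hr

omit [𝒢.IsFiniteRelIndex ℋ] in
theorem isZeroAtImInfty_quotientFunc_slash [𝒢.IsFiniteRelIndex ℋ] [CuspFormClass F 𝒢 k]
    (f : F) (q : 𝒬) {γ : GL (Fin 2) ℝ} (hγ : IsCusp (γ • OnePoint.infty) ℋ) :
    IsZeroAtImInfty (quotientFunc f q ∣[k] γ) := by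
  induction q using Quotient.inductionOn with
  | h r =>
    obtain ⟨r, hr⟩ := r
    refine (CuspForm.translate f r⁻¹).zero_at_cusps' ?_ γ rfl
    simpa using hγ.of_isFiniteRelIndex_conj hr

theorem esymmFun_slash_eq [SlashInvariantFormClass F 𝒢 k] [Fintype 𝒬] (f : F) (m : ℕ)
    (γ : GL (Fin 2) ℝ) :
    esymmFun ℋ f m ∣[k * m] γ =
      ∑ t ∈ (Finset.univ : Finset 𝒬).powersetCard m,
        |γ.det.val| ^ ((m : ℤ) - 1) • ∏ q ∈ t, quotientFunc f q ∣[k] γ := by
  rw [esymmFun_eq, SlashAction.sum_slash]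
  refine Finset.sum_congr rfl fun t ht => ?_
  have hc : t.card = m := (Finset.mem_powersetCard_univ.1 ht)
  rw [← hc, ModularForm.prod_slash]

/-- The elementary symmetric functions of the translates, as slash invariant forms. -/
def esymmSIF [ℋ.HasDetPlusMinusOne] [SlashInvariantFormClass F 𝒢 k] (f : F) (m : ℕ) :
    SlashInvariantForm ℋ (k * m) where
  toFun := esymmFun ℋ f m
  slash_action_eq' _ hh := esymmFun_slash ℋ f m hh

/-- The elementary symmetric functions of the translates, as modular forms. -/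
def esymmMF [ℋ.HasDetPlusMinusOne] [ModularFormClass F 𝒢 k] (f : F) (m : ℕ) :
    ModularForm ℋ (k * m) where
  __ := esymmSIF ℋ f m
  holo' := by
    let := Fintype.ofFinite 𝒬
    show MDiff (esymmFun ℋ f m)
    rw [esymmFun_eq]
    exact .sum fun t _ => .prod fun q _ => mdiff_quotientFunc ℋ f q
  bdd_at_cusps' h γ := by
    rintro rfl
    let := Fintype.ofFinite 𝒬
    show IsBoundedAtImInfty (esymmFun ℋ f m ∣[k * m] γ)
    rw [esymmFun_slash_eq]
    refine (Filter.boundedFilterSubmodule ℂ atImInfty).sum_mem fun t _ => ?_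
    refine Filter.BoundedAtFilter.smul _ ?_
    exact Filter.BoundedAtFilter.prod t fun q _ =>
      isBoundedAtImInfty_quotientFunc_slash ℋ f q h

@[simp] theorem coe_esymmMF [ℋ.HasDetPlusMinusOne] [ModularFormClass F 𝒢 k] (f : F) (m : ℕ) :
    ⇑(esymmMF ℋ f m) = esymmFun ℋ f m := rfl

/-- The elementary symmetric functions (of positive degree) of the translates of a cusp form,
as cusp forms. -/
def esymmCF [ℋ.HasDetPlusMinusOne] [CuspFormClass F 𝒢 k] (f : F) {m : ℕ} (hm : 0 < m) :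
    CuspForm ℋ (k * m) where
  __ := esymmSIF ℋ f m
  holo' := by
    let := Fintype.ofFinite 𝒬
    show MDiff (esymmFun ℋ f m)
    rw [esymmFun_eq]
    exact .sum fun t _ => .prod fun q _ => by
      induction q using Quotient.inductionOn with
      | h r => exact (CuspForm.translate f r.val⁻¹).holo'
  zero_at_cusps' h γ := by
    classical
    rintro rfl
    let := Fintype.ofFinite 𝒬
    show IsZeroAtImInfty (esymmFun ℋ f m ∣[k * m] γ)
    rw [esymmFun_slash_eq]
    refine (Filter.zeroAtFilterSubmodule ℂ atImInfty).sum_mem fun t ht => ?_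
    have hc : t.card = m := (Finset.mem_powersetCard_univ.1 ht)
    obtain ⟨q₀, hq₀⟩ : t.Nonempty := Finset.card_pos.1 (hc ▸ hm)
    refine Filter.ZeroAtFilter.smul _ ?_
    rw [← Finset.mul_prod_erase t _ hq₀]
    refine Filter.ZeroAtFilter.mul_boundedAtFilter
      (isZeroAtImInfty_quotientFunc_slash ℋ f q₀ h) ?_
    exact Filter.BoundedAtFilter.prod _ fun q _ =>
      (isZeroAtImInfty_quotientFunc_slash ℋ f q h).boundedAtFilter

@[simp] theorem coe_esymmCF [ℋ.HasDetPlusMinusOne] [CuspFormClass F 𝒢 k] (f : F) {m : ℕ}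
    (hm : 0 < m) : ⇑(esymmCF ℋ f hm) = esymmFun ℋ f m := rfl

theorem esymmFun_apply [SlashInvariantFormClass F 𝒢 k] [Fintype 𝒬] (f : F) (m : ℕ) (τ : ℍ) :
    esymmFun ℋ f m τ =
      ∑ t ∈ (Finset.univ : Finset 𝒬).powersetCard m, ∏ q ∈ t, quotientFunc f q τ := by
  rw [esymmFun_eq]
  simp [Finset.sum_apply, Finset.prod_apply]

/-- Vieta: the form `f` is a root of the polynomial whose coefficients are (up to sign) the
elementary symmetric functions of its translates. -/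
theorem sum_esymmFun_mul_pow_eq_zero [SlashInvariantFormClass F 𝒢 k] (f : F) (τ : ℍ) :
    ∑ m ∈ Finset.range (Nat.card 𝒬 + 1),
      (-1 : ℂ) ^ m * esymmFun ℋ f m τ * (f τ) ^ (Nat.card 𝒬 - m) = 0 := by
  classical
  let := Fintype.ofFinite 𝒬
  set s : Multiset ℂ := (Finset.univ : Finset 𝒬).val.map (fun q => quotientFunc f q τ) with hs
  have hcard : Multiset.card s = Nat.card 𝒬 := by
    rw [hs, Multiset.card_map, Nat.card_eq_fintype_card]
    rfl
  have h := congrArg (Polynomial.eval (f τ)) (Multiset.prod_X_sub_X_eq_sum_esymm s)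
  have hzero : Polynomial.eval (f τ) (s.map fun t => Polynomial.X - Polynomial.C t).prod = 0 := by
    rw [Polynomial.eval_multiset_prod]
    apply Multiset.prod_eq_zero
    rw [Multiset.mem_map]
    refine ⟨Polynomial.X - Polynomial.C (f τ), ?_, by simp⟩
    rw [Multiset.mem_map]
    refine ⟨f τ, ?_, rfl⟩
    rw [hs, Multiset.mem_map]
    refine ⟨(⟦(1 : ℋ)⟧ : 𝒬), Finset.mem_univ_val _, ?_⟩
    rw [quotientFunc_mk]
    simp
  rw [hzero, Polynomial.eval_finsetSum, hcard] at h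
  rw [h]
  refine Finset.sum_congr rfl fun m _ => ?_
  rw [esymmFun_apply, hs, Finset.esymm_map_val]
  simp only [Polynomial.eval_mul, Polynomial.eval_pow, Polynomial.eval_neg, Polynomial.eval_one,
    Polynomial.eval_C, Polynomial.eval_X, mul_assoc]

end esymm

section mixed

variable (ℋ) [𝒢.IsFiniteRelIndex ℋ] {F' : Type*} [FunLike F' ℍ ℂ] {w : ℤ}

open Classical in
/-- The coefficient functions of the homogeneous norm polynomial `∏ q, (X • Q_q - Y • P_q)` of two
forms `P`, `Q` of the same weight: `mixedFun ℋ P Q m = ∑ |t| = m, (∏ q ∈ t, P_q) * ∏ q ∉ t, Q_q`.-/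
def mixedFun [SlashInvariantFormClass F 𝒢 w] [SlashInvariantFormClass F' 𝒢 w] (P : F) (Q : F')
    (m : ℕ) : ℍ → ℂ :=
  letI := Fintype.ofFinite 𝒬
  ∑ t ∈ (Finset.univ : Finset 𝒬).powersetCard m,
    ∏ q : 𝒬, (if q ∈ t then quotientFunc P q else quotientFunc Q q)

theorem mixedFun_eq [SlashInvariantFormClass F 𝒢 w] [SlashInvariantFormClass F' 𝒢 w] [Fintype 𝒬]
    [DecidableEq 𝒬] (P : F) (Q : F') (m : ℕ) :
    mixedFun ℋ P Q m = ∑ t ∈ (Finset.univ : Finset 𝒬).powersetCard m,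
      ∏ q : 𝒬, (if q ∈ t then quotientFunc P q else quotientFunc Q q) := by
  unfold mixedFun
  congr!

theorem mixedFun_slash_eq [SlashInvariantFormClass F 𝒢 w] [SlashInvariantFormClass F' 𝒢 w]
    [Fintype 𝒬] [DecidableEq 𝒬] (P : F) (Q : F') (m : ℕ) (γ : GL (Fin 2) ℝ) :
    mixedFun ℋ P Q m ∣[w * Nat.card 𝒬] γ =
      ∑ t ∈ (Finset.univ : Finset 𝒬).powersetCard m,
        |γ.det.val| ^ ((Nat.card 𝒬 : ℤ) - 1) •
          ∏ q : 𝒬, (if q ∈ t then quotientFunc P q ∣[w] γ else quotientFunc Q q ∣[w] γ) := by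
  rw [mixedFun_eq, SlashAction.sum_slash]
  refine Finset.sum_congr rfl fun t _ => ?_
  rw [Nat.card_eq_fintype_card, ← Finset.card_univ, ModularForm.prod_slash]
  congr 1
  refine Finset.prod_congr rfl fun q _ => ?_
  split_ifs <;> rfl

theorem mixedFun_slash [ℋ.HasDetPlusMinusOne] [SlashInvariantFormClass F 𝒢 w]
    [SlashInvariantFormClass F' 𝒢 w] (P : F) (Q : F') (m : ℕ)
    {h : GL (Fin 2) ℝ} (hh : h ∈ ℋ) :
    mixedFun ℋ P Q m ∣[w * Nat.card 𝒬] h = mixedFun ℋ P Q m := by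
  classical
  let := Fintype.ofFinite 𝒬
  rw [mixedFun_slash_eq, mixedFun_eq, Subgroup.HasDetPlusMinusOne.abs_det hh]
  simp only [one_zpow, one_smul]
  set e : 𝒬 ≃ 𝒬 := MulAction.toPerm (⟨h, hh⟩ : ℋ)⁻¹ with he
  have key : ∀ t ∈ (Finset.univ : Finset 𝒬).powersetCard m,
      (∏ q : 𝒬, (if q ∈ t then quotientFunc P q ∣[w] h else quotientFunc Q q ∣[w] h)) =
        ∏ q : 𝒬, (if q ∈ t.map e.toEmbedding then quotientFunc P q else quotientFunc Q q) := by
    intro t _
    rw [← Equiv.prod_comp e (fun q => if q ∈ t.map e.toEmbedding then quotientFunc P q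
      else quotientFunc Q q)]
    refine Finset.prod_congr rfl fun q _ => ?_
    have hmem : e q ∈ t.map e.toEmbedding ↔ q ∈ t := by
      rw [Finset.mem_map_equiv, Equiv.symm_apply_apply]
    simp only [hmem]
    rw [quotientFunc_smul P hh, quotientFunc_smul Q hh]
    rfl
  rw [Finset.sum_congr rfl key]
  exact sum_powersetCard_univ_map e m
    (fun t => ∏ q : 𝒬, (if q ∈ t then quotientFunc P q else quotientFunc Q q))

/-- The coefficient functions of the norm polynomial, as slash invariant forms. -/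
def mixedSIF [ℋ.HasDetPlusMinusOne] [SlashInvariantFormClass F 𝒢 w]
    [SlashInvariantFormClass F' 𝒢 w] (P : F) (Q : F') (m : ℕ) :
    SlashInvariantForm ℋ (w * Nat.card 𝒬) where
  toFun := mixedFun ℋ P Q m
  slash_action_eq' _ hh := mixedFun_slash ℋ P Q m hh

/-- The coefficient functions of the norm polynomial, as modular forms. -/
def mixedMF [ℋ.HasDetPlusMinusOne] [ModularFormClass F 𝒢 w] [ModularFormClass F' 𝒢 w]
    (P : F) (Q : F') (m : ℕ) : ModularForm ℋ (w * Nat.card 𝒬) where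
  __ := mixedSIF ℋ P Q m
  holo' := by
    classical
    let := Fintype.ofFinite 𝒬
    show MDiff (mixedFun ℋ P Q m)
    rw [mixedFun_eq]
    refine .sum fun t _ => .prod fun q _ => ?_
    split_ifs
    · exact mdiff_quotientFunc ℋ P q
    · exact mdiff_quotientFunc ℋ Q q
  bdd_at_cusps' h γ := by
    classical
    rintro rfl
    let := Fintype.ofFinite 𝒬
    show IsBoundedAtImInfty (mixedFun ℋ P Q m ∣[w * Nat.card 𝒬] γ)
    rw [mixedFun_slash_eq]
    refine (Filter.boundedFilterSubmodule ℂ atImInfty).sum_mem fun t _ => ?_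
    refine Filter.BoundedAtFilter.smul _ ?_
    refine Filter.BoundedAtFilter.prod _ fun q _ => ?_
    split_ifs
    · exact isBoundedAtImInfty_quotientFunc_slash ℋ P q h
    · exact isBoundedAtImInfty_quotientFunc_slash ℋ Q q h

@[simp] theorem coe_mixedMF [ℋ.HasDetPlusMinusOne] [ModularFormClass F 𝒢 w]
    [ModularFormClass F' 𝒢 w] (P : F) (Q : F') (m : ℕ) :
    ⇑(mixedMF ℋ P Q m) = mixedFun ℋ P Q m := rfl

theorem mixedFun_apply [SlashInvariantFormClass F 𝒢 w] [SlashInvariantFormClass F' 𝒢 w]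
    [Fintype 𝒬] [DecidableEq 𝒬] (P : F) (Q : F') (m : ℕ) (τ : ℍ) :
    mixedFun ℋ P Q m τ = ∑ t ∈ (Finset.univ : Finset 𝒬).powersetCard m,
      (∏ q ∈ t, quotientFunc P q τ) * ∏ q ∈ tᶜ, quotientFunc Q q τ := by
  rw [mixedFun_eq, Finset.sum_apply]
  refine Finset.sum_congr rfl fun t _ => ?_
  rw [Finset.prod_apply, ← Finset.prod_mul_prod_compl t]
  congr 1
  · refine Finset.prod_congr rfl fun q hq => ?_
    rw [if_pos hq]
  · refine Finset.prod_congr rfl fun q hq => ?_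
    rw [if_neg (Finset.mem_compl.1 hq)]

/-- `mixedFun ℋ P Q 0` is the norm of `Q`. -/
theorem mixedFun_zero [SlashInvariantFormClass F 𝒢 w] [SlashInvariantFormClass F' 𝒢 w]
    [Fintype 𝒬] (P : F) (Q : F') (τ : ℍ) :
    mixedFun ℋ P Q 0 τ = ∏ q : 𝒬, quotientFunc Q q τ := by
  classical
  rw [mixedFun_apply]
  simp

/-- The norm-polynomial relation: `∑ m, (-1)^m * M_m * P^(μ-m) * Q^m = 0`. -/
theorem sum_mixedFun_mul_pow_eq_zero [SlashInvariantFormClass F 𝒢 w]
    [SlashInvariantFormClass F' 𝒢 w] (P : F) (Q : F') (τ : ℍ) :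
    ∑ m ∈ Finset.range (Nat.card 𝒬 + 1),
      (-1 : ℂ) ^ m * mixedFun ℋ P Q m τ * (Q τ) ^ m * (P τ) ^ (Nat.card 𝒬 - m) = 0 := by
  classical
  let := Fintype.ofFinite 𝒬
  -- the product `∏ q, (-(Q τ) * P_q τ + P τ * Q_q τ)` vanishes (factor at the trivial coset)
  have hzero : ∏ q : 𝒬, (-(Q τ) * quotientFunc P q τ + P τ * quotientFunc Q q τ) = 0 := by
    apply Finset.prod_eq_zero (Finset.mem_univ (⟦(1 : ℋ)⟧ : 𝒬))
    rw [quotientFunc_mk, quotientFunc_mk]
    simp
    ring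
  rw [Fintype.prod_add] at hzero
  rw [← hzero]
  -- group the subsets by cardinality
  have hfib := Finset.sum_fiberwise_of_maps_to
    (s := (Finset.univ : Finset (Finset 𝒬))) (t := Finset.range (Nat.card 𝒬 + 1))
    (g := fun t : Finset 𝒬 => t.card)
    (fun t _ => Finset.mem_range.2 (Nat.lt_succ_of_le (by
      rw [Nat.card_eq_fintype_card]; exact Finset.card_le_univ t)))
    (fun t : Finset 𝒬 => (∏ q ∈ t, -(Q τ) * quotientFunc P q τ) *
      ∏ q ∈ tᶜ, P τ * quotientFunc Q q τ)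
  rw [← hfib]
  refine Finset.sum_congr rfl fun m hm => ?_
  rw [mixedFun_apply, Finset.mul_sum, Finset.sum_mul, Finset.sum_mul]
  have hfilter : (Finset.univ : Finset (Finset 𝒬)).filter (fun t => t.card = m) =
      (Finset.univ : Finset 𝒬).powersetCard m := by
    ext t
    simp
  rw [hfilter]
  refine Finset.sum_congr rfl fun t ht => ?_
  have hc : t.card = m := Finset.mem_powersetCard_univ.1 ht
  have hcc : tᶜ.card = Nat.card 𝒬 - m := by
    rw [Finset.card_compl, hc, Nat.card_eq_fintype_card]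
  rw [Finset.prod_mul_distrib, Finset.prod_mul_distrib, Finset.prod_const, Finset.prod_const,
    hc, hcc, neg_pow]
  ring

end mixed

section Gamma0

open CongruenceSubgroup Matrix.SpecialLinearGroup

/-- The number of cosets of `Γ₀(N)` in `SL(2, ℤ)`, computed inside `GL (Fin 2) ℝ`. -/
theorem card_quotient_Gamma0 (N : ℕ) :
    Nat.card (𝒮ℒ ⧸ (Subgroup.map (mapGL ℝ) (Gamma0 N)).subgroupOf 𝒮ℒ) = (Gamma0 N).index := by
  have h1 : Nat.card (𝒮ℒ ⧸ (Subgroup.map (mapGL ℝ) (Gamma0 N)).subgroupOf 𝒮ℒ) =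
      (Subgroup.map (mapGL ℝ) (Gamma0 N)).relIndex 𝒮ℒ := rfl
  rw [h1, MonoidHom.range_eq_map,
    Subgroup.relIndex_map_map_of_injective _ _ mapGL_injective, Subgroup.relIndex_top_right]

variable {N : ℕ} [NeZero N]

/-- Norm polynomial of a pair of modular forms of the same weight on `Γ₀(N)`: there are level one
forms `M m` of weight `w * μ` (`μ` the index of `Γ₀(N)`), with `M 0` the norm of `Q`, such that
`∑ m ≤ μ, (-1)^m * M m * Q^m * P^(μ - m) = 0`. -/
theorem exists_normPoly {w : ℤ} (P Q : ModularForm (Gamma0 N) w) :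
    ∃ M : ℕ → ModularForm 𝒮ℒ (w * ((Gamma0 N).index : ℤ)),
      (((Q : ℍ → ℂ) ≠ 0) → M 0 ≠ 0) ∧
      ∀ τ : ℍ, ∑ m ∈ Finset.range ((Gamma0 N).index + 1),
        (-1 : ℂ) ^ m * M m τ * (Q τ) ^ m * (P τ) ^ ((Gamma0 N).index - m) = 0 := by
  have hcard := card_quotient_Gamma0 N
  have hw : w * (Nat.card (𝒮ℒ ⧸ (Subgroup.map (mapGL ℝ) (Gamma0 N)).subgroupOf 𝒮ℒ) : ℤ) =
      w * ((Gamma0 N).index : ℤ) := by rw [hcard]
  refine ⟨fun m => ModularForm.mcast hw (mixedMF 𝒮ℒ P Q m), ?_, ?_⟩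
  · intro hQ h0
    have h1 := ModularForm.norm_ne_zero 𝒮ℒ hQ
    apply h1
    ext τ
    have h2 := DFunLike.congr_fun h0 τ
    let := Fintype.ofFinite (𝒮ℒ ⧸ (Subgroup.map (mapGL ℝ) (Gamma0 N)).subgroupOf 𝒮ℒ)
    have h3 : mixedFun 𝒮ℒ P Q 0 τ = 0 := h2
    rw [mixedFun_zero] at h3
    show (ModularForm.norm 𝒮ℒ Q) τ = 0
    rw [ModularForm.coe_norm, Finset.prod_apply]
    convert h3 using 2
  · intro τ
    have h := sum_mixedFun_mul_pow_eq_zero 𝒮ℒ P Q τ
    rw [hcard] at h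
    exact h

/-- Monic norm polynomial of a cusp form on `Γ₀(N)`: `f` is a root of
`X^μ + ∑ 1 ≤ m ≤ μ, c m * X^(μ - m)` where `c m` is a level one cusp form of weight `k * m`. -/
theorem exists_monic_cuspPoly {k : ℤ} (f : CuspForm (Gamma0 N) k) :
    ∃ c : (m : ℕ) → CuspForm 𝒮ℒ (k * m),
      ∀ τ : ℍ, (f τ) ^ (Gamma0 N).index +
        ∑ m ∈ Finset.Icc 1 (Gamma0 N).index, c m τ * (f τ) ^ ((Gamma0 N).index - m) = 0 := by
  classical
  have hcard := card_quotient_Gamma0 N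
  refine ⟨fun m => if hm : 0 < m then (-1 : ℂ) ^ m • esymmCF 𝒮ℒ f hm else 0, fun τ => ?_⟩
  have h := sum_esymmFun_mul_pow_eq_zero 𝒮ℒ f τ
  rw [hcard] at h
  rw [Finset.range_eq_Ico, Finset.sum_eq_sum_Ico_succ_bot (Nat.succ_pos _)] at h
  have h0 : esymmFun 𝒮ℒ f 0 τ = 1 := by
    let := Fintype.ofFinite (𝒮ℒ ⧸ (Subgroup.map (mapGL ℝ) (Gamma0 N)).subgroupOf 𝒮ℒ)
    rw [esymmFun_apply]
    simp
  rw [h0] at h
  simp only [pow_zero, one_mul, Nat.sub_zero] at h
  rw [← h]
  congr 1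
  refine Finset.sum_congr (by ext m; simp) fun m hm => ?_
  have hm1 : 0 < m := by
    rcases Finset.mem_Icc.1 hm with ⟨h1, _⟩
    exact h1
  beta_reduce
  rw [dif_pos hm1]
  rfl

end Gamma0

end Fermat.Agent.S23.NormPoly

end
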