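import Fermat.Agent.S23.NormPoly
import Fermat.Agent.S23.JN

/-!
# S23, piece LAG: Lagrange interpolation over the cosets

For forms `f` (weight `k`) and `u`, `v` (weight `w`) on `𝒢`, with translates `f_q`, `u_q`, `v_q`
(`q` running over the cosets `ℋ ⧸ 𝒢 ⊓ ℋ`), the polynomial
`L_f(X, Y) = ∑ q, f_q * ∏ q' ≠ q, (X * v_q' - Y * u_q')` has coefficients which are forms on `ℋ`
of weight `k + w * (μ - 1)`, and `L_f(u, v) = f * ∏ q' ≠ [1], (u * v_q' - v * u_q')`.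
-/

set_option autoImplicit false

open UpperHalfPlane

open scoped ModularForm Topology Filter Manifold MatrixGroups

noncomputable section

namespace Fermat.Agent.S23.Lagrange

open Fermat.Agent.S23.NormPoly SlashInvariantForm

variable {𝒢 ℋ : Subgroup (GL (Fin 2) ℝ)} {F₀ F₁ F₂ : Type*} [FunLike F₀ ℍ ℂ] [FunLike F₁ ℍ ℂ]
  [FunLike F₂ ℍ ℂ] {k w : ℤ}

local notation "𝒬" => ℋ ⧸ (𝒢.subgroupOf ℋ)

section lag

variable (ℋ) [𝒢.IsFiniteRelIndex ℋ]

open Classical in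
/-- The coefficient functions of the Lagrange interpolation polynomial
`∑ q, f_q * ∏ q' ≠ q, (X • v_q' - Y • u_q')`:
`lagFun ℋ f u v n = ∑ q, ∑ t ⊆ univ \ {q}, |t| = n, f_q * (∏ q' ∈ t, v_q') * ∏ q' ∉ t ∪ {q}, u_q'`. -/
def lagFun [SlashInvariantFormClass F₀ 𝒢 k] [SlashInvariantFormClass F₁ 𝒢 w]
    [SlashInvariantFormClass F₂ 𝒢 w] (f : F₀) (u : F₁) (v : F₂) (n : ℕ) : ℍ → ℂ :=
  letI := Fintype.ofFinite 𝒬
  ∑ q : 𝒬, ∑ t ∈ ((Finset.univ : Finset 𝒬).erase q).powersetCard n,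
    quotientFunc f q * ∏ q' ∈ (Finset.univ : Finset 𝒬).erase q,
      (if q' ∈ t then quotientFunc v q' else quotientFunc u q')

theorem lagFun_eq [SlashInvariantFormClass F₀ 𝒢 k] [SlashInvariantFormClass F₁ 𝒢 w]
    [SlashInvariantFormClass F₂ 𝒢 w] [Fintype 𝒬] [DecidableEq 𝒬] (f : F₀) (u : F₁) (v : F₂)
    (n : ℕ) :
    lagFun ℋ f u v n = ∑ q : 𝒬, ∑ t ∈ ((Finset.univ : Finset 𝒬).erase q).powersetCard n,
      quotientFunc f q * ∏ q' ∈ (Finset.univ : Finset 𝒬).erase q,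
        (if q' ∈ t then quotientFunc v q' else quotientFunc u q') := by
  unfold lagFun
  congr!

omit [𝒢.IsFiniteRelIndex ℋ] in
theorem card_erase_univ [Fintype 𝒬] [DecidableEq 𝒬] (q : 𝒬) :
    ((Finset.univ : Finset 𝒬).erase q).card = Nat.card 𝒬 - 1 := by
  rw [Finset.card_erase_of_mem (Finset.mem_univ q), Finset.card_univ, Nat.card_eq_fintype_card]

theorem lagFun_slash_eq [SlashInvariantFormClass F₀ 𝒢 k] [SlashInvariantFormClass F₁ 𝒢 w]
    [SlashInvariantFormClass F₂ 𝒢 w] [Fintype 𝒬] [DecidableEq 𝒬] (f : F₀) (u : F₁) (v : F₂)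
    (n : ℕ) (γ : GL (Fin 2) ℝ) :
    lagFun ℋ f u v n ∣[k + w * ((Nat.card 𝒬 - 1 : ℕ) : ℤ)] γ =
      ∑ q : 𝒬, ∑ t ∈ ((Finset.univ : Finset 𝒬).erase q).powersetCard n,
        |γ.det.val| • (quotientFunc f q ∣[k] γ *
          (|γ.det.val| ^ (((Nat.card 𝒬 - 1 : ℕ) : ℤ) - 1) •
            ∏ q' ∈ (Finset.univ : Finset 𝒬).erase q,
              (if q' ∈ t then quotientFunc v q' ∣[w] γ else quotientFunc u q' ∣[w] γ))) := by
  rw [lagFun_eq, SlashAction.sum_slash]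
  refine Finset.sum_congr rfl fun q _ => ?_
  rw [SlashAction.sum_slash]
  refine Finset.sum_congr rfl fun t _ => ?_
  rw [ModularForm.mul_slash, ← card_erase_univ ℋ q, ModularForm.prod_slash]
  congr 3
  refine Finset.prod_congr rfl fun q' _ => ?_
  split_ifs <;> rfl

theorem lagFun_slash [ℋ.HasDetPlusMinusOne] [SlashInvariantFormClass F₀ 𝒢 k]
    [SlashInvariantFormClass F₁ 𝒢 w] [SlashInvariantFormClass F₂ 𝒢 w] (f : F₀) (u : F₁) (v : F₂)
    (n : ℕ) {h : GL (Fin 2) ℝ} (hh : h ∈ ℋ) :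
    lagFun ℋ f u v n ∣[k + w * ((Nat.card 𝒬 - 1 : ℕ) : ℤ)] h = lagFun ℋ f u v n := by
  classical
  let := Fintype.ofFinite 𝒬
  rw [lagFun_slash_eq, lagFun_eq, Subgroup.HasDetPlusMinusOne.abs_det hh]
  simp only [one_zpow, one_smul]
  set e : 𝒬 ≃ 𝒬 := MulAction.toPerm (⟨h, hh⟩ : ℋ)⁻¹ with he
  -- the summand of `lagFun`
  set T : 𝒬 → Finset 𝒬 → ℍ → ℂ := fun q t =>
    quotientFunc f q * ∏ q' ∈ (Finset.univ : Finset 𝒬).erase q,
      (if q' ∈ t then quotientFunc v q' else quotientFunc u q') with hT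
  have herase : ∀ q : 𝒬, (Finset.univ : Finset 𝒬).erase (e q) =
      ((Finset.univ : Finset 𝒬).erase q).map e.toEmbedding := by
    intro q
    rw [Finset.map_erase, Finset.map_univ_equiv]
    rfl
  have key : ∀ (q : 𝒬) (t : Finset 𝒬),
      quotientFunc f q ∣[k] h * ∏ q' ∈ (Finset.univ : Finset 𝒬).erase q,
        (if q' ∈ t then quotientFunc v q' ∣[w] h else quotientFunc u q' ∣[w] h) =
      T (e q) (t.map e.toEmbedding) := by
    intro q t
    rw [hT]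
    beta_reduce
    rw [herase, Finset.prod_map, quotientFunc_smul f hh]
    congr 1
    refine Finset.prod_congr rfl fun q' _ => ?_
    have hmem : e.toEmbedding q' ∈ t.map e.toEmbedding ↔ q' ∈ t := by
      rw [Finset.mem_map']
    simp only [hmem]
    rw [quotientFunc_smul v hh, quotientFunc_smul u hh]
    rfl
  simp only [key]
  rw [← Equiv.sum_comp e (fun q => ∑ t ∈ ((Finset.univ : Finset 𝒬).erase q).powersetCard n, T q t)]
  refine Finset.sum_congr rfl fun q _ => ?_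
  rw [herase, Finset.powersetCard_map, Finset.sum_map]
  rfl

/-- The coefficients of the Lagrange interpolation polynomial, as slash invariant forms. -/
def lagSIF [ℋ.HasDetPlusMinusOne] [SlashInvariantFormClass F₀ 𝒢 k]
    [SlashInvariantFormClass F₁ 𝒢 w] [SlashInvariantFormClass F₂ 𝒢 w] (f : F₀) (u : F₁) (v : F₂)
    (n : ℕ) : SlashInvariantForm ℋ (k + w * ((Nat.card 𝒬 - 1 : ℕ) : ℤ)) where
  toFun := lagFun ℋ f u v n
  slash_action_eq' _ hh := lagFun_slash ℋ f u v n hh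

/-- The coefficients of the Lagrange interpolation polynomial, as modular forms. -/
def lagMF [ℋ.HasDetPlusMinusOne] [ModularFormClass F₀ 𝒢 k] [ModularFormClass F₁ 𝒢 w]
    [ModularFormClass F₂ 𝒢 w] (f : F₀) (u : F₁) (v : F₂) (n : ℕ) :
    ModularForm ℋ (k + w * ((Nat.card 𝒬 - 1 : ℕ) : ℤ)) where
  __ := lagSIF ℋ f u v n
  holo' := by
    classical
    let := Fintype.ofFinite 𝒬
    show MDiff (lagFun ℋ f u v n)
    rw [lagFun_eq]
    refine .sum fun q _ => .sum fun t _ => .mul (mdiff_quotientFunc ℋ f q) (.prod fun q' _ => ?_)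
    split_ifs
    · exact mdiff_quotientFunc ℋ v q'
    · exact mdiff_quotientFunc ℋ u q'
  bdd_at_cusps' h γ := by
    classical
    rintro rfl
    let := Fintype.ofFinite 𝒬
    show IsBoundedAtImInfty (lagFun ℋ f u v n ∣[k + w * ((Nat.card 𝒬 - 1 : ℕ) : ℤ)] γ)
    rw [lagFun_slash_eq]
    refine (Filter.boundedFilterSubmodule ℂ atImInfty).sum_mem fun q _ => ?_
    refine (Filter.boundedFilterSubmodule ℂ atImInfty).sum_mem fun t _ => ?_
    refine Filter.BoundedAtFilter.smul _ ?_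
    refine Filter.BoundedAtFilter.mul (isBoundedAtImInfty_quotientFunc_slash ℋ f q h) ?_
    refine Filter.BoundedAtFilter.smul _ ?_
    refine Filter.BoundedAtFilter.prod _ fun q' _ => ?_
    split_ifs
    · exact isBoundedAtImInfty_quotientFunc_slash ℋ v q' h
    · exact isBoundedAtImInfty_quotientFunc_slash ℋ u q' h

@[simp] theorem coe_lagMF [ℋ.HasDetPlusMinusOne] [ModularFormClass F₀ 𝒢 k]
    [ModularFormClass F₁ 𝒢 w] [ModularFormClass F₂ 𝒢 w] (f : F₀) (u : F₁) (v : F₂) (n : ℕ) :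
    ⇑(lagMF ℋ f u v n) = lagFun ℋ f u v n := rfl


theorem lagFun_apply [SlashInvariantFormClass F₀ 𝒢 k] [SlashInvariantFormClass F₁ 𝒢 w]
    [SlashInvariantFormClass F₂ 𝒢 w] [Fintype 𝒬] [DecidableEq 𝒬] (f : F₀) (u : F₁) (v : F₂)
    (n : ℕ) (τ : ℍ) :
    lagFun ℋ f u v n τ = ∑ q : 𝒬, ∑ t ∈ ((Finset.univ : Finset 𝒬).erase q).powersetCard n,
      quotientFunc f q τ * ((∏ q' ∈ t, quotientFunc v q' τ) *
        ∏ q' ∈ (Finset.univ : Finset 𝒬).erase q \ t, quotientFunc u q' τ) := by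
  rw [lagFun_eq, Finset.sum_apply]
  refine Finset.sum_congr rfl fun q _ => ?_
  rw [Finset.sum_apply]
  refine Finset.sum_congr rfl fun t ht => ?_
  have hsub : t ⊆ (Finset.univ : Finset 𝒬).erase q := (Finset.mem_powersetCard.1 ht).1
  rw [Pi.mul_apply, Finset.prod_apply, ← Finset.prod_sdiff hsub, mul_comm (∏ q' ∈ _ \ t, _)]
  congr 2
  · refine Finset.prod_congr rfl fun q' hq' => ?_
    rw [if_pos hq']
  · refine Finset.prod_congr rfl fun q' hq' => ?_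
    rw [if_neg (Finset.mem_sdiff.1 hq').2]

/-- The Lagrange interpolation identity:
`∑ n < μ, L_n * u^n * (-v)^(μ-1-n) = f * ∏ q ≠ [1], (u * v_q - v * u_q)`. -/
theorem sum_lagFun_mul_pow [SlashInvariantFormClass F₀ 𝒢 k] [SlashInvariantFormClass F₁ 𝒢 w]
    [SlashInvariantFormClass F₂ 𝒢 w] [Fintype 𝒬] [DecidableEq 𝒬] (f : F₀) (u : F₁) (v : F₂)
    (τ : ℍ) :
    ∑ n ∈ Finset.range (Nat.card 𝒬),
        lagFun ℋ f u v n τ * (u τ) ^ n * (-(v τ)) ^ (Nat.card 𝒬 - 1 - n) =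
      f τ * ∏ q ∈ (Finset.univ : Finset 𝒬).erase (⟦(1 : ℋ)⟧ : 𝒬),
        (u τ * quotientFunc v q τ - v τ * quotientFunc u q τ) := by
  set q₀ : 𝒬 := (⟦(1 : ℋ)⟧ : 𝒬) with hq₀
  have hq₀f : quotientFunc f q₀ τ = f τ := by
    rw [hq₀, quotientFunc_mk]
    simp
  have hq₀u : quotientFunc u q₀ τ = u τ := by
    rw [hq₀, quotientFunc_mk]
    simp
  have hq₀v : quotientFunc v q₀ τ = v τ := by
    rw [hq₀, quotientFunc_mk]
    simp
  have hpos : Nat.card 𝒬 - 1 + 1 = Nat.card 𝒬 := Nat.sub_add_cancel Nat.card_pos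
  have h1 : ∑ q : 𝒬, quotientFunc f q τ * ∏ q' ∈ (Finset.univ : Finset 𝒬).erase q,
      (u τ * quotientFunc v q' τ + -(v τ) * quotientFunc u q' τ) =
      f τ * ∏ q ∈ (Finset.univ : Finset 𝒬).erase q₀,
        (u τ * quotientFunc v q τ - v τ * quotientFunc u q τ) := by
    rw [Finset.sum_eq_single q₀]
    · rw [hq₀f]
      congr 1
      refine Finset.prod_congr rfl fun q _ => by ring
    · intro q _ hq
      have hmem : q₀ ∈ (Finset.univ : Finset 𝒬).erase q :=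
        Finset.mem_erase.2 ⟨Ne.symm hq, Finset.mem_univ _⟩
      rw [Finset.prod_eq_zero hmem, mul_zero]
      rw [hq₀u, hq₀v]
      ring
    · intro h
      exact absurd (Finset.mem_univ _) h
  rw [← h1]
  simp only [lagFun_apply, Finset.sum_mul]
  rw [Finset.sum_comm]
  refine Finset.sum_congr rfl fun q _ => ?_
  rw [Finset.prod_add, Finset.sum_powerset, card_erase_univ, hpos, Finset.mul_sum]
  refine Finset.sum_congr rfl fun n _ => ?_
  rw [Finset.mul_sum]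
  refine Finset.sum_congr rfl fun t ht => ?_
  obtain ⟨hsub, hc⟩ := Finset.mem_powersetCard.1 ht
  have hcc : ((Finset.univ : Finset 𝒬).erase q \ t).card = Nat.card 𝒬 - 1 - n := by
    rw [Finset.card_sdiff_of_subset hsub, card_erase_univ, hc]
  rw [Finset.prod_mul_distrib, Finset.prod_mul_distrib, Finset.prod_const, Finset.prod_const,
    hc, hcc]
  ring

end lag

section Gamma0

open CongruenceSubgroup Matrix.SpecialLinearGroup

variable {N : ℕ} [NeZero N]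

omit [NeZero N] in
/-- For a coset `q ≠ [1]` of `Γ₀(N)` in `SL(2, ℤ)`, the translates by `q` of `u`, `v` are the
`SL(2, ℤ)`-slashes by some `g ∉ Γ₀(N)`. -/
theorem exists_notMem_Gamma0_quotientFunc {w : ℤ} (u v : ModularForm (Gamma0 N) w)
    (q : 𝒮ℒ ⧸ (Subgroup.map (mapGL ℝ) (Gamma0 N)).subgroupOf 𝒮ℒ)
    (hq : q ≠ (⟦(1 : 𝒮ℒ)⟧ : 𝒮ℒ ⧸ (Subgroup.map (mapGL ℝ) (Gamma0 N)).subgroupOf 𝒮ℒ)) :
    ∃ g : SL(2, ℤ), g ∉ Gamma0 N ∧ quotientFunc u q = (⇑u : ℍ → ℂ) ∣[w] g ∧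
      quotientFunc v q = (⇑v : ℍ → ℂ) ∣[w] g := by
  induction q using Quotient.inductionOn with
  | h r =>
    obtain ⟨r, g, rfl⟩ := r
    refine ⟨g⁻¹, ?_, ?_, ?_⟩
    · intro hg
      apply hq
      refine QuotientGroup.eq.2 ?_
      rw [Subgroup.mem_subgroupOf]
      simp only [mul_one, Subgroup.coe_inv]
      exact ⟨g⁻¹, hg, map_inv _ _⟩
    · rw [quotientFunc_mk]
      show (⇑u : ℍ → ℂ) ∣[w] (mapGL ℝ g)⁻¹ = (⇑u : ℍ → ℂ) ∣[w] (mapGL ℝ g⁻¹)
      rw [map_inv]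
    · rw [quotientFunc_mk]
      show (⇑v : ℍ → ℂ) ∣[w] (mapGL ℝ g)⁻¹ = (⇑v : ℍ → ℂ) ∣[w] (mapGL ℝ g⁻¹)
      rw [map_inv]

/-- **Lagrange interpolation over the cosets of `Γ₀(N)`**: for `F` of weight `k` and `u`, `v` of
weight `w` on `Γ₀(N)` such that the translates of `u/v` by the non-trivial cosets are distinct
from `u/v`, there are level one forms `R n`, `Q n` with
`F * ∑ n < μ, Q n * u^n * v^(μ-1-n) = ∑ n < μ, R n * u^n * v^(μ-1-n)` and the factor of `F` not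
identically zero. -/
theorem exists_lagrange {k w : ℤ} (F : ModularForm (Gamma0 N) k)
    (u v : ModularForm (Gamma0 N) w)
    (hdist : ∀ g : SL(2, ℤ), g ∉ Gamma0 N →
      ∃ τ : ℍ, u τ * ((⇑v : ℍ → ℂ) ∣[w] g) τ ≠ v τ * ((⇑u : ℍ → ℂ) ∣[w] g) τ) :
    ∃ (R : ℕ → ModularForm 𝒮ℒ (k + w * (((Gamma0 N).index : ℤ) - 1)))
      (Q : ℕ → ModularForm 𝒮ℒ (w * (((Gamma0 N).index : ℤ) - 1))),
      (∃ τ : ℍ, ∑ n ∈ Finset.range (Gamma0 N).index,
          Q n τ * u τ ^ n * v τ ^ ((Gamma0 N).index - 1 - n) ≠ 0) ∧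
      ∀ τ : ℍ, F τ * ∑ n ∈ Finset.range (Gamma0 N).index,
          Q n τ * u τ ^ n * v τ ^ ((Gamma0 N).index - 1 - n)
        = ∑ n ∈ Finset.range (Gamma0 N).index,
          R n τ * u τ ^ n * v τ ^ ((Gamma0 N).index - 1 - n) := by
  classical
  have hcard := card_quotient_Gamma0 N
  let := Fintype.ofFinite (𝒮ℒ ⧸ (Subgroup.map (mapGL ℝ) (Gamma0 N)).subgroupOf 𝒮ℒ)
  have hμpos : 1 ≤ (Gamma0 N).index := by
    rw [← hcard]
    exact Nat.card_pos
  have hwR : k + w * ((Nat.card (𝒮ℒ ⧸ (Subgroup.map (mapGL ℝ) (Gamma0 N)).subgroupOf 𝒮ℒ) - 1 : ℕ)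
      : ℤ) = k + w * (((Gamma0 N).index : ℤ) - 1) := by
    rw [hcard, Nat.cast_sub hμpos, Nat.cast_one]
  have hwQ : 0 + w * ((Nat.card (𝒮ℒ ⧸ (Subgroup.map (mapGL ℝ) (Gamma0 N)).subgroupOf 𝒮ℒ) - 1 : ℕ)
      : ℤ) = w * (((Gamma0 N).index : ℤ) - 1) := by
    rw [hcard, Nat.cast_sub hμpos, Nat.cast_one, zero_add]
  set q₀ : 𝒮ℒ ⧸ (Subgroup.map (mapGL ℝ) (Gamma0 N)).subgroupOf 𝒮ℒ := ⟦(1 : 𝒮ℒ)⟧ with hq₀
  set D : ℍ → ℂ := fun τ => ∏ q ∈ (Finset.univ : Finset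
      (𝒮ℒ ⧸ (Subgroup.map (mapGL ℝ) (Gamma0 N)).subgroupOf 𝒮ℒ)).erase q₀,
        (u τ * quotientFunc v q τ - v τ * quotientFunc u q τ) with hD
  -- the two interpolation identities
  have hR : ∀ τ : ℍ, ∑ n ∈ Finset.range (Gamma0 N).index,
      ((-1 : ℂ) ^ ((Gamma0 N).index - 1 - n) * lagFun 𝒮ℒ F u v n τ) * u τ ^ n *
        v τ ^ ((Gamma0 N).index - 1 - n) = F τ * D τ := by
    intro τ
    have h := sum_lagFun_mul_pow 𝒮ℒ F u v τ
    rw [hcard] at h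
    refine Eq.trans (Finset.sum_congr rfl fun n _ => ?_) h
    rw [neg_pow (v τ)]
    ring
  have hQ : ∀ τ : ℍ, ∑ n ∈ Finset.range (Gamma0 N).index,
      ((-1 : ℂ) ^ ((Gamma0 N).index - 1 - n) *
        lagFun 𝒮ℒ (1 : ModularForm (Gamma0 N) 0) u v n τ) * u τ ^ n *
        v τ ^ ((Gamma0 N).index - 1 - n) = D τ := by
    intro τ
    have h := sum_lagFun_mul_pow 𝒮ℒ (1 : ModularForm (Gamma0 N) 0) u v τ
    rw [hcard] at h
    have h1 : (1 : ModularForm (Gamma0 N) 0) τ = 1 := by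
      rw [ModularForm.one_coe_eq_one]
      rfl
    rw [h1, one_mul] at h
    refine Eq.trans (Finset.sum_congr rfl fun n _ => ?_) h
    rw [neg_pow (v τ)]
    ring
  -- `D` is not identically zero
  have hDne : ∃ τ : ℍ, D τ ≠ 0 := by
    set fam : (𝒮ℒ ⧸ (Subgroup.map (mapGL ℝ) (Gamma0 N)).subgroupOf 𝒮ℒ) → ℍ → ℂ := fun q =>
      if q = q₀ then fun _ => 1
      else fun τ => u τ * quotientFunc v q τ - v τ * quotientFunc u q τ with hfam
    have hholo : ∀ q, JN.Holo (fam q) := by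
      intro q
      rw [JN.holo_iff_mdiff, hfam]
      beta_reduce
      split_ifs with hq
      · exact mdifferentiable_const
      · exact ((ModularFormClass.holo u).mul (mdiff_quotientFunc 𝒮ℒ v q)).sub
          ((ModularFormClass.holo v).mul (mdiff_quotientFunc 𝒮ℒ u q))
    have hne : ∀ q, ∃ z, fam q z ≠ 0 := by
      intro q
      rw [hfam]
      beta_reduce
      split_ifs with hq
      · exact ⟨UpperHalfPlane.I, one_ne_zero⟩
      · obtain ⟨g, hg, hgu, hgv⟩ := exists_notMem_Gamma0_quotientFunc u v q hq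
        obtain ⟨τ, hτ⟩ := hdist g hg
        refine ⟨τ, ?_⟩
        rw [hgu, hgv]
        exact sub_ne_zero.2 hτ
    obtain ⟨z, hz⟩ := JN.exists_common_ne_zero fam hholo hne
    refine ⟨z, ?_⟩
    rw [hD]
    beta_reduce
    rw [Finset.prod_ne_zero_iff]
    intro q hq
    have h := hz q
    rw [hfam] at h
    beta_reduce at h
    rw [if_neg (Finset.mem_erase.1 hq).1] at h
    exact h
  refine ⟨fun n => (-1 : ℂ) ^ ((Gamma0 N).index - 1 - n) •
      ModularForm.mcast hwR (lagMF 𝒮ℒ F u v n),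
    fun n => (-1 : ℂ) ^ ((Gamma0 N).index - 1 - n) •
      ModularForm.mcast hwQ (lagMF 𝒮ℒ (1 : ModularForm (Gamma0 N) 0) u v n), ?_, ?_⟩
  · obtain ⟨τ, hτ⟩ := hDne
    refine ⟨τ, ?_⟩
    rw [← hQ τ] at hτ
    exact hτ
  · intro τ
    exact (congrArg (fun x => F τ * x) (hQ τ)).trans (hR τ).symm

end Gamma0

end Fermat.Agent.S23.Lagrange

end
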