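import Mathlib

/-!
# S23: the division lemma

If `u, v` are holomorphic on a connected open set `U`, `v ≢ 0`, and `u` satisfies a monic
homogeneous equation `u ^ μ + ∑ c_m u ^ (μ - 1 - m) v ^ (m + 1) = 0` with continuous coefficients,
then `u = g * v` with `g` holomorphic on `U` (root bound + Riemann's removable singularity theorem).
-/

set_option autoImplicit false

namespace Fermat.Agent.S23.Division

open Filter Topology Set Function

/-- Root bound: a root of a monic polynomial is bounded by `1 + Σ |coefficients|`. -/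
theorem norm_le_of_monic_root {μ : ℕ} (x : ℂ) (a : Fin μ → ℂ)
    (h : x ^ μ + ∑ m : Fin μ, a m * x ^ (μ - 1 - (m : ℕ)) = 0) :
    ‖x‖ ≤ 1 + ∑ m : Fin μ, ‖a m‖ := by
  have hS : 0 ≤ ∑ m : Fin μ, ‖a m‖ := Finset.sum_nonneg fun _ _ => norm_nonneg _
  by_cases hx : ‖x‖ ≤ 1
  · linarith
  push Not at hx
  rcases Nat.eq_zero_or_pos μ with hμ | hμ
  · subst hμ
    simp at h
  have h1 : x ^ μ = - ∑ m : Fin μ, a m * x ^ (μ - 1 - (m : ℕ)) := eq_neg_of_add_eq_zero_left h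
  have h2 : ‖x‖ ^ μ ≤ (∑ m : Fin μ, ‖a m‖) * ‖x‖ ^ (μ - 1) := by
    calc ‖x‖ ^ μ = ‖x ^ μ‖ := (norm_pow _ _).symm
      _ = ‖∑ m : Fin μ, a m * x ^ (μ - 1 - (m : ℕ))‖ := by rw [h1, norm_neg]
      _ ≤ ∑ m : Fin μ, ‖a m * x ^ (μ - 1 - (m : ℕ))‖ := norm_sum_le _ _
      _ ≤ ∑ m : Fin μ, ‖a m‖ * ‖x‖ ^ (μ - 1) := by
          refine Finset.sum_le_sum fun m _ => ?_
          rw [norm_mul, norm_pow]
          exact mul_le_mul_of_nonneg_left (pow_le_pow_right₀ hx.le (Nat.sub_le _ _))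
            (norm_nonneg _)
      _ = (∑ m : Fin μ, ‖a m‖) * ‖x‖ ^ (μ - 1) := by rw [Finset.sum_mul]
  have h3 : ‖x‖ ^ μ = ‖x‖ * ‖x‖ ^ (μ - 1) := by
    rw [← pow_succ', Nat.sub_add_cancel hμ]
  have h4 : 0 < ‖x‖ ^ (μ - 1) := pow_pos (by linarith) _
  rw [h3] at h2
  have := le_of_mul_le_mul_right h2 h4
  linarith

/-- **Division lemma** on a connected open subset of `ℂ`. -/
theorem exists_holo_quotient {μ : ℕ} {U : Set ℂ} (hU : IsOpen U) (hUc : IsPreconnected U)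
    (u v : ℂ → ℂ) (c : Fin μ → ℂ → ℂ) (hu : DifferentiableOn ℂ u U)
    (hv : DifferentiableOn ℂ v U) (hc : ∀ m, ContinuousOn (c m) U) (hv0 : ∃ z ∈ U, v z ≠ 0)
    (h : ∀ z ∈ U,
      u z ^ μ + ∑ m : Fin μ, c m z * u z ^ (μ - 1 - (m : ℕ)) * v z ^ ((m : ℕ) + 1) = 0) :
    ∃ g : ℂ → ℂ, DifferentiableOn ℂ g U ∧ (∀ z ∈ U, u z = g z * v z) ∧
      (∀ z ∈ U, g z ^ μ + ∑ m : Fin μ, c m z * g z ^ (μ - 1 - (m : ℕ)) = 0) := by
  classical
  have hμ : 0 < μ := by
    rcases Nat.eq_zero_or_pos μ with hμ | hμ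
    · subst hμ
      obtain ⟨z, hz, -⟩ := hv0
      have := h z hz
      simp at this
    · exact hμ
  -- zeros of `v` are isolated
  have hvan : AnalyticOnNhd ℂ v U := hv.analyticOnNhd hU
  have hiso : ∀ z₀ ∈ U, ∀ᶠ z in 𝓝[≠] z₀, v z ≠ 0 := by
    intro z₀ hz₀
    rcases (hvan z₀ hz₀).eventually_eq_zero_or_eventually_ne_zero with h0 | h0
    · exfalso
      obtain ⟨w, hw, hvw⟩ := hv0
      exact hvw (hvan.eqOn_zero_of_preconnected_of_eventuallyEq_zero hUc hz₀ h0 hw)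
    · exact h0
  -- the quotient off the zero set
  set g0 : ℂ → ℂ := fun z => u z / v z with hg0
  have hg0_eq : ∀ z ∈ U, v z ≠ 0 →
      g0 z ^ μ + ∑ m : Fin μ, c m z * g0 z ^ (μ - 1 - (m : ℕ)) = 0 := by
    intro z hz hvz
    have key : (g0 z ^ μ + ∑ m : Fin μ, c m z * g0 z ^ (μ - 1 - (m : ℕ))) * v z ^ μ = 0 := by
      rw [add_mul, Finset.sum_mul, ← h z hz]
      congr 1
      · simp only [hg0]
        rw [div_pow, div_mul_cancel₀ _ (pow_ne_zero _ hvz)]
      · refine Finset.sum_congr rfl fun m _ => ?_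
        have hm : v z ^ μ = v z ^ (μ - 1 - (m : ℕ)) * v z ^ ((m : ℕ) + 1) := by
          rw [← pow_add]
          congr 1
          have := m.2
          omega
        simp only [hg0]
        rw [hm, div_pow]
        field_simp
    exact (mul_eq_zero.mp key).resolve_right (pow_ne_zero _ hvz)
  set g : ℂ → ℂ := fun z => if v z = 0 then limUnder (𝓝[≠] z) g0 else g0 z with hg
  have hgd : DifferentiableOn ℂ g U := by
    intro z₀ hz₀
    refine DifferentiableAt.differentiableWithinAt ?_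
    by_cases hvz : v z₀ = 0
    · -- removable singularity
      have hcb : ∀ m : Fin μ, ∀ᶠ z in 𝓝 z₀, ‖c m z‖ ≤ ‖c m z₀‖ + 1 := by
        intro m
        have hcm : ContinuousAt (c m) z₀ := (hc m).continuousAt (hU.mem_nhds hz₀)
        have hlt : ∀ᶠ z in 𝓝 z₀, ‖c m z‖ < ‖c m z₀‖ + 1 :=
          hcm.norm.eventually (gt_mem_nhds (by linarith))
        exact hlt.mono fun z hz => hz.le
      have hall : ∀ᶠ z in 𝓝 z₀, ∀ m : Fin μ, ‖c m z‖ ≤ ‖c m z₀‖ + 1 := eventually_all.mpr hcb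
      have hne : ∀ᶠ z in 𝓝 z₀, z ≠ z₀ → v z ≠ 0 := eventually_nhdsWithin_iff.mp (hiso z₀ hz₀)
      have hUn : ∀ᶠ z in 𝓝 z₀, z ∈ U := hU.mem_nhds hz₀
      obtain ⟨s, hs_sub, hs_open, hs_mem⟩ := eventually_nhds_iff.mp (hall.and (hne.and hUn))
      have hs_nhds : s ∈ 𝓝 z₀ := hs_open.mem_nhds hs_mem
      have hd : DifferentiableOn ℂ g0 (s \ {z₀}) := by
        intro z hz
        have hzU := (hs_sub z hz.1).2.2
        have hvz' := (hs_sub z hz.1).2.1 hz.2
        exact ((hu z hzU).div (hv z hzU) hvz').mono (fun w hw => (hs_sub w hw.1).2.2)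
      have hb : BddAbove (norm ∘ g0 '' (s \ {z₀})) := by
        refine ⟨1 + ∑ m : Fin μ, (‖c m z₀‖ + 1), ?_⟩
        rintro _ ⟨z, hz, rfl⟩
        have hzU := (hs_sub z hz.1).2.2
        have hvz' := (hs_sub z hz.1).2.1 hz.2
        have hroot := norm_le_of_monic_root (g0 z) (fun m => c m z) (hg0_eq z hzU hvz')
        refine hroot.trans ?_
        have : ∑ m : Fin μ, ‖c m z‖ ≤ ∑ m : Fin μ, (‖c m z₀‖ + 1) :=
          Finset.sum_le_sum fun m _ => (hs_sub z hz.1).1 m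
        linarith
      have hR := Complex.differentiableOn_update_limUnder_of_bddAbove hs_nhds hd hb
      have hR' : DifferentiableAt ℂ (update g0 z₀ (limUnder (𝓝[≠] z₀) g0)) z₀ :=
        hR.differentiableAt hs_nhds
      refine hR'.congr_of_eventuallyEq ?_
      filter_upwards [hs_nhds] with z hz
      by_cases hzz : z = z₀
      · subst hzz
        simp [hg, hvz]
      · have hvz' := (hs_sub z hz).2.1 hzz
        simp [hg, hvz', Function.update_of_ne hzz]
    · have hvc : ContinuousAt v z₀ := hv.continuousOn.continuousAt (hU.mem_nhds hz₀)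
      have hne : ∀ᶠ z in 𝓝 z₀, v z ≠ 0 := hvc.eventually_ne hvz
      have hd : DifferentiableAt ℂ g0 z₀ :=
        ((hu z₀ hz₀).differentiableAt (hU.mem_nhds hz₀)).div
          ((hv z₀ hz₀).differentiableAt (hU.mem_nhds hz₀)) hvz
      refine hd.congr_of_eventuallyEq ?_
      filter_upwards [hne] with z hz
      simp [hg, hz]
  have hguv : ∀ z ∈ U, u z = g z * v z := by
    intro z hz
    by_cases hvz : v z = 0
    · have h1 := h z hz
      rw [hvz] at h1
      simp only [ne_eq, Nat.add_eq_zero_iff, one_ne_zero, and_false, not_false_eq_true, zero_pow,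
        mul_zero, Finset.sum_const_zero, add_zero] at h1
      rw [hvz, mul_zero]
      exact pow_eq_zero_iff hμ.ne' |>.mp h1
    · simp only [hg, if_neg hvz, hg0]
      field_simp
  have hgeq : ∀ z ∈ U, g z ^ μ + ∑ m : Fin μ, c m z * g z ^ (μ - 1 - (m : ℕ)) = 0 := by
    intro z₀ hz₀
    by_cases hvz : v z₀ = 0
    · set F : ℂ → ℂ := fun z => g z ^ μ + ∑ m : Fin μ, c m z * g z ^ (μ - 1 - (m : ℕ)) with hF
      have hFc : ContinuousAt F z₀ := by
        have hgc : ContinuousAt g z₀ := hgd.continuousOn.continuousAt (hU.mem_nhds hz₀)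
        have hcc : ∀ m, ContinuousAt (c m) z₀ := fun m => (hc m).continuousAt (hU.mem_nhds hz₀)
        exact (hgc.pow μ).add (tendsto_finsetSum _ fun m _ => (hcc m).mul (hgc.pow _))
      have hF0 : ∀ᶠ z in 𝓝[≠] z₀, F z = 0 := by
        have hUn : ∀ᶠ z in 𝓝[≠] z₀, z ∈ U := nhdsWithin_le_nhds (hU.mem_nhds hz₀)
        filter_upwards [hiso z₀ hz₀, hUn] with z hz hzU
        simp only [hF, hg, if_neg hz]
        exact hg0_eq z hzU hz
      have ht : Tendsto F (𝓝[≠] z₀) (𝓝 (F z₀)) := hFc.tendsto.mono_left nhdsWithin_le_nhds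
      have ht0 : Tendsto F (𝓝[≠] z₀) (𝓝 0) :=
        tendsto_const_nhds.congr' (hF0.mono fun z hz => hz.symm)
      exact tendsto_nhds_unique ht ht0
    · simp only [hg, if_neg hvz]
      exact hg0_eq z₀ hz₀ hvz
  exact ⟨g, hgd, hguv, hgeq⟩

open UpperHalfPlane in
open scoped Manifold in
/-- **Division lemma** on the upper half plane. -/
theorem exists_holo_quotient_upperHalfPlane {μ : ℕ} (u v : ℍ → ℂ) (c : Fin μ → ℍ → ℂ)
    (hu : MDifferentiable 𝓘(ℂ) 𝓘(ℂ) u) (hv : MDifferentiable 𝓘(ℂ) 𝓘(ℂ) v)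
    (hc : ∀ m, Continuous (c m)) (hv0 : ∃ z, v z ≠ 0)
    (h : ∀ z, u z ^ μ + ∑ m : Fin μ, c m z * u z ^ (μ - 1 - (m : ℕ)) * v z ^ ((m : ℕ) + 1) = 0) :
    ∃ g : ℍ → ℂ, MDifferentiable 𝓘(ℂ) 𝓘(ℂ) g ∧ (∀ z, u z = g z * v z) ∧
      (∀ z, g z ^ μ + ∑ m : Fin μ, c m z * g z ^ (μ - 1 - (m : ℕ)) = 0) := by
  have hUo : IsOpen {z : ℂ | 0 < z.im} := isOpen_upperHalfPlaneSet
  have hUc : IsPreconnected {z : ℂ | 0 < z.im} :=
    (Complex.isConnected_of_upperHalfPlane subset_rfl (by grind)).isPreconnected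
  have hcont : ∀ m, ContinuousOn (c m ∘ ofComplex) {z : ℂ | 0 < z.im} := by
    intro m z hz
    exact ((hc m).continuousAt.comp
      (mdifferentiableAt_ofComplex hz).continuousAt).continuousWithinAt
  obtain ⟨z₁, hz₁⟩ := hv0
  obtain ⟨g, hgd, hguv, hgeq⟩ := exists_holo_quotient hUo hUc (u ∘ ofComplex) (v ∘ ofComplex)
    (fun m => c m ∘ ofComplex) (mdifferentiable_iff.mp hu) (mdifferentiable_iff.mp hv) hcont
    ⟨(z₁ : ℂ), z₁.im_pos, by simpa [ofComplex_apply] using hz₁⟩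
    (fun z hz => by simpa using h (ofComplex z))
  refine ⟨fun z => g (z : ℂ), ?_, fun z => ?_, fun z => ?_⟩
  · rw [mdifferentiable_iff]
    refine hgd.congr fun z hz => ?_
    simp only [Function.comp_apply]
    rw [ofComplex_apply_of_im_pos hz]
  · simpa [ofComplex_apply] using hguv (z : ℂ) z.im_pos
  · simpa [ofComplex_apply] using hgeq (z : ℂ) z.im_pos

end Fermat.Agent.S23.Division
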