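import Mathlib
import Fermat.Prelude.Def_CuspForm_HeckeAlgebra
import Fermat.Prelude.Def_CuspForm_IntegralStructure
import Fermat.Prelude.Thm_CuspForm_intLattice_fg
import Fermat.Prelude.Thm_ModularFormClass_qCoeff_heckeT
import Fermat.Prelude.Thm_ModularFormClass_qCoeff_heckeU
import Fermat.Prelude.Thm_CongruenceSubgroup_one_mem_strictPeriods_Gamma0
import Fermat.Prelude.Thm_ModularForm_sturm_bound_Gamma0

/-!
# Bounded denominators for cusp forms with rational `q`-coefficients (S23, piece P8)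

* `qExpLin N k` : the `ℂ`-linear `q`-expansion map `S_k(Γ₀(N)) → (ℕ → ℂ)`, which is injective;
* `finiteDimensional_cuspForm` : `S_k(Γ₀(N))` is finite dimensional (Sturm bound);
* `exists_hecke_coeff` : for every `n ≥ 1` there is `t` in the Hecke algebra with
  `a_n(f) = a_1(t f)` for all `f`;
* `exists_int_smul_mem_intLattice` : if the Hecke algebra is a finite `ℤ`-module, a cusp form
  with rational `q`-coefficients has an integer multiple in the integral lattice.
-/

set_option autoImplicit false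

namespace Fermat.Agent.S23.Denominators

open ModularFormClass

local notation "Γ₀(" N ")" => CongruenceSubgroup.Gamma0 N

variable {N : ℕ} {k : ℤ}

theorem hΓ (N : ℕ) :
    (1 : ℝ) ∈ (Subgroup.map (Matrix.SpecialLinearGroup.mapGL ℝ) Γ₀(N)).strictPeriods :=
  CongruenceSubgroup.one_mem_strictPeriods_Gamma0 N

theorem qCoeff_add (f g : CuspForm Γ₀(N) k) (n : ℕ) :
    qCoeff ⇑(f + g) n = qCoeff ⇑f n + qCoeff ⇑g n := by
  simp only [qCoeff, CuspForm.coe_add]
  rw [ModularForm.qExpansion_add one_pos (hΓ N) f g, map_add]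

theorem qCoeff_smul (c : ℂ) (f : CuspForm Γ₀(N) k) (n : ℕ) :
    qCoeff ⇑(c • f) n = c * qCoeff ⇑f n := by
  have h1 : ⇑(c • f) = c • ⇑f := by
    ext z
    simp
  simp only [qCoeff, h1]
  rw [ModularForm.qExpansion_smul one_pos (hΓ N) c f]
  simp

/-- The `q`-expansion as a `ℂ`-linear map. -/
noncomputable def qExpLin (N : ℕ) (k : ℤ) : CuspForm Γ₀(N) k →ₗ[ℂ] (ℕ → ℂ) where
  toFun f n := qCoeff ⇑f n
  map_add' f g := by
    funext n
    exact qCoeff_add f g n
  map_smul' c f := by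
    funext n
    simp only [Pi.smul_apply, RingHom.id_apply, smul_eq_mul]
    exact qCoeff_smul c f n

@[simp] theorem qExpLin_apply (f : CuspForm Γ₀(N) k) (n : ℕ) : qExpLin N k f n = qCoeff ⇑f n := rfl

theorem qExpLin_injective (N : ℕ) [NeZero N] (k : ℤ) : Function.Injective (qExpLin N k) := by
  refine (injective_iff_map_eq_zero _).mpr fun f hf ↦ ?_
  apply P2MW.S_CuspForm_intLattice_fg.W3WsD.trunc_injective N k
  rw [map_zero]
  funext i
  exact congrFun hf i

theorem finiteDimensional_cuspForm (N : ℕ) [NeZero N] (k : ℤ) :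
    FiniteDimensional ℂ (CuspForm Γ₀(N) k) := by
  set B := P2MW.S_CuspForm_intLattice_fg.W3WsD.sturmB N k
  let π : (ℕ → ℂ) →ₗ[ℂ] (Fin (B + 1) → ℂ) :=
    { toFun := fun a i => a i
      map_add' := fun a b => rfl
      map_smul' := fun c a => rfl }
  have hinj : Function.Injective (π.comp (qExpLin N k)) := by
    refine (injective_iff_map_eq_zero _).mpr fun f hf ↦ ?_
    apply P2MW.S_CuspForm_intLattice_fg.W3WsD.trunc_injective N k
    rw [map_zero]
    funext i
    exact congrFun hf i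
  exact FiniteDimensional.of_injective _ hinj

theorem qCoeff_heckeTLin {ℓ : ℕ} (hℓ : ℓ.Prime) (hℓN : ¬ ℓ ∣ N) (f : CuspForm Γ₀(N) k) (n : ℕ) :
    qCoeff ⇑(CuspForm.heckeTLin k hℓ hℓN f) n =
      ModularForm.coeffHeckeT k ℓ (qCoeff ⇑f) n := by
  rw [CuspForm.coe_heckeTLin_apply]
  exact ModularFormClass.qCoeff_heckeT f (hΓ N) hℓ.ne_zero n

theorem qCoeff_heckeULin [NeZero N] {q : ℕ} (hq : q.Prime) (hqN : q ∣ N) (f : CuspForm Γ₀(N) k)
    (n : ℕ) :
    qCoeff ⇑(CuspForm.heckeULin k hqN f) n = qCoeff ⇑f (n * q) := by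
  rw [CuspForm.coe_heckeULin_apply]
  exact ModularFormClass.qCoeff_heckeU f (hΓ N) hq.ne_zero n

/-- For every `n ≥ 1` there is a Hecke operator `t` with `a_n(f) = a_1(t f)`. -/
theorem exists_hecke_coeff [NeZero N] (hk : 1 ≤ k) (n : ℕ) (hn : 0 < n) :
    ∃ t ∈ CuspForm.heckeAlgebra N k ∅, ∀ f : CuspForm Γ₀(N) k,
      qExpLin N k f n = qExpLin N k (t f) 1 := by
  induction n using Nat.strong_induction_on with
  | _ n ih =>
    rcases eq_or_ne n 1 with rfl | hn1
    · exact ⟨1, one_mem _, fun f => rfl⟩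
    have hℓ : n.minFac.Prime := Nat.minFac_prime hn1
    set ℓ := n.minFac with hℓdef
    have hℓn : ℓ ∣ n := Nat.minFac_dvd n
    obtain ⟨n', hn'⟩ : ∃ n', n = n' * ℓ := ⟨n / ℓ, (Nat.div_mul_cancel hℓn).symm⟩
    have hn'pos : 0 < n' := by
      rcases Nat.eq_zero_or_pos n' with h0 | h0
      · rw [h0, zero_mul] at hn'; omega
      · exact h0
    have hn'lt : n' < n := by
      rw [hn']
      exact lt_mul_of_one_lt_right hn'pos hℓ.one_lt
    obtain ⟨t', ht', hft'⟩ := ih n' hn'lt hn'pos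
    by_cases hℓN : ℓ ∣ N
    · refine ⟨t' * CuspForm.heckeULin k hℓN,
        mul_mem ht' (CuspForm.heckeULin_mem_heckeAlgebra hℓ hℓN (Set.notMem_empty _)), fun f => ?_⟩
      rw [Module.End.mul_apply, ← hft', qExpLin_apply, qExpLin_apply, qCoeff_heckeULin hℓ hℓN, hn']
    · by_cases hℓn' : ℓ ∣ n'
      · obtain ⟨n'', hn''⟩ : ∃ n'', n' = n'' * ℓ := ⟨n' / ℓ, (Nat.div_mul_cancel hℓn').symm⟩
        have hn''pos : 0 < n'' := by
          rcases Nat.eq_zero_or_pos n'' with h0 | h0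
          · rw [h0, zero_mul] at hn''; omega
          · exact h0
        have hn''lt : n'' < n := by
          have : n'' < n' := by
            rw [hn'']
            exact lt_mul_of_one_lt_right hn''pos hℓ.one_lt
          omega
        obtain ⟨t'', ht'', hft''⟩ := ih n'' hn''lt hn''pos
        obtain ⟨j, hj⟩ : ∃ j : ℕ, k - 1 = (j : ℤ) := Int.eq_ofNat_of_zero_le (by omega)
        refine ⟨t' * CuspForm.heckeTLin k hℓ hℓN - ((ℓ ^ j : ℕ) : ℤ) • t'',
          sub_mem (mul_mem ht' (CuspForm.heckeTLin_mem_heckeAlgebra hℓ hℓN (Set.notMem_empty _)))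
            (zsmul_mem ht'' _), fun f => ?_⟩
        rw [LinearMap.sub_apply, Module.End.mul_apply, map_sub, Pi.sub_apply, ← hft',
          LinearMap.smul_apply, map_zsmul, Pi.smul_apply, ← hft'', qExpLin_apply, qExpLin_apply,
          qExpLin_apply, qCoeff_heckeTLin hℓ hℓN, ModularForm.coeffHeckeT_of_dvd k hℓn', ← hn', hj,
          zpow_natCast, hn'', Nat.mul_div_cancel _ hℓ.pos]
        push_cast
        simp only [zsmul_eq_mul]
        push_cast
        ring
      · refine ⟨t' * CuspForm.heckeTLin k hℓ hℓN,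
          mul_mem ht' (CuspForm.heckeTLin_mem_heckeAlgebra hℓ hℓN (Set.notMem_empty _)), fun f => ?_⟩
        rw [Module.End.mul_apply, ← hft', qExpLin_apply, qExpLin_apply, qCoeff_heckeTLin hℓ hℓN,
          ModularForm.coeffHeckeT_of_not_dvd k hℓn', hn']

/-- A finitely generated `ℤ`-submodule of `ℚ` has a common denominator. -/
theorem exists_denominator_rat (M : Submodule ℤ ℚ) (hM : M.FG) :
    ∃ m : ℤ, m ≠ 0 ∧ ∀ x ∈ M, ∃ z : ℤ, (m : ℚ) * x = (z : ℚ) := by
  obtain ⟨S, rfl⟩ := hM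
  refine ⟨((∏ q ∈ S, q.den : ℕ) : ℤ), ?_, fun x hx => ?_⟩
  · exact_mod_cast Finset.prod_ne_zero_iff.mpr fun q _ => Rat.den_ne_zero q
  · induction hx using Submodule.span_induction with
    | mem x hx =>
      obtain ⟨c, hc⟩ := Finset.dvd_prod_of_mem (fun q : ℚ => q.den) hx
      refine ⟨c * x.num, ?_⟩
      rw [hc]
      push_cast
      rw [mul_comm (x.den : ℚ) (c : ℚ), mul_assoc, Rat.den_mul_eq_num]
    | zero => exact ⟨0, by simp⟩
    | add x y _ _ hx hy =>
      obtain ⟨a, ha⟩ := hx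
      obtain ⟨b, hb⟩ := hy
      exact ⟨a + b, by rw [mul_add, ha, hb]; push_cast; ring⟩
    | smul c x _ hx =>
      obtain ⟨a, ha⟩ := hx
      exact ⟨c * a, by rw [zsmul_eq_mul, mul_left_comm, ha]; push_cast; ring⟩

/-- A finitely generated `ℤ`-submodule of `ℂ` has a common denominator for its rational
elements. -/
theorem exists_denominator (M : Submodule ℤ ℂ) (hM : M.FG) :
    ∃ m : ℤ, m ≠ 0 ∧ ∀ x ∈ M, (∃ q : ℚ, x = (q : ℂ)) → ∃ z : ℤ, (m : ℂ) * x = (z : ℂ) := by
  let ι : ℚ →ₗ[ℤ] ℂ := (Rat.castHom ℂ).toAddMonoidHom.toIntLinearMap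
  have hι : Function.Injective ι := fun a b h => Rat.cast_injective (α := ℂ) h
  have hfg : (M.comap ι).FG :=
    Submodule.fg_of_fg_map_injective ι hι (hM.of_le (Submodule.map_comap_le ι M))
  obtain ⟨m, hm, h⟩ := exists_denominator_rat _ hfg
  refine ⟨m, hm, ?_⟩
  rintro x hx ⟨q, rfl⟩
  obtain ⟨z, hz⟩ := h q hx
  exact ⟨z, by exact_mod_cast congrArg (Rat.cast : ℚ → ℂ) hz⟩

/-- **Bounded denominators** (general weight `k ≥ 1`). -/
theorem exists_int_smul_mem_intLattice_of_one_le [NeZero N] (hk : 1 ≤ k)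
    (hfin : Module.Finite ℤ (CuspForm.heckeAlgebra N k ∅)) (f : CuspForm Γ₀(N) k)
    (hf : ∀ n : ℕ, ∃ q : ℚ, qCoeff ⇑f n = (q : ℂ)) :
    ∃ m : ℤ, m ≠ 0 ∧ m • f ∈ CuspForm.intLattice N k := by
  let φ : CuspForm.heckeAlgebra N k ∅ →ₗ[ℤ] ℂ :=
    { toFun := fun t => qExpLin N k ((t : Module.End ℂ (CuspForm Γ₀(N) k)) f) 1
      map_add' := fun s t => by
        simp only [Subalgebra.coe_add, LinearMap.add_apply, map_add, Pi.add_apply]
      map_smul' := fun c t => by
        simp only [Subalgebra.coe_smul, LinearMap.smul_apply, map_zsmul, Pi.smul_apply,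
          RingHom.id_apply] }
  have hMfg : (LinearMap.range φ).FG := by
    rw [LinearMap.range_eq_map]
    exact (Module.finite_def.mp hfin).map φ
  obtain ⟨m, hm, h⟩ := exists_denominator _ hMfg
  refine ⟨m, hm, ?_⟩
  rw [P2MW.S_CuspForm_intLattice_fg.W3WsD.mem_intLattice_iff]
  intro n
  rw [P2MW.S_CuspForm_intLattice_fg.W3WsD.qCoeff_zsmul]
  refine h _ ?_ (hf n)
  rcases Nat.eq_zero_or_pos n with rfl | hn
  · have h0 : qCoeff ⇑f 0 = 0 := CuspFormClass.qExpansion_coeff_zero f one_pos (hΓ N)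
    rw [h0]
    exact zero_mem _
  · obtain ⟨t, ht, hft⟩ := exists_hecke_coeff (N := N) hk n hn
    exact ⟨⟨t, ht⟩, (hft f).symm⟩

/-- **Bounded denominators** in weight `2` (piece P8 of S23). -/
theorem exists_int_smul_mem_intLattice {N : ℕ} [NeZero N]
    (hfin : Module.Finite ℤ (CuspForm.heckeAlgebra N 2 ∅))
    (f : CuspForm (CongruenceSubgroup.Gamma0 N) 2)
    (hf : ∀ n : ℕ, ∃ q : ℚ, ModularFormClass.qCoeff f n = (q : ℂ)) :
    ∃ m : ℤ, m ≠ 0 ∧ m • f ∈ CuspForm.intLattice N 2 :=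
  exists_int_smul_mem_intLattice_of_one_le (by norm_num) hfin f hf

/-- If the `q`-expansions with rational coefficients span all `q`-expansions, the integral
lattice spans the space of cusp forms. -/
theorem hasIntegralStructure_of_span_rational [NeZero N] (hk : 1 ≤ k)
    (hfin : Module.Finite ℤ (CuspForm.heckeAlgebra N k ∅))
    (hspan : Submodule.span ℂ {a : ℕ → ℂ | a ∈ LinearMap.range (qExpLin N k) ∧
      ∀ i, ∃ q : ℚ, (q : ℂ) = a i} = LinearMap.range (qExpLin N k)) :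
    CuspForm.HasIntegralStructure N k := by
  unfold CuspForm.HasIntegralStructure
  rw [eq_top_iff]
  intro f _
  set W : Submodule ℂ (CuspForm Γ₀(N) k) :=
    Submodule.span ℂ ((CuspForm.intLattice N k : Submodule ℤ (CuspForm Γ₀(N) k)) :
      Set (CuspForm Γ₀(N) k)) with hW
  have hle : LinearMap.range (qExpLin N k) ≤ W.map (qExpLin N k) := by
    rw [← hspan, Submodule.span_le]
    rintro a ⟨⟨g, rfl⟩, hg⟩
    obtain ⟨m, hm, hmem⟩ := exists_int_smul_mem_intLattice_of_one_le hk hfin g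
      (fun n => by obtain ⟨q, hq⟩ := hg n; exact ⟨q, hq.symm⟩)
    refine ⟨g, ?_, rfl⟩
    have hmC : (m : ℂ) ≠ 0 := by exact_mod_cast hm
    have hg' : g = (m : ℂ)⁻¹ • (m • g) := by
      rw [← Int.cast_smul_eq_zsmul ℂ m g, smul_smul, inv_mul_cancel₀ hmC, one_smul]
    rw [hg']
    exact Submodule.smul_mem _ _ (Submodule.subset_span hmem)
  obtain ⟨w, hw, hwf⟩ := hle ⟨f, rfl⟩
  rw [← qExpLin_injective N k hwf]
  exact hw

end Fermat.Agent.S23.Denominators
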