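import Mathlib

set_option autoImplicit false

namespace Fermat.Agent.S23.FixedField

open MvPolynomial

/-- Every ring automorphism of a field `F` extends to an algebraically closed field `K`
containing it (via a transcendence basis of `K` over `F`). -/
theorem exists_ringEquiv_extends {F K : Type*} [Field F] [Field K] [Algebra F K] [IsAlgClosed K]
    (τ : F ≃+* F) :
    ∃ σ : K ≃+* K, ∀ a : F, σ (algebraMap F K a) = algebraMap F K (τ a) := by
  obtain ⟨ι, v, hv⟩ := exists_isTranscendenceBasis' F K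
  have := IsAlgClosed.isAlgClosure_of_transcendence_basis v hv
  let E := Algebra.adjoin F (Set.range v)
  let e : E ≃+* E :=
    hv.1.aevalEquiv.symm.toRingEquiv.trans
      ((MvPolynomial.mapEquiv ι τ).trans hv.1.aevalEquiv.toRingEquiv)
  refine ⟨IsAlgClosure.equivOfEquiv K K e, fun a => ?_⟩
  have h1 : algebraMap F K a = algebraMap E K (algebraMap F E a) := rfl
  rw [h1, IsAlgClosure.equivOfEquiv_algebraMap]
  have h2 : e (algebraMap F E a) = algebraMap F E (τ a) := by
    simp only [e, RingEquiv.trans_apply, AlgEquiv.coe_ringEquiv, AlgEquiv.commutes,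
      MvPolynomial.algebraMap_eq, MvPolynomial.mapEquiv_apply, MvPolynomial.map_C]
    rw [← MvPolynomial.algebraMap_eq, AlgEquiv.commutes]
    rfl
  rw [h2]
  rfl

/-- Algebraic case: an algebraic element outside the prime field is moved by some
automorphism of the algebraically closed field `K`. -/
theorem exists_ringEquiv_ne_of_isAlgebraic {K : Type*} [Field K] [CharZero K] [IsAlgClosed K]
    (x : K) (hx : IsAlgebraic ℚ x) (hq : x ∉ Set.range (algebraMap ℚ K)) :
    ∃ σ : K ≃+* K, σ x ≠ x := by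
  let F := algebraicClosure ℚ K
  let x' : F := ⟨x, mem_algebraicClosure_iff.2 hx⟩
  have hx' : x' ∉ Set.range (algebraMap ℚ F) := by
    rintro ⟨q, hq'⟩
    exact hq ⟨q, by simpa [x'] using congrArg (algebraMap F K) hq'⟩
  have : IsAlgClosure ℚ F := algebraicClosure.isAlgClosure ℚ K
  have : IsGalois ℚ F := IsAlgClosure.isGalois ℚ F
  rw [InfiniteGalois.mem_range_algebraMap_iff_fixed] at hx'
  simp only [not_forall] at hx'
  obtain ⟨f, hf⟩ := hx'
  obtain ⟨σ, hσ⟩ := exists_ringEquiv_extends (K := K) (f : F ≃+* F)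
  refine ⟨σ, fun h => hf ?_⟩
  have h1 := hσ x'
  have h2 : algebraMap F K x' = x := rfl
  rw [h2, h] at h1
  exact Subtype.ext h1.symm

/-- Transcendental case: a transcendental element is moved by some automorphism. -/
theorem exists_ringEquiv_ne_of_transcendental {K : Type*} [Field K] [CharZero K] [IsAlgClosed K]
    (x : K) (hx : Transcendental ℚ x) :
    ∃ σ : K ≃+* K, σ x ≠ x := by
  classical
  have hs : AlgebraicIndepOn ℚ id ({x} : Set K) :=
    (algebraicIndependent_singleton_iff (⟨x, rfl⟩ : ({x} : Set K))).2 hx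
  obtain ⟨B, hxB, hB⟩ := exists_isTranscendenceBasis_superset hs
  have := IsAlgClosed.isAlgClosure_of_transcendence_basis _ hB
  let bx : B := ⟨x, hxB rfl⟩
  let c : B → ℚ := fun b => if b = bx then 2 else 1
  have hc : ∀ b, c b ≠ 0 := fun b => by
    simp only [c]; split_ifs <;> norm_num
  let s : MvPolynomial B ℚ ≃ₐ[ℚ] MvPolynomial B ℚ :=
    AlgEquiv.ofAlgHom (aeval fun b => C (c b) * X b) (aeval fun b => C (c b)⁻¹ * X b)
      (by
        ext b
        simp only [AlgHom.coe_comp, Function.comp_apply, aeval_X, map_mul, aeval_C,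
          MvPolynomial.algebraMap_eq, AlgHom.coe_id, id_eq]
        rw [← mul_assoc, ← C_mul, inv_mul_cancel₀ (hc b), C_1, one_mul])
      (by
        ext b
        simp only [AlgHom.coe_comp, Function.comp_apply, aeval_X, map_mul, aeval_C,
          MvPolynomial.algebraMap_eq, AlgHom.coe_id, id_eq]
        rw [← mul_assoc, ← C_mul, mul_inv_cancel₀ (hc b), C_1, one_mul])
  let E := Algebra.adjoin ℚ (Set.range ((↑) : B → K))
  let e : E ≃+* E :=
    hB.1.aevalEquiv.symm.toRingEquiv.trans (s.toRingEquiv.trans hB.1.aevalEquiv.toRingEquiv)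
  refine ⟨IsAlgClosure.equivOfEquiv K K e, ?_⟩
  have h1 : x = algebraMap E K (hB.1.aevalEquiv (X bx)) := by
    rw [hB.1.algebraMap_aevalEquiv, aeval_X]
  have h2 : e (hB.1.aevalEquiv (X bx)) = hB.1.aevalEquiv (C 2 * X bx) := by
    simp only [e, s, c, RingEquiv.trans_apply, AlgEquiv.coe_ringEquiv, AlgEquiv.symm_apply_apply,
      AlgEquiv.ofAlgHom_apply, aeval_X, if_true]
  have h3 : algebraMap E K (hB.1.aevalEquiv (C 2 * X bx)) = 2 * x := by
    rw [hB.1.algebraMap_aevalEquiv, map_mul, aeval_X, aeval_C]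
    simp [bx]
  have hx0 : x ≠ 0 := fun h0 => hx (h0 ▸ isAlgebraic_zero)
  intro h
  have h4 : IsAlgClosure.equivOfEquiv K K e x = 2 * x := by
    conv_lhs => rw [h1]
    rw [IsAlgClosure.equivOfEquiv_algebraMap, h2, h3]
  rw [h4] at h
  apply hx0
  linear_combination h

/-- An element of an algebraically closed field of characteristic zero that is not rational
is moved by some ring automorphism. -/
theorem exists_ringEquiv_ne' {K : Type*} [Field K] [CharZero K] [IsAlgClosed K]
    (x : K) (hq : x ∉ Set.range (algebraMap ℚ K)) : ∃ σ : K ≃+* K, σ x ≠ x := by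
  by_cases hx : IsAlgebraic ℚ x
  · exact exists_ringEquiv_ne_of_isAlgebraic x hx hq
  · exact exists_ringEquiv_ne_of_transcendental x hx

theorem exists_ringEquiv_ne (x : ℂ) (hx : x ∉ Set.range ((↑) : ℚ → ℂ)) :
    ∃ σ : ℂ ≃+* ℂ, σ x ≠ x := by
  apply exists_ringEquiv_ne' x
  rintro ⟨q, rfl⟩
  exact hx ⟨q, by simp⟩

/-- **P6**: a complex number fixed by every ring automorphism of `ℂ` is rational. -/
theorem mem_range_ratCast_of_fixed (x : ℂ) (h : ∀ σ : ℂ ≃+* ℂ, σ x = x) :
    ∃ q : ℚ, (q : ℂ) = x := by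
  by_contra hx
  obtain ⟨σ, hσ⟩ := exists_ringEquiv_ne x hx
  exact hσ (h σ)

/-- Variant of P6 for ring endomorphisms. -/
theorem mem_range_ratCast_of_fixed_ringHom (x : ℂ) (h : ∀ σ : ℂ →+* ℂ, σ x = x) :
    ∃ q : ℚ, (q : ℂ) = x :=
  mem_range_ratCast_of_fixed x fun σ => h (σ : ℂ →+* ℂ)

end Fermat.Agent.S23.FixedField
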