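import Mathlib
import Fermat.Agent.S23.FixedField

set_option autoImplicit false

namespace Fermat.Agent.S23.Descent

open Module

/-- In a finite-dimensional subspace `V` of a function space `ι → K`, the coordinate
functionals span the dual of `V`. -/
theorem span_range_proj_eq_top {K : Type*} [Field K] {ι : Type*} (V : Submodule K (ι → K))
    [FiniteDimensional K V] :
    Submodule.span K (Set.range fun i : ι => (LinearMap.proj i).comp V.subtype) =
      (⊤ : Submodule K (Dual K V)) := by
  set W : Subspace K (Dual K V) :=
    Submodule.span K (Set.range fun i : ι => (LinearMap.proj i).comp V.subtype) with hW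
  have h1 : W.dualCoannihilator = ⊥ := by
    rw [eq_bot_iff]
    intro v hv
    rw [Submodule.mem_dualCoannihilator] at hv
    rw [Submodule.mem_bot]
    apply Subtype.ext
    funext i
    exact hv _ (Submodule.subset_span ⟨i, rfl⟩)
  have h2 := Subspace.dualCoannihilator_dualAnnihilator_eq (W := W)
  rw [h1, Submodule.dualAnnihilator_bot] at h2
  exact h2.symm

/-- Existence of an "echelon" basis: a basis `e` of `V` and pivot indices `p` with
`e j (p k) = δ_{jk}`, such that a vector of `V` vanishing at all pivots is zero. -/
theorem exists_pivot_basis {K : Type*} [Field K] {ι : Type*} (V : Submodule K (ι → K))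
    [FiniteDimensional K V] :
    ∃ (κ : Type) (_ : Fintype κ) (_ : DecidableEq κ) (p : κ → ι) (e : Basis κ K V),
      (∀ j k, (e j : ι → K) (p k) = if j = k then 1 else 0) ∧
      (∀ v : V, (∀ k, (v : ι → K) (p k) = 0) → v = 0) := by
  classical
  let φ : ι → Dual K V := fun i => (LinearMap.proj i).comp V.subtype
  obtain ⟨b, hb, hspan, hli⟩ := exists_linearIndependent K (Set.range φ)
  have htop : ⊤ ≤ Submodule.span K (Set.range ((↑) : b → Dual K V)) := by
    rw [Subtype.range_coe, hspan, span_range_proj_eq_top]
  let β : Basis b K (Dual K V) := Basis.mk hli htop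
  have : Finite b := Module.Finite.finite_basis β
  have : Fintype b := Fintype.ofFinite b
  choose p hp using fun k : b => hb k.2
  have hβ : ∀ k : b, β k = φ (p k) := fun k => by
    rw [Basis.mk_apply, hp k]
  let e : Basis b K V := β.dualBasis.map (Module.evalEquiv K V).symm
  have he : ∀ (j : b) (ψ : Dual K V), ψ (e j) = β.dualBasis j ψ := by
    intro j ψ
    have : Module.evalEquiv K V (e j) = β.dualBasis j := by
      simp [e]
    rw [← this]
    rfl
  -- transfer to a small index type
  let n := Fintype.card b
  let eqv : b ≃ Fin n := Fintype.equivFin b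
  refine ⟨Fin n, inferInstance, inferInstance, fun k => p (eqv.symm k), e.reindex eqv, ?_, ?_⟩
  · intro j k
    have h1 : ((e.reindex eqv) j : ι → K) (p (eqv.symm k)) = φ (p (eqv.symm k)) (e (eqv.symm j)) := by
      simp [φ]
    rw [h1, ← hβ, he, Basis.dualBasis_apply_self]
    simp only [EmbeddingLike.apply_eq_iff_eq]
    by_cases h : j = k
    · simp [h]
    · simp [h, Ne.symm h]
  · intro v hv
    rw [← Module.forall_dual_apply_eq_zero_iff K v]
    intro ψ
    have hψ : ψ ∈ Submodule.span K (Set.range β) := by
      rw [β.span_eq]; exact Submodule.mem_top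
    refine Submodule.span_induction ?_ ?_ ?_ ?_ hψ
    · rintro _ ⟨k, rfl⟩
      rw [hβ]
      have := hv (eqv k)
      simpa [φ] using this
    · simp
    · intro x y _ _ hx hy
      simp [hx, hy]
    · intro c x _ hx
      simp [hx]

/-- **P7 (abstract Galois descent)**: a finite-dimensional `ℂ`-subspace of `ι → ℂ` which is
stable under the coordinatewise action of all ring automorphisms of `ℂ` is spanned by its
vectors with rational coordinates. -/
theorem exists_rational_span {ι : Type*} (V : Submodule ℂ (ι → ℂ)) [FiniteDimensional ℂ V]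
    (hV : ∀ σ : ℂ ≃+* ℂ, ∀ a ∈ V, (fun i => σ (a i)) ∈ V) :
    Submodule.span ℂ {a | a ∈ V ∧ ∀ i, ∃ q : ℚ, (q : ℂ) = a i} = V := by
  classical
  obtain ⟨κ, _, _, p, e, he, hpiv⟩ := exists_pivot_basis V
  apply le_antisymm
  · exact Submodule.span_le.2 fun a ha => ha.1
  · have hrat : ∀ j, ((e j : V) : ι → ℂ) ∈ {a | a ∈ V ∧ ∀ i, ∃ q : ℚ, (q : ℂ) = a i} := by
      intro j
      refine ⟨(e j).2, fun i => ?_⟩
      apply Fermat.Agent.S23.FixedField.mem_range_ratCast_of_fixed
      intro σ
      -- the conjugate vector
      let w : V := ⟨fun i => σ ((e j : ι → ℂ) i), hV σ _ (e j).2⟩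
      have hw : w - e j = 0 := by
        apply hpiv
        intro k
        simp only [w, Submodule.coe_sub, Pi.sub_apply, he]
        split_ifs <;> simp
      have := congrArg (fun v : V => (v : ι → ℂ) i) (sub_eq_zero.1 hw)
      simpa [w] using this
    intro v hv
    have hv' : (⟨v, hv⟩ : V) ∈ Submodule.span ℂ (Set.range e) := by
      rw [e.span_eq]; exact Submodule.mem_top
    have := Submodule.apply_mem_span_image_of_mem_span V.subtype hv'
    simp only [Submodule.subtype_apply] at this
    refine Submodule.span_mono ?_ this
    rintro _ ⟨_, ⟨j, rfl⟩, rfl⟩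
    exact hrat j

end Fermat.Agent.S23.Descent
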