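import Fermat.Agent.S23.Denominators
import Fermat.Agent.S23.Descent

/-!
# S23: end assembly modulo the conjugation theorem

If the Hecke algebra of `S_k(Γ₀(N))` (`k ≥ 1`) is a finite `ℤ`-module and the space of cusp forms
is stable under the coefficientwise action of the ring automorphisms of `ℂ`, then the space of
cusp forms has an integral structure.
-/

set_option autoImplicit false

namespace Fermat.Agent.S23.Assembly

open Fermat.Agent.S23.Denominators

theorem hasIntegralStructure_of_conj_of_one_le {N : ℕ} [NeZero N] {k : ℤ} (hk : 1 ≤ k)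
    (hfin : Module.Finite ℤ (CuspForm.heckeAlgebra N k ∅))
    (hconj : ∀ (σ : ℂ ≃+* ℂ) (f : CuspForm (CongruenceSubgroup.Gamma0 N) k),
      ∃ g : CuspForm (CongruenceSubgroup.Gamma0 N) k,
        ∀ n : ℕ, ModularFormClass.qCoeff g n = σ (ModularFormClass.qCoeff f n)) :
    CuspForm.HasIntegralStructure N k := by
  have hfd : FiniteDimensional ℂ (CuspForm (CongruenceSubgroup.Gamma0 N) k) :=
    finiteDimensional_cuspForm N k
  apply hasIntegralStructure_of_span_rational hk hfin
  apply Fermat.Agent.S23.Descent.exists_rational_span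
  rintro σ a ⟨f, rfl⟩
  obtain ⟨g, hg⟩ := hconj σ f
  exact ⟨g, funext fun n => hg n⟩

/-- The end assembly of S23: the Hecke algebra in weight `2` is a finite `ℤ`-module (S22) and the
cusp forms are stable under `Aut(ℂ)` (piece P5) ⟹ integral structure. -/
theorem hasIntegralStructure_of_conj {N : ℕ} [NeZero N]
    (hfin : Module.Finite ℤ (CuspForm.heckeAlgebra N 2 ∅))
    (hconj : ∀ (σ : ℂ ≃+* ℂ) (f : CuspForm (CongruenceSubgroup.Gamma0 N) 2),
      ∃ g : CuspForm (CongruenceSubgroup.Gamma0 N) 2,
        ∀ n : ℕ, ModularFormClass.qCoeff g n = σ (ModularFormClass.qCoeff f n)) :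
    CuspForm.HasIntegralStructure N 2 :=
  hasIntegralStructure_of_conj_of_one_le (by norm_num) hfin hconj

end Fermat.Agent.S23.Assembly
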