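/-
S23, piece ROOT: a function satisfying a monic polynomial equation whose lower coefficients
all tend to zero at `i∞` tends to zero at `i∞` itself.
-/
import Mathlib

set_option autoImplicit false

open UpperHalfPlane Filter Topology

namespace Fermat.Agent.S23.RootBound

/-- A root of a monic polynomial with small lower coefficients is small. -/
theorem norm_le_of_monic_small {μ : ℕ} (x : ℂ) (a : Fin μ → ℂ) (ε : ℝ) (hε : 0 < ε)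
    (hε1 : ε ≤ 1) (ha : ∀ m, ‖a m‖ * ((μ : ℝ) + 1) ≤ ε ^ μ)
    (h : x ^ μ + ∑ m : Fin μ, a m * x ^ (μ - 1 - (m : ℕ)) = 0) : ‖x‖ ≤ ε := by
  by_contra hx
  push Not at hx
  have hx0 : 0 < ‖x‖ := hε.trans hx
  have hμ1 : (0 : ℝ) < (μ : ℝ) + 1 := by positivity
  have h1 : x ^ μ = - ∑ m : Fin μ, a m * x ^ (μ - 1 - (m : ℕ)) := eq_neg_of_add_eq_zero_left h
  have hterm : ∀ m : Fin μ, ‖a m * x ^ (μ - 1 - (m : ℕ))‖ * ((μ : ℝ) + 1) ≤ ‖x‖ ^ μ := by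
    intro m
    have hm : (m : ℕ) + 1 ≤ μ := m.2
    have e1 : ε ^ μ ≤ ε ^ ((m : ℕ) + 1) := pow_le_pow_of_le_one hε.le hε1 hm
    have e2 : ε ^ ((m : ℕ) + 1) ≤ ‖x‖ ^ ((m : ℕ) + 1) := pow_le_pow_left₀ hε.le hx.le _
    have e3 : ‖x‖ ^ μ = ‖x‖ ^ ((m : ℕ) + 1) * ‖x‖ ^ (μ - 1 - (m : ℕ)) := by
      rw [← pow_add]
      congr 1
      omega
    have e4 : 0 ≤ ‖x‖ ^ (μ - 1 - (m : ℕ)) := by positivity
    rw [norm_mul, norm_pow, e3]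
    calc ‖a m‖ * ‖x‖ ^ (μ - 1 - (m : ℕ)) * ((μ : ℝ) + 1)
        = (‖a m‖ * ((μ : ℝ) + 1)) * ‖x‖ ^ (μ - 1 - (m : ℕ)) := by ring
      _ ≤ ‖x‖ ^ ((m : ℕ) + 1) * ‖x‖ ^ (μ - 1 - (m : ℕ)) :=
          mul_le_mul_of_nonneg_right ((ha m).trans (e1.trans e2)) e4
  have h2 : ‖x‖ ^ μ * ((μ : ℝ) + 1) ≤ (μ : ℝ) * ‖x‖ ^ μ := by
    calc ‖x‖ ^ μ * ((μ : ℝ) + 1) = ‖x ^ μ‖ * ((μ : ℝ) + 1) := by rw [norm_pow]
      _ = ‖∑ m : Fin μ, a m * x ^ (μ - 1 - (m : ℕ))‖ * ((μ : ℝ) + 1) := by rw [h1, norm_neg]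
      _ ≤ (∑ m : Fin μ, ‖a m * x ^ (μ - 1 - (m : ℕ))‖) * ((μ : ℝ) + 1) :=
          mul_le_mul_of_nonneg_right (norm_sum_le _ _) hμ1.le
      _ = ∑ m : Fin μ, ‖a m * x ^ (μ - 1 - (m : ℕ))‖ * ((μ : ℝ) + 1) := by rw [Finset.sum_mul]
      _ ≤ ∑ _m : Fin μ, ‖x‖ ^ μ := Finset.sum_le_sum fun m _ => hterm m
      _ = (μ : ℝ) * ‖x‖ ^ μ := by simp
  have h3 : 0 < ‖x‖ ^ μ := pow_pos hx0 _
  nlinarith

/-- **Root bound at the cusp**: if `g` satisfies a monic equation whose lower coefficients all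
vanish at `i∞`, then `g` vanishes at `i∞`. -/
theorem isZeroAtImInfty_of_monic {μ : ℕ} (g : ℍ → ℂ) (c : Fin μ → ℍ → ℂ)
    (hc : ∀ m, IsZeroAtImInfty (c m))
    (h : ∀ z, g z ^ μ + ∑ m : Fin μ, c m z * g z ^ (μ - 1 - (m : ℕ)) = 0) :
    IsZeroAtImInfty g := by
  show Tendsto g atImInfty (𝓝 0)
  rw [Metric.tendsto_nhds]
  intro ε hε
  set δ : ℝ := min (ε / 2) 1 with hδ
  have hδ0 : 0 < δ := lt_min (half_pos hε) one_pos
  have hδ1 : δ ≤ 1 := min_le_right _ _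
  have hδε : δ < ε := (min_le_left _ _).trans_lt (half_lt_self hε)
  have hμ1 : (0 : ℝ) < (μ : ℝ) + 1 := by positivity
  have hη : 0 < δ ^ μ / ((μ : ℝ) + 1) := div_pos (pow_pos hδ0 _) hμ1
  have hev : ∀ᶠ z in atImInfty, ∀ m : Fin μ, ‖c m z‖ * ((μ : ℝ) + 1) ≤ δ ^ μ := by
    rw [Filter.eventually_all]
    intro m
    have hm : Tendsto (c m) atImInfty (𝓝 0) := hc m
    rw [Metric.tendsto_nhds] at hm
    filter_upwards [hm _ hη] with z hz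
    rw [dist_zero_right] at hz
    rw [← le_div_iff₀ hμ1]
    exact hz.le
  filter_upwards [hev] with z hz
  rw [dist_zero_right]
  exact (norm_le_of_monic_small (g z) (fun m => c m z) δ hδ0 hδ1 hz (h z)).trans_lt hδε

end Fermat.Agent.S23.RootBound
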