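/-
S23 piece (4c) CUSP: a holomorphic quotient `g = A / B` of modular forms on `Γ₀(N)` of weights
`W + 2` and `W` which is a root of a monic polynomial with level-one cusp-form coefficients is a
cusp form of weight `2` on `Γ₀(N)`.
-/
import Mathlib
import Fermat.Agent.S23.RootBound

set_option autoImplicit false

open UpperHalfPlane ModularForm ModularFormClass CongruenceSubgroup Filter

open scoped ModularForm Topology Manifold MatrixGroups

noncomputable section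

namespace Fermat.Agent.S23.CuspQuot

/-- The monic equation is stable under the weight `2` slash action of `SL(2, ℤ)` when the `m`-th
coefficient is slash invariant of weight `2 (m + 1)`. -/
theorem monic_slash {μ : ℕ} (g : ℍ → ℂ) (c : Fin μ → ℍ → ℂ) (γ : SL(2, ℤ))
    (hc : ∀ m : Fin μ, c m ∣[(2 * (((m : ℕ) + 1 : ℕ) : ℤ))] γ = c m)
    (h : ∀ z, g z ^ μ + ∑ m : Fin μ, c m z * g z ^ (μ - 1 - (m : ℕ)) = 0) (z : ℍ) :
    (g ∣[(2 : ℤ)] γ) z ^ μ +
      ∑ m : Fin μ, c m z * (g ∣[(2 : ℤ)] γ) z ^ (μ - 1 - (m : ℕ)) = 0 := by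
  set D : ℂ := denom γ z with hD
  have hD0 : D ≠ 0 := denom_ne_zero γ z
  set E : ℂ := (D ^ 2)⁻¹ with hE
  have hE2 : D ^ (-(2 : ℤ)) = E := by
    rw [hE, zpow_neg]
    norm_cast
  have hEm : ∀ n : ℕ, D ^ (-(2 * (n : ℤ))) = E ^ n := by
    intro n
    rw [hE, zpow_neg, zpow_mul, inv_pow]
    norm_cast
  have hg : (g ∣[(2 : ℤ)] γ) z = g (γ • z) * E := by
    rw [ModularForm.SL_slash_apply, ← hD, hE2]
  have hcm : ∀ m : Fin μ, c m z = c m (γ • z) * E ^ ((m : ℕ) + 1) := by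
    intro m
    conv_lhs => rw [← hc m]
    rw [ModularForm.SL_slash_apply, ← hD, hEm]
  have key : ∀ m : Fin μ, c m z * (g ∣[(2 : ℤ)] γ) z ^ (μ - 1 - (m : ℕ)) =
      E ^ μ * (c m (γ • z) * g (γ • z) ^ (μ - 1 - (m : ℕ))) := by
    intro m
    rw [hcm m, hg, mul_pow]
    have hpow : E ^ μ = E ^ ((m : ℕ) + 1) * E ^ (μ - 1 - (m : ℕ)) := by
      rw [← pow_add]
      congr 1
      have := m.2
      omega
    rw [hpow]
    ring
  rw [Finset.sum_congr rfl fun m _ => key m, ← Finset.mul_sum, hg, mul_pow, mul_comm _ (E ^ μ),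
    ← mul_add, h (γ • z), mul_zero]

/-- The quotient `g = A / B` of two functions transforming with weights `W + 2` and `W` under
`γ` transforms with weight `2` under `γ`, provided `g`, `B` are holomorphic and `B ≢ 0`. -/
theorem slash_eq_of_quotient {W : ℤ} (A B g : ℍ → ℂ) (hB : MDiff B) (hg : MDiff g)
    (γ : SL(2, ℤ))
    (hAs : ∀ z : ℍ, A (γ • z) = denom γ z ^ (W + 2) * A z)
    (hBs : ∀ z : ℍ, B (γ • z) = denom γ z ^ W * B z)
    (hB0 : ∃ z, B z ≠ 0) (hgB : ∀ z, A z = g z * B z) :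
    g ∣[(2 : ℤ)] γ = g := by
  have h2 : (g ∣[(2 : ℤ)] γ - g) * B = 0 := by
    funext z
    have hD0 : (denom γ z : ℂ) ≠ 0 := denom_ne_zero γ z
    have e1 : g (γ • z) * (denom γ z ^ W * B z) = denom γ z ^ (W + 2) * (g z * B z) := by
      rw [← hBs z, ← hgB (γ • z), hAs z, hgB z]
    rw [zpow_add₀ hD0] at e1
    have e2 : g (γ • z) * B z = denom γ z ^ (2 : ℤ) * (g z * B z) := by
      have hW : (denom γ z : ℂ) ^ W ≠ 0 := zpow_ne_zero _ hD0
      apply mul_left_cancel₀ hW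
      linear_combination e1
    have e3 : (denom γ z : ℂ) ^ (-2 : ℤ) * denom γ z ^ (2 : ℤ) = 1 := by
      rw [← zpow_add₀ hD0]
      simp
    simp only [Pi.mul_apply, Pi.sub_apply, Pi.zero_apply, ModularForm.SL_slash_apply]
    linear_combination (denom γ z : ℂ) ^ (-2 : ℤ) * e2 + g z * B z * e3
  have hdiff : MDiff (g ∣[(2 : ℤ)] γ - g) := (hg.slash 2 _).sub hg
  rcases (UpperHalfPlane.mul_eq_zero_iff hdiff hB).mp h2 with h3 | h3
  · exact sub_eq_zero.mp h3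
  · obtain ⟨z, hz⟩ := hB0
    exact absurd (congrFun h3 z) hz

/-- Piece CUSP of S23: a holomorphic quotient `g = A / B` of functions transforming like modular
forms of weights `W + 2` and `W` on `Γ₀(N)`, which is a root of a monic polynomial whose
coefficients are level-one cusp forms (of weight `2 m` for the coefficient of `X^(μ - m)`), is a
cusp form of weight `2` on `Γ₀(N)`. -/
theorem exists_cuspForm_of_quotient {N : ℕ} [NeZero N] {W : ℤ} {μ : ℕ}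
    (A B g : ℍ → ℂ) (hA : Continuous A) (hB : MDifferentiable 𝓘(ℂ) 𝓘(ℂ) B)
    (hg : MDifferentiable 𝓘(ℂ) 𝓘(ℂ) g)
    (hAs : ∀ γ : SL(2, ℤ), γ ∈ Gamma0 N → ∀ z : ℍ, A (γ • z) = denom γ z ^ (W + 2) * A z)
    (hBs : ∀ γ : SL(2, ℤ), γ ∈ Gamma0 N → ∀ z : ℍ, B (γ • z) = denom γ z ^ W * B z)
    (hB0 : ∃ z, B z ≠ 0) (hgB : ∀ z, A z = g z * B z)
    (c : (m : ℕ) → CuspForm 𝒮ℒ (2 * (m : ℤ)))
    (hmonic : ∀ z, g z ^ μ + ∑ m : Fin μ, c ((m : ℕ) + 1) z * g z ^ (μ - 1 - (m : ℕ)) = 0) :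
    ∃ G : CuspForm (Gamma0 N) 2, (⇑G : ℍ → ℂ) = g := by
  have hslash : ∀ γ ∈ (Gamma0 N : Subgroup (GL (Fin 2) ℝ)), g ∣[(2 : ℤ)] γ = g := by
    intro γ hγ
    obtain ⟨γ', hγ', rfl⟩ := Subgroup.mem_map.mp hγ
    exact slash_eq_of_quotient A B g hB hg γ' (hAs γ' hγ') (hBs γ' hγ') hB0 hgB
  have hinf : IsCusp OnePoint.infty 𝒮ℒ := by
    rw [isCusp_SL2Z_iff']
    exact ⟨1, by simp⟩
  have hc0 : ∀ m : Fin μ, IsZeroAtImInfty (⇑(c ((m : ℕ) + 1)) : ℍ → ℂ) := by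
    intro m
    have := (c ((m : ℕ) + 1)).zero_at_cusps' hinf 1 (one_smul _ _)
    simpa using this
  have hcs : ∀ (γ : SL(2, ℤ)) (m : Fin μ),
      (⇑(c ((m : ℕ) + 1)) : ℍ → ℂ) ∣[(2 * (((m : ℕ) + 1 : ℕ) : ℤ))] γ = ⇑(c ((m : ℕ) + 1)) := by
    intro γ m
    exact (c ((m : ℕ) + 1)).slash_action_eq' _ ⟨γ, rfl⟩
  have hzero : ∀ γ : SL(2, ℤ), IsZeroAtImInfty (g ∣[(2 : ℤ)] γ) := by
    intro γ
    exact Fermat.Agent.S23.RootBound.isZeroAtImInfty_of_monic (g ∣[(2 : ℤ)] γ)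
      (fun m => ⇑(c ((m : ℕ) + 1))) hc0
      (monic_slash g (fun m => ⇑(c ((m : ℕ) + 1))) γ (hcs γ) hmonic)
  refine ⟨{ toFun := g
            slash_action_eq' := hslash
            holo' := hg
            zero_at_cusps' := ?_ }, rfl⟩
  intro x hx
  have hx' : IsCusp x 𝒮ℒ :=
    (Subgroup.IsArithmetic.isCusp_iff_isCusp_SL2Z (Gamma0 N : Subgroup (GL (Fin 2) ℝ))).mp hx
  rw [OnePoint.isZeroAt_iff_forall_SL2Z hx']
  intro γ _
  exact hzero γ

end Fermat.Agent.S23.CuspQuot
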