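/-
S23, piece CONJ: Galois conjugation of weight-2 cusp forms on `Γ₀(N)`.
-/
import Mathlib
import Fermat.Agent.S23.UV
import Fermat.Agent.S23.QNice
import Fermat.Agent.S23.NormPoly
import Fermat.Agent.S23.Division
import Fermat.Agent.S23.Lagrange
import Fermat.Agent.S23.Dist
import Fermat.Agent.S23.CuspQuot
import Fermat.Prelude.Def_CuspForm_IntegralStructure

set_option autoImplicit false

noncomputable section

open UpperHalfPlane ModularForm ModularFormClass CongruenceSubgroup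
open scoped MatrixGroups ModularForm Manifold

namespace Fermat.Agent.S23.Conj

open QNice

/-- The combination `∑ n < μ, R n * u ^ n * v ^ (μ - 1 - n)` in the ring of nice functions. -/
def comb (μ : ℕ) (R : ℕ → niceSub) (u v : niceSub) : niceSub :=
  ∑ n ∈ Finset.range μ, R n * u ^ n * v ^ (μ - 1 - n)

theorem comb_apply (μ : ℕ) (R : ℕ → niceSub) (u v : niceSub) (τ : ℍ) :
    (comb μ R u v : ℍ → ℂ) τ =
      ∑ n ∈ Finset.range μ, (R n : ℍ → ℂ) τ * (u : ℍ → ℂ) τ ^ n * (v : ℍ → ℂ) τ ^ (μ - 1 - n) := by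
  simp [comb, Finset.sum_apply]

theorem qHom_comb (s : PowerSeries ℂ →+* PowerSeries ℂ) (μ : ℕ) (R R' : ℕ → niceSub)
    (u v : niceSub) (hR : ∀ n, qHom (R' n) = s (qHom (R n)))
    (hu : s (qHom u) = qHom u) (hv : s (qHom v) = qHom v) :
    qHom (comb μ R' u v) = s (qHom (comb μ R u v)) := by
  simp only [comb, map_sum, map_mul, map_pow, hR, hu, hv]


theorem levelOne_smul {k : ℤ} (R : ModularForm 𝒮ℒ k) (γ : SL(2, ℤ)) (z : ℍ) :
    R (γ • z) = denom γ z ^ k * R z := by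
  have h : (Matrix.SpecialLinearGroup.mapGL ℝ γ) ∈ 𝒮ℒ := ⟨γ, rfl⟩
  exact SlashInvariantForm.slash_action_eqn'' R h z

/-- Transformation law under `Γ₀(N)` of `∑ n < μ, R n * u ^ n * v ^ (μ - 1 - n)`. -/
theorem comb_smul {N : ℕ} [NeZero N] {k : ℤ} (μ : ℕ) (R : ℕ → ModularForm 𝒮ℒ k)
    (γ : SL(2, ℤ)) (hγ : γ ∈ Gamma0 N) (z : ℍ) :
    ∑ n ∈ Finset.range μ,
        R n (γ • z) * UV.uForm N (γ • z) ^ n * UV.vForm N (γ • z) ^ (μ - 1 - n)
      = denom γ z ^ (k + 12 * ((μ : ℤ) - 1)) *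
        ∑ n ∈ Finset.range μ, R n z * UV.uForm N z ^ n * UV.vForm N z ^ (μ - 1 - n) := by
  rw [Finset.mul_sum]
  refine Finset.sum_congr rfl fun n hn => ?_
  have hn' : n < μ := Finset.mem_range.mp hn
  have hd : denom γ z ≠ 0 := denom_ne_zero γ z
  rw [levelOne_smul, SlashInvariantForm.slash_action_eqn_SL'' (UV.uForm N) hγ z,
    SlashInvariantForm.slash_action_eqn_SL'' (UV.vForm N) hγ z]
  have e : (k + 12 * ((μ : ℤ) - 1)) = k + 12 * (n : ℤ) + 12 * ((μ - 1 - n : ℕ) : ℤ) := by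
    have : ((μ - 1 - n : ℕ) : ℤ) = (μ : ℤ) - 1 - n := by omega
    rw [this]; ring
  have h1 : ∀ j : ℕ, (denom γ z ^ (12 : ℤ)) ^ j = denom γ z ^ (12 * (j : ℤ)) := fun j => by
    rw [zpow_mul, zpow_natCast]
  rw [e, zpow_add₀ hd, zpow_add₀ hd, mul_pow, mul_pow, h1, h1]
  ring

/-- Sum over `Icc 1 μ` as a sum over `Fin μ`. -/
theorem sum_Icc_eq_sum_fin {M : Type*} [AddCommMonoid M] (μ : ℕ) (F : ℕ → M) :
    ∑ m ∈ Finset.Icc 1 μ, F m = ∑ m : Fin μ, F ((m : ℕ) + 1) := by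
  rw [Fin.sum_univ_eq_sum_range (fun m => F (m + 1)) μ, Finset.range_eq_Ico,
    Finset.sum_Ico_add' F 0 μ 1, zero_add, ← Finset.Ico_add_one_right_eq_Icc]

/-- **Galois conjugation** of a weight-2 cusp form on `Γ₀(N)`. -/
theorem exists_conj (N : ℕ) [NeZero N] (σ : ℂ ≃+* ℂ) (f : CuspForm (Gamma0 N) 2) :
    ∃ g : CuspForm (Gamma0 N) 2, ∀ n : ℕ, qCoeff g n = σ (qCoeff f n) := by
  classical
  set μ := (Gamma0 N).index with hμ
  let s : PowerSeries ℂ →+* PowerSeries ℂ := PowerSeries.map (σ : ℂ →+* ℂ)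
  have hs_inj : Function.Injective s := PowerSeries.map_injective _ σ.injective
  -- Lagrange interpolation and the monic norm polynomial
  obtain ⟨R, Q, ⟨τ0, hτ0⟩, hRQ⟩ := Lagrange.exists_lagrange (CuspForm.toModularFormₗ f)
    (UV.uForm N) (UV.vForm N) (Dist.uv_dist N)
  obtain ⟨c, hc⟩ := NormPoly.exists_monic_cuspPoly f
  -- conjugate the level one data
  choose R' hR' using fun n => LevelOne.exists_map_qExpansion (σ : ℂ →+* ℂ) (R n)
  choose Q' hQ' using fun n => LevelOne.exists_map_qExpansion (σ : ℂ →+* ℂ) (Q n)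
  choose c' hc' using fun m => LevelOne.exists_map_qExpansion_cuspForm (σ : ℂ →+* ℂ) (c m)
  -- everything in the ring of nice functions
  let un : niceSub := ⟨⇑(UV.uForm N), nice_gamma0 _⟩
  let vn : niceSub := ⟨⇑(UV.vForm N), nice_gamma0 _⟩
  let fn : niceSub := ⟨⇑f, nice_gamma0_cusp f⟩
  let Rn : ℕ → niceSub := fun n => ⟨⇑(R n), nice_levelOne _⟩
  let Qn : ℕ → niceSub := fun n => ⟨⇑(Q n), nice_levelOne _⟩
  let R'n : ℕ → niceSub := fun n => ⟨⇑(R' n), nice_levelOne _⟩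
  let Q'n : ℕ → niceSub := fun n => ⟨⇑(Q' n), nice_levelOne _⟩
  let cn : ℕ → niceSub := fun m => ⟨⇑(c m), nice_levelOne_cusp _⟩
  let c'n : ℕ → niceSub := fun m => ⟨⇑(c' m), nice_levelOne_cusp _⟩
  have hu : s (qHom un) = qHom un := UV.map_qExpansion_uForm _ N
  have hv : s (qHom vn) = qHom vn := UV.map_qExpansion_vForm _ N
  set A : niceSub := comb μ Rn un vn with hA
  set B : niceSub := comb μ Qn un vn with hB
  set A' : niceSub := comb μ R'n un vn with hA'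
  set B' : niceSub := comb μ Q'n un vn with hB'
  have hfB : fn * B = A := by
    refine Subtype.ext (funext fun τ => ?_)
    have := hRQ τ
    simp only [hA, hB, MulMemClass.coe_mul, Pi.mul_apply, comb_apply]
    exact this
  have hmon : fn ^ μ + ∑ m ∈ Finset.Icc 1 μ, cn m * fn ^ (μ - m) = 0 := by
    refine Subtype.ext (funext fun τ => ?_)
    have := hc τ
    simpa [Finset.sum_apply] using this
  have hΨ : A ^ μ + ∑ m ∈ Finset.Icc 1 μ, cn m * A ^ (μ - m) * B ^ m = 0 := by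
    rw [← hfB]
    have key : (fn * B) ^ μ + ∑ m ∈ Finset.Icc 1 μ, cn m * (fn * B) ^ (μ - m) * B ^ m =
        B ^ μ * (fn ^ μ + ∑ m ∈ Finset.Icc 1 μ, cn m * fn ^ (μ - m)) := by
      rw [mul_add, Finset.mul_sum, mul_pow]
      congr 1
      · ring
      · refine Finset.sum_congr rfl fun m hm => ?_
        have hm' : m ≤ μ := (Finset.mem_Icc.mp hm).2
        have hpow : B ^ μ = B ^ (μ - m) * B ^ m := by rw [← pow_add, Nat.sub_add_cancel hm']
        rw [mul_pow, hpow]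
        ring
    rw [key, hmon, mul_zero]
  -- the conjugated identity, via `q`-expansions
  have hqA : qHom A' = s (qHom A) := qHom_comb s μ Rn R'n un vn hR' hu hv
  have hqB : qHom B' = s (qHom B) := qHom_comb s μ Qn Q'n un vn hQ' hu hv
  have hqc : ∀ m, qHom (c'n m) = s (qHom (cn m)) := hc'
  have hΨ' : A' ^ μ + ∑ m ∈ Finset.Icc 1 μ, c'n m * A' ^ (μ - m) * B' ^ m = 0 := by
    apply qHom_injective
    have h0 := congrArg (fun x => s (qHom x)) hΨ
    simp only [map_add, map_sum, map_mul, map_pow, map_zero] at h0 ⊢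
    rw [hqA, hqB]
    simp only [hqc]
    exact h0
  have hB0 : B ≠ 0 := by
    intro h
    apply hτ0
    have := congrArg (fun x : niceSub => (x : ℍ → ℂ) τ0) h
    simpa [hB, comb_apply] using this
  have hB'0 : B' ≠ 0 := by
    intro h
    apply hB0
    apply qHom_injective
    apply hs_inj
    rw [← hqB, h]
    simp
  obtain ⟨τ1, hτ1⟩ : ∃ τ, (B' : ℍ → ℂ) τ ≠ 0 := by
    by_contra hcon
    push Not at hcon
    exact hB'0 (Subtype.ext (funext hcon))
  -- division: `A' = g * B'` with `g` holomorphic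
  obtain ⟨g, hg, hgB, hgm⟩ := Division.exists_holo_quotient_upperHalfPlane (μ := μ)
    (A' : ℍ → ℂ) (B' : ℍ → ℂ) (fun m : Fin μ => ⇑(c' ((m : ℕ) + 1)))
    A'.2.hol B'.2.hol (fun m => (CuspFormClass.holo (c' ((m : ℕ) + 1))).continuous) ⟨τ1, hτ1⟩
    (by
      intro z
      have h0 := congrArg (fun x : niceSub => (x : ℍ → ℂ) z) hΨ'
      rw [sum_Icc_eq_sum_fin] at h0
      simpa [Finset.sum_apply, Nat.sub_sub, add_comm] using h0)
  -- `g` is a cusp form
  have hAs : ∀ γ : SL(2, ℤ), γ ∈ Gamma0 N → ∀ z : ℍ, (A' : ℍ → ℂ) (γ • z) =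
      denom γ z ^ ((12 * ((μ : ℤ) - 1) + 12 * ((μ : ℤ) - 1)) + 2) * (A' : ℍ → ℂ) z := by
    intro γ hγ z
    have h1 := comb_smul (N := N) μ R' γ hγ z
    have e : (12 * ((μ : ℤ) - 1) + 12 * ((μ : ℤ) - 1)) + 2 =
        2 + 12 * ((μ : ℤ) - 1) + 12 * ((μ : ℤ) - 1) := by ring
    rw [e]
    simpa [hA', comb_apply] using h1
  have hBs : ∀ γ : SL(2, ℤ), γ ∈ Gamma0 N → ∀ z : ℍ, (B' : ℍ → ℂ) (γ • z) =
      denom γ z ^ (12 * ((μ : ℤ) - 1) + 12 * ((μ : ℤ) - 1)) * (B' : ℍ → ℂ) z := by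
    intro γ hγ z
    have h1 := comb_smul (N := N) μ Q' γ hγ z
    simpa [hB', comb_apply] using h1
  obtain ⟨G, hG⟩ := CuspQuot.exists_cuspForm_of_quotient (N := N)
    (W := 12 * ((μ : ℤ) - 1) + 12 * ((μ : ℤ) - 1)) (μ := μ) (A' : ℍ → ℂ) (B' : ℍ → ℂ) g
    A'.2.hol.continuous B'.2.hol hg hAs hBs ⟨τ1, hτ1⟩ hgB c' hgm
  refine ⟨G, fun n => ?_⟩
  -- the `q`-expansion of `g`
  let gn : niceSub := ⟨⇑G, nice_gamma0_cusp G⟩
  have h1 : gn * B' = A' := by
    refine Subtype.ext (funext fun z => ?_)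
    simp only [MulMemClass.coe_mul, Pi.mul_apply]
    rw [show (gn : ℍ → ℂ) z = g z from congrFun hG z]
    exact (hgB z).symm
  have h2 : qHom gn * qHom B' = s (qHom fn) * qHom B' := by
    rw [← map_mul, h1, hqA, ← hfB, map_mul, map_mul, hqB]
  have hqB'0 : qHom B' ≠ 0 := fun h => hB'0 (qHom_injective (by rw [h, map_zero]))
  have h3 : qHom gn = s (qHom fn) := mul_right_cancel₀ hqB'0 h2
  have h4 := congrArg (fun p => PowerSeries.coeff n p) h3
  simpa [qCoeff, qHom_apply, s, PowerSeries.coeff_map] using h4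

end Fermat.Agent.S23.Conj

end
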