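/-
S23, piece P5 (first half): clearing denominators in the function field identity and
conjugating the coefficients.

If a weight two cusp form `f` on `Γ₀(N)` satisfies
`f * E₄ * s(j) = E₆ * ∑ i < μ, p_i(j) * j_N ^ i`, then for every ring endomorphism `σ` of `ℂ`
the conjugated `q`-series `σ(f)` is a quotient `u / v` of two modular forms on `Γ₀(N)`.
-/
import Mathlib
import Fermat.Agent.S23.LevelOne
import Fermat.Agent.S23.Dilate
import Fermat.Agent.S23.JN

set_option autoImplicit false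

noncomputable section

open UpperHalfPlane ModularForm ModularFormClass EisensteinSeries Matrix.SpecialLinearGroup
open CongruenceSubgroup Polynomial
open scoped MatrixGroups ModularForm Manifold

namespace Fermat.Agent.S23.ConjRatio

open Fermat.Agent.S23.LevelOne Fermat.Agent.S23.Dilate Fermat.Agent.S23.JN

local notation "Δ" => ModularForm.discriminant

/-- The discriminant as a level one modular form of weight `12`. -/
def discForm : ModularForm 𝒮ℒ 12 := CuspForm.toModularFormₗ CuspForm.discriminant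

theorem coe_discForm : (⇑discForm : ℍ → ℂ) = Δ := rfl

/-- `F` is (the function of) a weight `k` modular form for `Γ` whose `q`-expansion has a
`σ`-conjugate which is again the `q`-expansion of a weight `k` modular form for `Γ`. -/
def HasConj (Γ : Subgroup (GL (Fin 2) ℝ)) (σ : ℂ →+* ℂ) (k : ℤ) (F : ℍ → ℂ) : Prop :=
  ∃ G G' : ModularForm Γ k, (⇑G : ℍ → ℂ) = F ∧
    qExpansion 1 G' = PowerSeries.map σ (qExpansion 1 G)

section closure

variable {Γ : Subgroup (GL (Fin 2) ℝ)} {σ : ℂ →+* ℂ}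

theorem HasConj.cast {k k' : ℤ} {F : ℍ → ℂ} (h : HasConj Γ σ k F) (e : k = k') :
    HasConj Γ σ k' F := e ▸ h

theorem HasConj.congr {k : ℤ} {F F' : ℍ → ℂ} (h : HasConj Γ σ k F) (e : F = F') :
    HasConj Γ σ k F' := e ▸ h

theorem HasConj.zero (k : ℤ) : HasConj Γ σ k 0 :=
  ⟨0, 0, rfl, by simp [UpperHalfPlane.qExpansion_zero]⟩

theorem HasConj.mul [Γ.HasDetPlusMinusOne] (hΓ : (1 : ℝ) ∈ Γ.strictPeriods) {k₁ k₂ : ℤ}
    {F₁ F₂ : ℍ → ℂ} (h₁ : HasConj Γ σ k₁ F₁) (h₂ : HasConj Γ σ k₂ F₂) :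
    HasConj Γ σ (k₁ + k₂) (F₁ * F₂) := by
  obtain ⟨G₁, G₁', rfl, e₁⟩ := h₁
  obtain ⟨G₂, G₂', rfl, e₂⟩ := h₂
  refine ⟨G₁.mul G₂, G₁'.mul G₂', ModularForm.coe_mul _ _, ?_⟩
  rw [ModularForm.qExpansion_mul one_pos hΓ, ModularForm.qExpansion_mul one_pos hΓ, e₁, e₂,
    map_mul]

theorem HasConj.add (hΓ : (1 : ℝ) ∈ Γ.strictPeriods) {k : ℤ}
    {F₁ F₂ : ℍ → ℂ} (h₁ : HasConj Γ σ k F₁) (h₂ : HasConj Γ σ k F₂) :
    HasConj Γ σ k (F₁ + F₂) := by
  obtain ⟨G₁, G₁', rfl, e₁⟩ := h₁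
  obtain ⟨G₂, G₂', rfl, e₂⟩ := h₂
  refine ⟨G₁ + G₂, G₁' + G₂', rfl, ?_⟩
  rw [FunLike.coe_add, FunLike.coe_add, ModularForm.qExpansion_add one_pos hΓ,
    ModularForm.qExpansion_add one_pos hΓ, e₁, e₂, map_add]

theorem HasConj.smul [Γ.HasDetOne] (hΓ : (1 : ℝ) ∈ Γ.strictPeriods) {k : ℤ}
    {F : ℍ → ℂ} (c : ℂ) (h : HasConj Γ σ k F) : HasConj Γ σ k (c • F) := by
  obtain ⟨G, G', rfl, e⟩ := h
  refine ⟨c • G, σ c • G', rfl, ?_⟩
  rw [FunLike.coe_smul, FunLike.coe_smul, ModularForm.qExpansion_smul one_pos hΓ,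
    ModularForm.qExpansion_smul one_pos hΓ, e]
  ext n
  simp

theorem HasConj.sum (hΓ : (1 : ℝ) ∈ Γ.strictPeriods) {ι : Type*} (s : Finset ι) {k : ℤ}
    {F : ι → ℍ → ℂ} (h : ∀ i ∈ s, HasConj Γ σ k (F i)) : HasConj Γ σ k (∑ i ∈ s, F i) := by
  classical
  induction s using Finset.induction_on with
  | empty => simpa using HasConj.zero k
  | insert i s hi ih =>
    rw [Finset.sum_insert hi]
    exact (h i (Finset.mem_insert_self i s)).add hΓ
      (ih fun j hj => h j (Finset.mem_insert_of_mem hj))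

theorem HasConj.pow [Γ.HasDetPlusMinusOne] (hΓ : (1 : ℝ) ∈ Γ.strictPeriods) {k : ℤ}
    {F : ℍ → ℂ} (h : HasConj Γ σ k F) (n : ℕ) : HasConj Γ σ (n * k) (F ^ n) := by
  obtain ⟨G, G', rfl, e⟩ := h
  refine ⟨G.pow n, G'.pow n, ModularForm.coe_pow _ _, ?_⟩
  rw [ModularForm.qExpansion_pow one_pos hΓ, ModularForm.qExpansion_pow one_pos hΓ, e, map_pow]

theorem HasConj.restrict {Γ' : Subgroup (GL (Fin 2) ℝ)} (hle : Γ' ≤ Γ) {k : ℤ} {F : ℍ → ℂ}
    (h : HasConj Γ σ k F) : HasConj Γ' σ k F := by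
  obtain ⟨G, G', rfl, e⟩ := h
  exact ⟨Dilate.restrict hle G, Dilate.restrict hle G', coe_restrict _ _, by
    rw [coe_restrict, coe_restrict]; exact e⟩

end closure

variable (σ : ℂ →+* ℂ)

/-- Every level one modular form has a conjugate. -/
theorem hasConj_levelOne {k : ℤ} (G : ModularForm 𝒮ℒ k) : HasConj 𝒮ℒ σ k ⇑G := by
  obtain ⟨G', hG'⟩ := exists_map_qExpansion σ G
  exact ⟨G, G', rfl, hG'⟩

variable {σ} in
/-- Dilates of level one forms with a conjugate have a conjugate on `Γ₀(N)`. -/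
theorem HasConj.dilate (N : ℕ) [NeZero N] {k : ℤ} {F : ℍ → ℂ} (h : HasConj 𝒮ℒ σ k F) :
    HasConj (Subgroup.map (mapGL ℝ) (Gamma0 N)) σ k (fun z => F (heckeDiagMatrix N • z)) := by
  obtain ⟨G, G', rfl, e⟩ := h
  refine ⟨Dilate.dilate N G, Dilate.dilate N G', ?_, map_qExpansion_dilate σ N G G' e⟩
  ext z
  exact dilate_apply N G z

theorem hasConj_discriminant_pow_mul_jFun_pow {a l : ℕ} (h : l ≤ a) :
    HasConj 𝒮ℒ σ (12 * (a : ℤ)) (fun z => Δ z ^ a * jFun z ^ l) := by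
  have h1 := ((hasConj_levelOne σ E₄).pow one_mem_strictPeriods_SL (3 * l)).mul
    one_mem_strictPeriods_SL ((hasConj_levelOne σ discForm).pow one_mem_strictPeriods_SL (a - l))
  refine (h1.cast (by push_cast [Nat.cast_sub h]; ring)).congr ?_
  funext z
  have hΔ : Δ z ≠ 0 := discriminant_ne_zero z
  simp only [Pi.mul_apply, Pi.pow_apply, coe_discForm]
  rw [jFun, div_pow, ← pow_mul]
  obtain ⟨c, rfl⟩ := Nat.exists_eq_add_of_le h
  rw [Nat.add_sub_cancel_left, pow_add]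
  field_simp

theorem hasConj_discriminant_pow_mul_eval {a : ℕ} (r : ℂ[X]) (hr : r.natDegree ≤ a) :
    HasConj 𝒮ℒ σ (12 * (a : ℤ)) (fun z => Δ z ^ a * r.eval (jFun z)) := by
  have h1 : HasConj 𝒮ℒ σ (12 * (a : ℤ))
      (∑ l ∈ Finset.range (a + 1), r.coeff l • (fun z : ℍ => Δ z ^ a * jFun z ^ l)) :=
    HasConj.sum one_mem_strictPeriods_SL _ fun l hl =>
      (hasConj_discriminant_pow_mul_jFun_pow σ
        (Nat.lt_succ_iff.mp (Finset.mem_range.mp hl))).smul one_mem_strictPeriods_SL _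
  refine h1.congr ?_
  funext z
  rw [Polynomial.eval_eq_sum_range' (Nat.lt_succ_of_le hr), Finset.sum_apply, Finset.mul_sum]
  refine Finset.sum_congr rfl fun l _ => ?_
  simp only [Pi.smul_apply, smul_eq_mul]
  ring

theorem jFun_heckeDiagMatrix_smul (N : ℕ) [NeZero N] (z : ℍ) :
    jFun (heckeDiagMatrix N • z) = jN N z :=
  (jN_eq_of_coe N (coe_heckeDiagMatrix_smul (NeZero.ne N) z)).symm

/-- A modular form with vanishing `q`-expansion vanishes. -/
theorem eq_zero_of_qExpansion_eq_zero {Γ : Subgroup (GL (Fin 2) ℝ)} {k : ℤ}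
    [Fact (IsCusp OnePoint.infty Γ)]
    (hΓ : (1 : ℝ) ∈ Γ.strictPeriods) (G : ModularForm Γ k) (h : qExpansion 1 G = 0) (z : ℍ) :
    G z = 0 := by
  have hsum := ModularForm.hasSum_qExpansion G one_pos hΓ z
  rw [h] at hsum
  simp only [map_zero, zero_mul] at hsum
  exact hsum.unique hasSum_zero

theorem eq_zero_of_map_eq_zero (p : PowerSeries ℂ) (h : PowerSeries.map σ p = 0) : p = 0 := by
  ext n
  have := congrArg (PowerSeries.coeff n) h
  rw [PowerSeries.coeff_map] at this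
  simpa using this

theorem eq_zero_of_E₄_mul_eval (s : ℂ[X]) (h : ∀ z : ℍ, E₄ z * s.eval (jFun z) = 0) : s = 0 := by
  have h3 : ∀ z : ℍ, (X * s ^ 3 : ℂ[X]).eval (jFun z) = 0 := by
    intro z
    have hz := h z
    rw [eval_mul, eval_X, eval_pow]
    have e : jFun z * s.eval (jFun z) ^ 3 = (E₄ z * s.eval (jFun z)) ^ 3 / Δ z := by
      rw [mul_pow]
      simp only [jFun]
      ring
    rw [e, hz]
    simp
  have h4 := eq_zero_of_eval_jFun _ h3
  simpa using h4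

/-- The level `N` group, as a subgroup of `GL₂(ℝ)`. -/
local notation "Γ₀N" N => Subgroup.map (mapGL ℝ) (Gamma0 N)

/-- The denominator `E₄ * Δ ^ a * s(j) * Δ(N ·) ^ b` has a conjugate. -/
theorem hasConj_den (N : ℕ) [NeZero N] (a b : ℕ) (s : ℂ[X]) (hs : s.natDegree ≤ a) :
    HasConj (Γ₀N N) σ (4 + (12 * (a : ℤ) + 12 * (b : ℤ)))
      (fun z => E₄ z * (Δ z ^ a * s.eval (jFun z) * Δ (heckeDiagMatrix N • z) ^ b)) := by
  have hΓ : (1 : ℝ) ∈ (Γ₀N N).strictPeriods :=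
    CongruenceSubgroup.one_mem_strictPeriods_Gamma0 N
  have hle : (Γ₀N N) ≤ 𝒮ℒ := Subgroup.map_le_range _ _
  have hD0 : HasConj (Γ₀N N) σ (12 * (b : ℤ)) (fun z => Δ (heckeDiagMatrix N • z) ^ b) := by
    refine ((hasConj_discriminant_pow_mul_jFun_pow σ (Nat.zero_le b)).dilate N).congr ?_
    funext z
    simp
  exact ((hasConj_levelOne σ E₄).restrict hle).mul hΓ
    (((hasConj_discriminant_pow_mul_eval σ s hs).restrict hle).mul hΓ hD0)

/-- The numerator `E₆ * ∑ i < μ, Δ ^ a * p_i(j) * Δ(N ·) ^ b * j_N ^ i` has a conjugate. -/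
theorem hasConj_num (N : ℕ) [NeZero N] (a b μ : ℕ) (p : ℕ → ℂ[X])
    (hp : ∀ i ∈ Finset.range μ, (p i).natDegree ≤ a) (hb : μ ≤ b) :
    HasConj (Γ₀N N) σ (6 + (12 * (a : ℤ) + 12 * (b : ℤ)))
      (fun z => E₆ z * ∑ i ∈ Finset.range μ, (Δ z ^ a * (p i).eval (jFun z)) *
        (Δ (heckeDiagMatrix N • z) ^ b * jN N z ^ i)) := by
  have hΓ : (1 : ℝ) ∈ (Γ₀N N).strictPeriods :=
    CongruenceSubgroup.one_mem_strictPeriods_Gamma0 N
  have hle : (Γ₀N N) ≤ 𝒮ℒ := Subgroup.map_le_range _ _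
  have hD : ∀ i ∈ Finset.range μ, HasConj (Γ₀N N) σ (12 * (b : ℤ))
      (fun z => Δ (heckeDiagMatrix N • z) ^ b * jN N z ^ i) := by
    intro i hi
    refine ((hasConj_discriminant_pow_mul_jFun_pow σ
      ((Finset.mem_range.mp hi).le.trans hb)).dilate N).congr ?_
    funext z
    rw [jFun_heckeDiagMatrix_smul]
  have hA := ((hasConj_levelOne σ E₆).restrict hle).mul hΓ (HasConj.sum hΓ _ fun i hi =>
      ((hasConj_discriminant_pow_mul_eval σ (p i) (hp i hi)).restrict hle).mul hΓ (hD i hi))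
  refine hA.congr ?_
  funext z
  simp only [Pi.mul_apply, Finset.sum_apply]

/-- Clearing denominators in the function field identity and conjugating: the conjugate of the
`q`-expansion of `f` is a quotient of two modular forms on `Γ₀(N)`. -/
theorem exists_conj_ratio {N : ℕ} [NeZero N] (f : CuspForm (Gamma0 N) 2) (s : ℂ[X])
    (p : ℕ → ℂ[X]) (μ : ℕ) (hs : s ≠ 0)
    (h : ∀ z : ℍ, f z * E₄ z * s.eval (jFun z) =
      E₆ z * ∑ i ∈ Finset.range μ, (p i).eval (jFun z) * jN N z ^ i) :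
    ∃ (w : ℤ) (u : ModularForm (Gamma0 N) (w + 2)) (v : ModularForm (Gamma0 N) w),
      (⇑v : ℍ → ℂ) ≠ 0 ∧
        qExpansion 1 u = PowerSeries.map σ (qExpansion 1 f) * qExpansion 1 v := by
  classical
  have hΓ : (1 : ℝ) ∈ (Γ₀N N).strictPeriods :=
    CongruenceSubgroup.one_mem_strictPeriods_Gamma0 N
  -- a common bound for the degrees
  set a : ℕ := (Finset.range μ).sup (fun i => (p i).natDegree) + s.natDegree with ha
  have hpa : ∀ i ∈ Finset.range μ, (p i).natDegree ≤ a := fun i hi =>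
    le_trans (Finset.le_sup (f := fun i => (p i).natDegree) hi) (Nat.le_add_right _ _)
  have hsa : s.natDegree ≤ a := Nat.le_add_left _ _
  obtain ⟨GA, GA', hGA, eA⟩ := (hasConj_num σ N a μ μ p hpa le_rfl).cast
    (show (6 : ℤ) + (12 * (a : ℤ) + 12 * (μ : ℤ)) = (4 + (12 * (a : ℤ) + 12 * (μ : ℤ))) + 2 by ring)
  obtain ⟨GS, GS', hGS, eS⟩ := hasConj_den σ N a μ s hsa
  have key : (⇑GA : ℍ → ℂ) = ⇑f * ⇑GS := by
    rw [hGA, hGS]
    funext z
    simp only [Pi.mul_apply]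
    have hz := h z
    calc E₆ z * ∑ i ∈ Finset.range μ, Δ z ^ a * (p i).eval (jFun z) *
          (Δ (heckeDiagMatrix N • z) ^ μ * jN N z ^ i)
        = (E₆ z * ∑ i ∈ Finset.range μ, (p i).eval (jFun z) * jN N z ^ i) *
            (Δ z ^ a * Δ (heckeDiagMatrix N • z) ^ μ) := by
          rw [Finset.mul_sum, Finset.mul_sum, Finset.sum_mul]
          refine Finset.sum_congr rfl fun i _ => ?_
          ring
      _ = f z * (E₄ z * (Δ z ^ a * s.eval (jFun z) * Δ (heckeDiagMatrix N • z) ^ μ)) := by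
          rw [← hz]
          ring
  have hq : qExpansion 1 GA = qExpansion 1 f * qExpansion 1 GS := by
    rw [key]
    exact ModularForm.qExpansion_mul_coe one_pos hΓ f GS
  refine ⟨4 + (12 * (a : ℤ) + 12 * (μ : ℤ)), GA', GS', ?_, ?_⟩
  · intro hv
    have h0 : PowerSeries.map σ (qExpansion 1 GS) = 0 := by
      rw [← eS, hv, UpperHalfPlane.qExpansion_zero]
    have h2 : ∀ z : ℍ, GS z = 0 :=
      eq_zero_of_qExpansion_eq_zero hΓ GS (eq_zero_of_map_eq_zero σ _ h0)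
    refine hs (eq_zero_of_E₄_mul_eval s fun z => ?_)
    have hz := h2 z
    rw [hGS] at hz
    have hΔ : Δ z ≠ 0 := discriminant_ne_zero z
    have hΔ' : Δ (heckeDiagMatrix N • z) ≠ 0 := discriminant_ne_zero _
    rcases mul_eq_zero.mp hz with h | h
    · rw [h, zero_mul]
    · rcases mul_eq_zero.mp h with h | h
      · rcases mul_eq_zero.mp h with h | h
        · exact absurd h (pow_ne_zero _ hΔ)
        · rw [h, mul_zero]
      · exact absurd h (pow_ne_zero _ hΔ')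
  · rw [eA, hq, map_mul, eS]

end Fermat.Agent.S23.ConjRatio

end
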