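/-
S23, conjugation step for the Lagrange interpolation route: if
`F * ∑ n < μ, Q_n u ^ n v ^ (μ - 1 - n) = ∑ n < μ, R_n u ^ n v ^ (μ - 1 - n)` with level one
forms `Q_n`, `R_n` and forms `u`, `v` on `Γ₀(N)` having conjugates, then for every ring
endomorphism `σ` of `ℂ` the conjugated `q`-series `σ(F)` is a quotient of two modular forms
on `Γ₀(N)`.
-/
import Mathlib
import Fermat.Agent.S23.ConjRatio
import Fermat.Agent.S23.UV

set_option autoImplicit false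

noncomputable section

open UpperHalfPlane ModularForm ModularFormClass Matrix.SpecialLinearGroup
open CongruenceSubgroup
open scoped MatrixGroups ModularForm Manifold

namespace Fermat.Agent.S23.ConjRatio

open Fermat.Agent.S23.LevelOne Fermat.Agent.S23.Dilate Fermat.Agent.S23.UV

variable (σ : ℂ →+* ℂ)

/-- `u = E₄(N ·)³` has a (trivial) conjugate. -/
theorem hasConj_uForm (N : ℕ) [NeZero N] :
    HasConj (Subgroup.map (mapGL ℝ) (Gamma0 N)) σ 12 ⇑(uForm N) :=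
  ⟨uForm N, uForm N, rfl, (map_qExpansion_uForm σ N).symm⟩

/-- `v = Δ(N ·)` has a (trivial) conjugate. -/
theorem hasConj_vForm (N : ℕ) [NeZero N] :
    HasConj (Subgroup.map (mapGL ℝ) (Gamma0 N)) σ 12 ⇑(vForm N) :=
  ⟨vForm N, vForm N, rfl, (map_qExpansion_vForm σ N).symm⟩

/-- A homogeneous combination `∑ n < μ, Q_n u ^ n v ^ (μ - 1 - n)` with level one coefficients
has a conjugate. -/
theorem hasConj_homog (N : ℕ) [NeZero N] {w k₂ : ℤ} {u v : ℍ → ℂ}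
    (hu : HasConj (Subgroup.map (mapGL ℝ) (Gamma0 N)) σ w u)
    (hv : HasConj (Subgroup.map (mapGL ℝ) (Gamma0 N)) σ w v)
    (μ : ℕ) (Q : ℕ → ModularForm 𝒮ℒ k₂) :
    HasConj (Subgroup.map (mapGL ℝ) (Gamma0 N)) σ (k₂ + w * ((μ : ℤ) - 1))
      (fun τ => ∑ n ∈ Finset.range μ, Q n τ * u τ ^ n * v τ ^ (μ - 1 - n)) := by
  have hΓ : (1 : ℝ) ∈ (Subgroup.map (mapGL ℝ) (Gamma0 N)).strictPeriods :=
    CongruenceSubgroup.one_mem_strictPeriods_Gamma0 N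
  have hle : Subgroup.map (mapGL ℝ) (Gamma0 N) ≤ 𝒮ℒ := Subgroup.map_le_range _ _
  have h1 : HasConj (Subgroup.map (mapGL ℝ) (Gamma0 N)) σ (k₂ + w * ((μ : ℤ) - 1))
      (∑ n ∈ Finset.range μ, ⇑(Q n) * u ^ n * v ^ (μ - 1 - n)) := by
    refine HasConj.sum hΓ _ fun n hn => ?_
    have hn' : n < μ := Finset.mem_range.mp hn
    have hcast : ((μ - 1 - n : ℕ) : ℤ) = (μ : ℤ) - 1 - n := by omega
    refine ((((hasConj_levelOne σ (Q n)).restrict hle).mul hΓ (hu.pow hΓ n)).mul hΓ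
      (hv.pow hΓ (μ - 1 - n))).cast ?_
    rw [hcast]
    ring
  refine h1.congr ?_
  funext τ
  simp only [Finset.sum_apply, Pi.mul_apply, Pi.pow_apply]

/-- **Conjugation of a Lagrange quotient.** -/
theorem exists_conj_ratio_lag {N : ℕ} [NeZero N] {k w k₁ k₂ : ℤ}
    {𝓕 : Type*} [FunLike 𝓕 ℍ ℂ] [ModularFormClass 𝓕 (Gamma0 N) k] (F : 𝓕)
    (u v : ModularForm (Gamma0 N) w)
    (hu : HasConj (Subgroup.map (mapGL ℝ) (Gamma0 N)) σ w ⇑u)
    (hv : HasConj (Subgroup.map (mapGL ℝ) (Gamma0 N)) σ w ⇑v)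
    (μ : ℕ) (R : ℕ → ModularForm 𝒮ℒ k₁) (Q : ℕ → ModularForm 𝒮ℒ k₂) (hk : k₁ = k + k₂)
    (hne : ∃ τ : ℍ, ∑ n ∈ Finset.range μ, Q n τ * u τ ^ n * v τ ^ (μ - 1 - n) ≠ 0)
    (h : ∀ τ : ℍ, F τ * ∑ n ∈ Finset.range μ, Q n τ * u τ ^ n * v τ ^ (μ - 1 - n) =
      ∑ n ∈ Finset.range μ, R n τ * u τ ^ n * v τ ^ (μ - 1 - n)) :
    ∃ (W : ℤ) (A' : ModularForm (Gamma0 N) (W + k)) (B' : ModularForm (Gamma0 N) W),
      (⇑B' : ℍ → ℂ) ≠ 0 ∧
        qExpansion 1 A' = PowerSeries.map σ (qExpansion 1 F) * qExpansion 1 B' := by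
  have hΓ : (1 : ℝ) ∈ (Subgroup.map (mapGL ℝ) (Gamma0 N)).strictPeriods :=
    CongruenceSubgroup.one_mem_strictPeriods_Gamma0 N
  obtain ⟨GA, GA', hGA, eA⟩ := (hasConj_homog σ N hu hv μ R).cast
    (show k₁ + w * ((μ : ℤ) - 1) = (k₂ + w * ((μ : ℤ) - 1)) + k by rw [hk]; ring)
  obtain ⟨GB, GB', hGB, eB⟩ := hasConj_homog σ N hu hv μ Q
  have key : (⇑GA : ℍ → ℂ) = ⇑F * ⇑GB := by
    rw [hGA, hGB]
    funext τ
    simp only [Pi.mul_apply]
    exact (h τ).symm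
  have hq : qExpansion 1 GA = qExpansion 1 F * qExpansion 1 GB := by
    rw [key]
    exact ModularForm.qExpansion_mul_coe one_pos hΓ F GB
  refine ⟨k₂ + w * ((μ : ℤ) - 1), GA', GB', ?_, ?_⟩
  · intro hv0
    have h0 : PowerSeries.map σ (qExpansion 1 GB) = 0 := by
      rw [← eB, hv0, UpperHalfPlane.qExpansion_zero]
    have h2 : ∀ z : ℍ, GB z = 0 :=
      eq_zero_of_qExpansion_eq_zero hΓ GB (eq_zero_of_map_eq_zero σ _ h0)
    obtain ⟨τ, hτ⟩ := hne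
    apply hτ
    have := h2 τ
    rw [hGB] at this
    exact this
  · rw [eA, hq, map_mul, eB]

end Fermat.Agent.S23.ConjRatio

end
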